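import Mathlib
import Fermat.Prelude.Def_FLTPrelim_GaloisRep

set_option autoImplicit false

open WeierstrassCurve WeierstrassCurve.Affine WeierstrassCurve.Affine.Point

namespace Fermat.Agent.S51.helper2811

/-- The frozen definitions use `DivisionRing.toRatAlgebra` as the `ℚ`-algebra structure on
`AlgebraicClosure ℚ`; instance search does not see that this is an algebraic closure. -/
theorem ratAlgebra_eq :
    (DivisionRing.toRatAlgebra : Algebra ℚ (AlgebraicClosure ℚ)) = AlgebraicClosure.instAlgebra ℚ :=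
  Subsingleton.elim _ _

theorem isAlgClosure_rat : IsAlgClosure ℚ (AlgebraicClosure ℚ) := by
  rw [ratAlgebra_eq]
  infer_instance

theorem isGalois_rat : IsGalois ℚ (AlgebraicClosure ℚ) :=
  haveI := isAlgClosure_rat
  inferInstance

/-- An element of `AlgebraicClosure ℚ` fixed by every `ℚ`-automorphism is rational. -/
theorem fixed_mem_range (x : AlgebraicClosure ℚ)
    (h : ∀ σ : AlgebraicClosure ℚ ≃ₐ[ℚ] AlgebraicClosure ℚ, σ x = x) :
    ∃ q : ℚ, algebraMap ℚ (AlgebraicClosure ℚ) q = x :=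
  haveI := isGalois_rat
  (InfiniteGalois.mem_range_algebraMap_iff_fixed (k := ℚ) (K := AlgebraicClosure ℚ) x).mpr h

variable {E : WeierstrassCurve ℚ} {n : ℕ}

/-- The Galois action on an affine point, in coordinates. -/
theorem smul_some (σ : AlgebraicClosure ℚ ≃ₐ[ℚ] AlgebraicClosure ℚ) {x y : AlgebraicClosure ℚ}
    (h : (E⁄(AlgebraicClosure ℚ)).Nonsingular x y) :
    ∃ h' : (E⁄(AlgebraicClosure ℚ)).Nonsingular (σ x) (σ y),
      σ • (Point.some x y h : (E⁄(AlgebraicClosure ℚ)).Point) = Point.some (σ x) (σ y) h' :=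
  ⟨_, rfl⟩

/-- The coercion of the Galois action on the torsion submodule. -/
theorem coe_smul_torsion (σ : AlgebraicClosure ℚ ≃ₐ[ℚ] AlgebraicClosure ℚ)
    (P : Submodule.torsionBy ℤ (E⁄(AlgebraicClosure ℚ)).Point n) :
    ((σ • P : Submodule.torsionBy ℤ (E⁄(AlgebraicClosure ℚ)).Point n) :
      (E⁄(AlgebraicClosure ℚ)).Point) = σ • (P : (E⁄(AlgebraicClosure ℚ)).Point) :=
  rfl

/-- If the x-coordinate of `Q` is among those of the affine points in a Galois-stable set -/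
theorem smul_x_eq (σ : AlgebraicClosure ℚ ≃ₐ[ℚ] AlgebraicClosure ℚ)
    (P Q : Submodule.torsionBy ℤ (E⁄(AlgebraicClosure ℚ)).Point n)
    {x y x' y' : AlgebraicClosure ℚ} {h : (E⁄(AlgebraicClosure ℚ)).Nonsingular x y}
    {h' : (E⁄(AlgebraicClosure ℚ)).Nonsingular x' y'}
    (hP : (P : (E⁄(AlgebraicClosure ℚ)).Point) = Point.some x y h)
    (hQ : (Q : (E⁄(AlgebraicClosure ℚ)).Point) = Point.some x' y' h')
    (hσ : σ • P = Q ∨ σ • P = -Q) : σ x = x' := by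
  have h1 : ((σ • P : Submodule.torsionBy ℤ (E⁄(AlgebraicClosure ℚ)).Point n) :
      (E⁄(AlgebraicClosure ℚ)).Point) = σ • (Point.some x y h : (E⁄(AlgebraicClosure ℚ)).Point) := by
    rw [coe_smul_torsion, hP]
  obtain ⟨h'', h2⟩ := smul_some (E := E) σ h
  rw [h2] at h1
  rcases hσ with hσ | hσ
  · rw [hσ, hQ] at h1
    exact ((Point.some.injEq ..).mp h1).1.symm
  · rw [hσ, Submodule.coe_neg, hQ, Point.neg_some] at h1
    exact ((Point.some.injEq ..).mp h1).1.symm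

theorem smul_ne_zero (σ : AlgebraicClosure ℚ ≃ₐ[ℚ] AlgebraicClosure ℚ)
    (P : Submodule.torsionBy ℤ (E⁄(AlgebraicClosure ℚ)).Point n)
    {x y : AlgebraicClosure ℚ} {h : (E⁄(AlgebraicClosure ℚ)).Nonsingular x y}
    (hP : (P : (E⁄(AlgebraicClosure ℚ)).Point) = Point.some x y h) : σ • P ≠ 0 := by
  intro h0
  have h1 : ((σ • P : Submodule.torsionBy ℤ (E⁄(AlgebraicClosure ℚ)).Point n) :
      (E⁄(AlgebraicClosure ℚ)).Point) = σ • (Point.some x y h : (E⁄(AlgebraicClosure ℚ)).Point) := by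
    rw [coe_smul_torsion, hP]
  obtain ⟨h'', h2⟩ := smul_some (E := E) σ h
  rw [h2, h0] at h1
  exact Point.some_ne_zero h'' h1.symm

/-- **Galois descent, 3-part**: if a Galois-stable submodule `N` of `E[n]` consists of
`0, P, -P` with `P = (x, y)` affine, then `x` is rational. -/
theorem x_rational_of_stable
    (N : Submodule (ZMod n) (Submodule.torsionBy ℤ (E⁄(AlgebraicClosure ℚ)).Point n))
    (hN : IsGaloisStable ℚ N)
    (P : Submodule.torsionBy ℤ (E⁄(AlgebraicClosure ℚ)).Point n) (hPN : P ∈ N)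
    {x y : AlgebraicClosure ℚ} {h : (E⁄(AlgebraicClosure ℚ)).Nonsingular x y}
    (hP : (P : (E⁄(AlgebraicClosure ℚ)).Point) = Point.some x y h)
    (hall : ∀ Q ∈ N, Q = 0 ∨ Q = P ∨ Q = -P) :
    ∃ q : ℚ, algebraMap ℚ (AlgebraicClosure ℚ) q = x := by
  apply fixed_mem_range
  intro σ
  rcases hall _ (hN σ P hPN) with h0 | h1
  · exact absurd h0 (smul_ne_zero σ P hP)
  · exact smul_x_eq σ P P hP hP h1

/-- **Galois descent, 5-part**: if a Galois-stable submodule `N` of `E[n]` consists of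
`0, ±P, ±Q` with `P = (x₁, y₁)`, `Q = (x₂, y₂)` affine, then `x₁ + x₂` and `x₁ * x₂`
are rational. -/
theorem sym_rational_of_stable
    (N : Submodule (ZMod n) (Submodule.torsionBy ℤ (E⁄(AlgebraicClosure ℚ)).Point n))
    (hN : IsGaloisStable ℚ N)
    (P Q : Submodule.torsionBy ℤ (E⁄(AlgebraicClosure ℚ)).Point n) (hPN : P ∈ N) (hQN : Q ∈ N)
    {x₁ y₁ x₂ y₂ : AlgebraicClosure ℚ} {h₁ : (E⁄(AlgebraicClosure ℚ)).Nonsingular x₁ y₁}
    {h₂ : (E⁄(AlgebraicClosure ℚ)).Nonsingular x₂ y₂}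
    (hP : (P : (E⁄(AlgebraicClosure ℚ)).Point) = Point.some x₁ y₁ h₁)
    (hQ : (Q : (E⁄(AlgebraicClosure ℚ)).Point) = Point.some x₂ y₂ h₂)
    (hall : ∀ R ∈ N, R = 0 ∨ (R = P ∨ R = -P) ∨ (R = Q ∨ R = -Q)) :
    (∃ e₁ : ℚ, algebraMap ℚ (AlgebraicClosure ℚ) e₁ = x₁ + x₂) ∧
    (∃ e₂ : ℚ, algebraMap ℚ (AlgebraicClosure ℚ) e₂ = x₁ * x₂) := by
  have key : ∀ σ : AlgebraicClosure ℚ ≃ₐ[ℚ] AlgebraicClosure ℚ,
      (σ x₁ = x₁ ∧ σ x₂ = x₂) ∨ (σ x₁ = x₂ ∧ σ x₂ = x₁) := by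
    intro σ
    have hx₁ : σ x₁ = x₁ ∨ σ x₁ = x₂ := by
      rcases hall _ (hN σ P hPN) with h0 | h1 | h2
      · exact absurd h0 (smul_ne_zero σ P hP)
      · exact Or.inl (smul_x_eq σ P P hP hP h1)
      · exact Or.inr (smul_x_eq σ P Q hP hQ h2)
    have hx₂ : σ x₂ = x₁ ∨ σ x₂ = x₂ := by
      rcases hall _ (hN σ Q hQN) with h0 | h1 | h2
      · exact absurd h0 (smul_ne_zero σ Q hQ)
      · exact Or.inl (smul_x_eq σ Q P hQ hP h1)
      · exact Or.inr (smul_x_eq σ Q Q hQ hQ h2)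
    rcases hx₁ with a | a <;> rcases hx₂ with b | b
    · have : x₁ = x₂ := σ.injective (a.trans b.symm)
      subst this
      exact Or.inl ⟨a, b⟩
    · exact Or.inl ⟨a, b⟩
    · exact Or.inr ⟨a, b⟩
    · have : x₁ = x₂ := σ.injective (a.trans b.symm)
      subst this
      exact Or.inl ⟨a, b⟩
  constructor
  · apply fixed_mem_range
    intro σ
    rcases key σ with ⟨a, b⟩ | ⟨a, b⟩
    · rw [map_add, a, b]
    · rw [map_add, a, b, add_comm]
  · apply fixed_mem_range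
    intro σ
    rcases key σ with ⟨a, b⟩ | ⟨a, b⟩
    · rw [map_mul, a, b]
    · rw [map_mul, a, b, mul_comm]

/-- In a finite `ZMod p`-vector space with fewer than `p ^ 3` elements, a proper nonzero
submodule is a line. -/
theorem exists_generator_of_proper {p : ℕ} [Fact p.Prime] {T : Type*} [AddCommGroup T]
    [Module (ZMod p) T] [Finite T] (hT : Nat.card T < p ^ 3) (N : Submodule (ZMod p) T)
    (h0 : N ≠ ⊥) (h1 : N ≠ ⊤) :
    ∃ P ∈ N, P ≠ 0 ∧ ∀ Q ∈ N, ∃ k : ZMod p, Q = k • P := by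
  classical
  have hp : 1 < p := (Fact.out : p.Prime).one_lt
  have : Fintype T := Fintype.ofFinite T
  have hcard : Nat.card T = p ^ Module.finrank (ZMod p) T := by
    rw [Nat.card_eq_fintype_card, Module.card_eq_pow_finrank (K := ZMod p) (V := T), ZMod.card]
  have hfr : Module.finrank (ZMod p) T < 3 := by
    rw [hcard] at hT
    exact (Nat.pow_lt_pow_iff_right hp).mp hT
  have hN1 : Module.finrank (ZMod p) N < Module.finrank (ZMod p) T := Submodule.finrank_lt h1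
  have hN0 : 0 < Module.finrank (ZMod p) N := by
    rw [Module.finrank_pos_iff_exists_ne_zero]
    obtain ⟨x, hx, hx0⟩ := (Submodule.ne_bot_iff N).mp h0
    exact ⟨⟨x, hx⟩, fun h => hx0 (congrArg Subtype.val h)⟩
  have hN : Module.finrank (ZMod p) N = 1 := by omega
  obtain ⟨v, hv0, hv⟩ := finrank_eq_one_iff'.mp hN
  refine ⟨v, v.2, fun h => hv0 (Subtype.ext h), fun Q hQ => ?_⟩
  obtain ⟨c, hc⟩ := hv ⟨Q, hQ⟩
  exact ⟨c, by rw [← Submodule.coe_smul, hc]⟩


theorem zmod3_two : (2 : ZMod 3) = -1 := by decide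
theorem zmod5_three : (3 : ZMod 5) = -2 := by decide
theorem zmod5_four : (4 : ZMod 5) = -1 := by decide
theorem zmod5_two_ne : (2 : ZMod 5) ≠ 0 := by decide

theorem line3 {T : Type*} [AddCommGroup T] [Module (ZMod 3) T] [Finite T]
    (hT : Nat.card T < 27) (N : Submodule (ZMod 3) T) (h0 : N ≠ ⊥) (h1 : N ≠ ⊤) :
    ∃ P ∈ N, P ≠ 0 ∧ ∀ Q ∈ N, Q = 0 ∨ Q = P ∨ Q = -P := by
  have : Fact (Nat.Prime 3) := ⟨by norm_num⟩
  obtain ⟨P, hP, hP0, hall⟩ := exists_generator_of_proper (p := 3) (by norm_num; exact hT) N h0 h1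
  refine ⟨P, hP, hP0, fun Q hQ => ?_⟩
  obtain ⟨k, rfl⟩ := hall Q hQ
  fin_cases k
  · left
    show (0 : ZMod 3) • P = 0
    rw [zero_smul]
  · right; left
    show (1 : ZMod 3) • P = P
    rw [one_smul]
  · right; right
    show (2 : ZMod 3) • P = -P
    rw [zmod3_two, neg_smul, one_smul]

theorem line5 {T : Type*} [AddCommGroup T] [Module (ZMod 5) T] [Finite T]
    (hT : Nat.card T < 125) (N : Submodule (ZMod 5) T) (h0 : N ≠ ⊥) (h1 : N ≠ ⊤) :
    ∃ P ∈ N, P ≠ 0 ∧ ∀ Q ∈ N, Q = 0 ∨ (Q = P ∨ Q = -P) ∨ (Q = P + P ∨ Q = -(P + P)) := by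
  have : Fact (Nat.Prime 5) := ⟨by norm_num⟩
  obtain ⟨P, hP, hP0, hall⟩ := exists_generator_of_proper (p := 5) (by norm_num; exact hT) N h0 h1
  refine ⟨P, hP, hP0, fun Q hQ => ?_⟩
  obtain ⟨k, rfl⟩ := hall Q hQ
  fin_cases k
  · left
    show (0 : ZMod 5) • P = 0
    rw [zero_smul]
  · right; left; left
    show (1 : ZMod 5) • P = P
    rw [one_smul]
  · right; right; left
    show (2 : ZMod 5) • P = P + P
    rw [two_smul]
  · right; right; right
    show (3 : ZMod 5) • P = -(P + P)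
    rw [zmod5_three, neg_smul, two_smul]
  · right; left; right
    show (4 : ZMod 5) • P = -P
    rw [zmod5_four, neg_smul, one_smul]

/-- **3-part glue**: a proper nonzero Galois-stable submodule of `E[3]` (assuming `E[3]` has
fewer than `27` elements) contains an affine point with rational x-coordinate. -/
theorem three_stable_imp
    [Finite (Submodule.torsionBy ℤ (E⁄(AlgebraicClosure ℚ)).Point (3 : ℕ))]
    (hcard : Nat.card (Submodule.torsionBy ℤ (E⁄(AlgebraicClosure ℚ)).Point (3 : ℕ)) < 27)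
    (N : Submodule (ZMod 3) (Submodule.torsionBy ℤ (E⁄(AlgebraicClosure ℚ)).Point (3 : ℕ)))
    (hN : IsGaloisStable ℚ N) (h0 : N ≠ ⊥) (h1 : N ≠ ⊤) :
    ∃ (P : Submodule.torsionBy ℤ (E⁄(AlgebraicClosure ℚ)).Point (3 : ℕ))
      (x y : AlgebraicClosure ℚ) (h : (E⁄(AlgebraicClosure ℚ)).Nonsingular x y) (q : ℚ),
      P ∈ N ∧ (P : (E⁄(AlgebraicClosure ℚ)).Point) = Point.some x y h ∧
        algebraMap ℚ (AlgebraicClosure ℚ) q = x := by
  obtain ⟨P, hPN, hP0, hall⟩ := line3 hcard N h0 h1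
  have hP0' : (P : (E⁄(AlgebraicClosure ℚ)).Point) ≠ 0 := fun h => hP0 (Subtype.ext h)
  cases hP : (P : (E⁄(AlgebraicClosure ℚ)).Point) with
  | zero => exact absurd hP hP0'
  | some x y h =>
    obtain ⟨q, hq⟩ := x_rational_of_stable N hN P hPN hP hall
    exact ⟨P, x, y, h, q, hPN, hP, hq⟩

/-- **5-part glue**: a proper nonzero Galois-stable submodule of `E[5]` (assuming `E[5]` has
fewer than `125` elements) contains an affine point `P = (x₁, y₁)` with `2P = (x₂, y₂)` affine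
such that `x₁ + x₂` and `x₁ * x₂` are rational. -/
theorem five_stable_imp
    [Finite (Submodule.torsionBy ℤ (E⁄(AlgebraicClosure ℚ)).Point (5 : ℕ))]
    (hcard : Nat.card (Submodule.torsionBy ℤ (E⁄(AlgebraicClosure ℚ)).Point (5 : ℕ)) < 125)
    (N : Submodule (ZMod 5) (Submodule.torsionBy ℤ (E⁄(AlgebraicClosure ℚ)).Point (5 : ℕ)))
    (hN : IsGaloisStable ℚ N) (h0 : N ≠ ⊥) (h1 : N ≠ ⊤) :
    ∃ (P : Submodule.torsionBy ℤ (E⁄(AlgebraicClosure ℚ)).Point (5 : ℕ))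
      (x₁ y₁ x₂ y₂ : AlgebraicClosure ℚ) (h₁ : (E⁄(AlgebraicClosure ℚ)).Nonsingular x₁ y₁)
      (h₂ : (E⁄(AlgebraicClosure ℚ)).Nonsingular x₂ y₂) (e₁ e₂ : ℚ),
      P ∈ N ∧ (P : (E⁄(AlgebraicClosure ℚ)).Point) = Point.some x₁ y₁ h₁ ∧
        (P : (E⁄(AlgebraicClosure ℚ)).Point) + (P : (E⁄(AlgebraicClosure ℚ)).Point)
          = Point.some x₂ y₂ h₂ ∧
        algebraMap ℚ (AlgebraicClosure ℚ) e₁ = x₁ + x₂ ∧
        algebraMap ℚ (AlgebraicClosure ℚ) e₂ = x₁ * x₂ := by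
  obtain ⟨P, hPN, hP0, hall⟩ := line5 hcard N h0 h1
  have hP0' : (P : (E⁄(AlgebraicClosure ℚ)).Point) ≠ 0 := fun h => hP0 (Subtype.ext h)
  have h2P0 : P + P ≠ 0 := by
    intro h
    have : Fact (Nat.Prime 5) := ⟨by norm_num⟩
    have h' : (2 : ZMod 5) • P = 0 := by rw [two_smul]; exact h
    rcases smul_eq_zero.mp h' with h2 | h2
    · exact absurd h2 zmod5_two_ne
    · exact hP0 h2
  have h2P0' : (P : (E⁄(AlgebraicClosure ℚ)).Point) + (P : (E⁄(AlgebraicClosure ℚ)).Point) ≠ 0 :=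
    fun h => h2P0 (Subtype.ext h)
  cases hP : (P : (E⁄(AlgebraicClosure ℚ)).Point) with
  | zero => exact absurd hP hP0'
  | some x₁ y₁ h₁ =>
    cases hQ : (P : (E⁄(AlgebraicClosure ℚ)).Point) + (P : (E⁄(AlgebraicClosure ℚ)).Point) with
    | zero => exact absurd hQ h2P0'
    | some x₂ y₂ h₂ =>
      have hQ' : ((P + P : Submodule.torsionBy ℤ (E⁄(AlgebraicClosure ℚ)).Point (5 : ℕ)) :
          (E⁄(AlgebraicClosure ℚ)).Point) = Point.some x₂ y₂ h₂ := by
        rw [Submodule.coe_add]; exact hQ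
      obtain ⟨⟨e₁, he₁⟩, ⟨e₂, he₂⟩⟩ :=
        sym_rational_of_stable N hN P (P + P) hPN (N.add_mem hPN hPN) hP hQ' hall
      exact ⟨P, x₁, y₁, x₂, y₂, h₁, h₂, e₁, e₂, hPN, hP, hQ, he₁, he₂⟩

end Fermat.Agent.S51.helper2811
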