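import Mathlib

/-!
# Rational points on `Y^2 = X (X - 9) (X - 25)` (the modular curve `X₀(15)`)

Height-free descent:
* local analysis (`local_class`) of a rational point of `y^2 = x (x-1) (x-81)` with `x > 81`;
* a Fermat descent (`core`) on `a^2 = b^2 + c^2 = d^2 + 81 c^2`;
* the doubling identity and a `2`-isogeny transfer the result to `Y^2 = X (X-9) (X-25)`.
-/

namespace Fermat.Agent.S51.helper1731

/-- If the valuation of `n` is even at every prime not dividing `K`, then `n = m * B^2`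
with `m ∣ K`. -/
lemma class_lemma (n K : ℕ) (hn : n ≠ 0) (hK : K ≠ 0)
    (h : ∀ ℓ : ℕ, ℓ.Prime → ¬ ℓ ∣ K → Even (n.factorization ℓ)) :
    ∃ m B : ℕ, n = m * B ^ 2 ∧ m ∣ K := by
  obtain ⟨m, B, hmB, hsq⟩ := Nat.sq_mul_squarefree n
  refine ⟨m, B, by rw [← hmB]; ring, ?_⟩
  have hm0 : m ≠ 0 := by
    rintro rfl
    simp at hmB
    exact hn hmB.symm
  have hB0 : B ≠ 0 := by
    rintro rfl
    simp at hmB
    exact hn hmB.symm
  rw [← Nat.factorization_le_iff_dvd hm0 hK]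
  intro ℓ
  by_cases hℓ : ℓ.Prime
  · have hle : m.factorization ℓ ≤ 1 := hsq.natFactorization_le_one ℓ
    by_cases hK' : ℓ ∣ K
    · have : 0 < K.factorization ℓ := hℓ.factorization_pos_of_dvd hK hK'
      omega
    · have hev := h ℓ hℓ hK'
      rw [← hmB, Nat.factorization_mul (pow_ne_zero 2 hB0) hm0, Nat.factorization_pow] at hev
      simp only [Finsupp.coe_add, Finsupp.coe_smul, Pi.add_apply, Pi.smul_apply,
        smul_eq_mul] at hev
      have h0 : m.factorization ℓ = 0 := by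
        rcases Nat.even_or_odd (m.factorization ℓ) with he | ho
        · rcases he with ⟨k, hk⟩
          omega
        · exfalso
          rcases ho with ⟨k, hk⟩
          rcases hev with ⟨j, hj⟩
          omega
      omega
  · rw [Nat.factorization_eq_zero_of_not_prime _ hℓ]
    exact Nat.zero_le _

lemma three_dvd_of_cast (A : ℤ) (h : (A : ZMod 3) = 0) : (3 : ℤ) ∣ A := by
  exact_mod_cast (ZMod.intCast_zmod_eq_zero_iff_dvd A 3).mp h

/-- `3`-adic obstruction. -/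
lemma no_three (A e Z : ℤ) (h : (3 * A ^ 2 - e ^ 2) * (A ^ 2 - 27 * e ^ 2) = Z ^ 2) :
    (3 : ℤ) ∣ e := by
  have key : ∀ a e z : ZMod 3, (3 * a ^ 2 - e ^ 2) * (a ^ 2 - 27 * e ^ 2) = z ^ 2 →
      e = 0 ∨ (a = 0 ∧ z = 0) := by decide
  have h3 := congrArg (Int.cast : ℤ → ZMod 3) h
  push_cast at h3
  rcases key _ _ _ h3 with h1 | ⟨hA, hZ⟩
  · exact three_dvd_of_cast e h1
  obtain ⟨A1, rfl⟩ := three_dvd_of_cast A hA
  obtain ⟨Z1, rfl⟩ := three_dvd_of_cast Z hZ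
  have h' : (27 * A1 ^ 2 - e ^ 2) * (A1 ^ 2 - 3 * e ^ 2) = Z1 ^ 2 := by
    have h9 : (9 : ℤ) * ((27 * A1 ^ 2 - e ^ 2) * (A1 ^ 2 - 3 * e ^ 2)) = 9 * Z1 ^ 2 := by
      linear_combination h
    exact mul_left_cancel₀ (by norm_num) h9
  have key2 : ∀ a e z : ZMod 3, (27 * a ^ 2 - e ^ 2) * (a ^ 2 - 3 * e ^ 2) = z ^ 2 →
      e = 0 ∨ (a = 0 ∧ z = 0) := by decide
  have h3' := congrArg (Int.cast : ℤ → ZMod 3) h'
  push_cast at h3'
  rcases key2 _ _ _ h3' with h1 | ⟨hA1, hZ1⟩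
  · exact three_dvd_of_cast e h1
  obtain ⟨A2, rfl⟩ := three_dvd_of_cast A1 hA1
  obtain ⟨Z2, rfl⟩ := three_dvd_of_cast Z1 hZ1
  have h'' : (243 * A2 ^ 2 - e ^ 2) * (3 * A2 ^ 2 - e ^ 2) = 3 * Z2 ^ 2 := by
    have h9 : (3 : ℤ) * ((243 * A2 ^ 2 - e ^ 2) * (3 * A2 ^ 2 - e ^ 2)) = 3 * (3 * Z2 ^ 2) := by
      linear_combination h'
    exact mul_left_cancel₀ (by norm_num) h9
  have key3 : ∀ a e z : ZMod 3, (243 * a ^ 2 - e ^ 2) * (3 * a ^ 2 - e ^ 2) = 3 * z ^ 2 →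
      e = 0 := by decide
  have h3'' := congrArg (Int.cast : ℤ → ZMod 3) h''
  push_cast at h3''
  exact three_dvd_of_cast e (key3 _ _ _ h3'')

lemma two_dvd_of_cast8 (B : ℤ) (h : 4 * (B : ZMod 8) = 0) : (2 : ℤ) ∣ B := by
  have h1 : ((4 * B : ℤ) : ZMod 8) = 0 := by push_cast; exact h
  have h2 : (8 : ℤ) ∣ 4 * B := by exact_mod_cast (ZMod.intCast_zmod_eq_zero_iff_dvd (4 * B) 8).mp h1
  omega

lemma cast8_of_two_dvd (B : ℤ) (h : (2 : ℤ) ∣ B) : 4 * (B : ZMod 8) = 0 := by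
  have h2 : (8 : ℤ) ∣ 4 * B := by omega
  have h1 : ((4 * B : ℤ) : ZMod 8) = 0 := by
    rw [ZMod.intCast_zmod_eq_zero_iff_dvd]
    exact_mod_cast h2
  push_cast at h1
  exact h1

lemma cast4_of_two_dvd (B : ℤ) (h : (2 : ℤ) ∣ B) : 2 * (B : ZMod 4) = 0 := by
  have h2 : (4 : ℤ) ∣ 2 * B := by omega
  have h1 : ((2 * B : ℤ) : ZMod 4) = 0 := by
    rw [ZMod.intCast_zmod_eq_zero_iff_dvd]
    exact_mod_cast h2
  push_cast at h1
  exact h1

lemma two_dvd_of_cast4 (B : ℤ) (h : 2 * (B : ZMod 4) = 0) : (2 : ℤ) ∣ B := by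
  have h1 : ((2 * B : ℤ) : ZMod 4) = 0 := by push_cast; exact h
  have h2 : (4 : ℤ) ∣ 2 * B := by exact_mod_cast (ZMod.intCast_zmod_eq_zero_iff_dvd (2 * B) 4).mp h1
  omega

/-- `2`-adic obstruction. -/
lemma no_two (m A e B C : ℤ) (hm : m = 2 ∨ m = 10) (hodd : ¬ ((2 : ℤ) ∣ A ∧ (2 : ℤ) ∣ e))
    (h1 : A ^ 2 - e ^ 2 = m * B ^ 2) (h2 : A ^ 2 - 81 * e ^ 2 = m * C ^ 2) : False := by
  have key : ∀ m a e b : ZMod 8, (m = 2 ∨ m = 10) → a ^ 2 - e ^ 2 = m * b ^ 2 →
      ¬ (4 * a = 0 ∧ 4 * e = 0) → 4 * b = 0 ∧ 4 * e ≠ 0 := by decide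
  have hodd8 : ¬ (4 * (A : ZMod 8) = 0 ∧ 4 * (e : ZMod 8) = 0) := fun hh =>
    hodd ⟨two_dvd_of_cast8 A hh.1, two_dvd_of_cast8 e hh.2⟩
  have hm8 : ((m : ZMod 8) = 2 ∨ (m : ZMod 8) = 10) := by
    rcases hm with rfl | rfl
    · left; norm_num
    · right; norm_num
  have h1' := congrArg (Int.cast : ℤ → ZMod 8) h1
  have h2' := congrArg (Int.cast : ℤ → ZMod 8) h2
  push_cast at h1' h2'
  have h2'' : (A : ZMod 8) ^ 2 - (e : ZMod 8) ^ 2 = (m : ZMod 8) * (C : ZMod 8) ^ 2 := by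
    rw [← h2']
    have : (81 : ZMod 8) = 1 := by decide
    rw [this, one_mul]
  obtain ⟨hB, he⟩ := key _ _ _ _ hm8 h1' hodd8
  obtain ⟨hC, -⟩ := key _ _ _ _ hm8 h2'' hodd8
  obtain ⟨B1, rfl⟩ := two_dvd_of_cast8 B hB
  obtain ⟨C1, rfl⟩ := two_dvd_of_cast8 C hC
  have heodd : ¬ (2 : ℤ) ∣ e := fun hh => he (cast8_of_two_dvd e hh)
  have key4 : ∀ e b c : ZMod 4, (10 * e ^ 2 = b ^ 2 - c ^ 2 ∨ 2 * e ^ 2 = b ^ 2 - c ^ 2) →
      2 * e = 0 := by decide
  have h4 : (10 * (e : ZMod 4) ^ 2 = (B1 : ZMod 4) ^ 2 - (C1 : ZMod 4) ^ 2 ∨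
      2 * (e : ZMod 4) ^ 2 = (B1 : ZMod 4) ^ 2 - (C1 : ZMod 4) ^ 2) := by
    rcases hm with rfl | rfl
    · left
      have : 10 * e ^ 2 = B1 ^ 2 - C1 ^ 2 := by linarith
      have := congrArg (Int.cast : ℤ → ZMod 4) this
      push_cast at this
      exact this
    · right
      have : 2 * e ^ 2 = B1 ^ 2 - C1 ^ 2 := by linarith
      have := congrArg (Int.cast : ℤ → ZMod 4) this
      push_cast at this
      exact this
  exact heodd (two_dvd_of_cast4 e (key4 _ _ _ h4))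


/-- Local analysis on `y^2 = x (x - 1) (x - 81)`, integer form. -/
lemma local_nat (p q n₀ : ℕ) (hcop : Nat.Coprime p q) (hq : 0 < q) (hpq : 81 * q < p)
    (hN : p * q * (p - q) * (p - 81 * q) = n₀ * n₀) :
    ∃ A e B : ℕ, p = A ^ 2 ∧ q = e ^ 2 ∧ (p - q = B ^ 2 ∨ p - q = 5 * B ^ 2) := by
  have hp0 : p ≠ 0 := by omega
  have hq0 : q ≠ 0 := by omega
  have hpq0 : p - q ≠ 0 := by omega
  have hpq1 : p - 81 * q ≠ 0 := by omega
  have hn0 : n₀ ≠ 0 := by
    rintro rfl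
    have : p * q * (p - q) * (p - 81 * q) ≠ 0 :=
      mul_ne_zero (mul_ne_zero (mul_ne_zero hp0 hq0) hpq0) hpq1
    exact this (by simpa using hN)
  -- parity of the total valuation
  have hev : ∀ ℓ : ℕ, Even (p.factorization ℓ + q.factorization ℓ + (p - q).factorization ℓ
      + (p - 81 * q).factorization ℓ) := by
    intro ℓ
    have h1 : (p * q * (p - q) * (p - 81 * q)).factorization ℓ = (n₀ * n₀).factorization ℓ := by
      rw [hN]
    rw [Nat.factorization_mul (mul_ne_zero (mul_ne_zero hp0 hq0) hpq0) hpq1,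
      Nat.factorization_mul (mul_ne_zero hp0 hq0) hpq0, Nat.factorization_mul hp0 hq0,
      Nat.factorization_mul hn0 hn0] at h1
    simp only [Finsupp.coe_add, Pi.add_apply] at h1
    rw [h1]
    exact ⟨_, rfl⟩
  -- divisibility facts
  have hdq : ∀ ℓ : ℕ, ℓ.Prime → ℓ ∣ p → ℓ ∣ q → False := fun ℓ hℓ h1 h2 =>
    hℓ.one_lt.ne' (Nat.eq_one_of_dvd_coprimes hcop h1 h2)
  have e1 : p = (p - q) + q := by omega
  have e2 : p = (p - 81 * q) + 81 * q := by omega
  have e3 : p - q = (p - 81 * q) + 80 * q := by omega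
  -- `q` is a square
  obtain ⟨m₁, e, hqe, hm₁⟩ := class_lemma q 1 hq0 one_ne_zero (by
    intro ℓ hℓ _
    by_cases hlq : ℓ ∣ q
    · have h1 : ¬ ℓ ∣ p := fun h => hdq ℓ hℓ h hlq
      have h2 : ¬ ℓ ∣ p - q := fun h => h1 (e1 ▸ dvd_add h hlq)
      have h3 : ¬ ℓ ∣ p - 81 * q := fun h => h1 (e2 ▸ dvd_add h (dvd_mul_of_dvd_right hlq 81))
      have := hev ℓ
      rw [Nat.factorization_eq_zero_of_not_dvd h1, Nat.factorization_eq_zero_of_not_dvd h2,
        Nat.factorization_eq_zero_of_not_dvd h3] at this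
      simpa using this
    · rw [Nat.factorization_eq_zero_of_not_dvd hlq]
      exact ⟨0, rfl⟩)
  have hm₁' : m₁ = 1 := Nat.dvd_one.mp hm₁
  subst hm₁'
  rw [one_mul] at hqe
  -- `p` is a square or three times a square
  obtain ⟨m₂, A, hpA, hm₂⟩ := class_lemma p 3 hp0 (by norm_num) (by
    intro ℓ hℓ hl3
    by_cases hlp : ℓ ∣ p
    · have h1 : ¬ ℓ ∣ q := fun h => hdq ℓ hℓ hlp h
      have h2 : ¬ ℓ ∣ p - q := fun h => h1 ((Nat.dvd_add_right h).mp (e1 ▸ hlp))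
      have h3 : ¬ ℓ ∣ p - 81 * q := by
        intro h
        have h81 : ℓ ∣ 81 * q := (Nat.dvd_add_right h).mp (e2 ▸ hlp)
        rcases (Nat.Prime.dvd_mul hℓ).mp h81 with h' | h'
        · have : ℓ ∣ 3 ^ 4 := by norm_num; exact h'
          exact hl3 (hℓ.dvd_of_dvd_pow this)
        · exact h1 h'
      have := hev ℓ
      rw [Nat.factorization_eq_zero_of_not_dvd h1, Nat.factorization_eq_zero_of_not_dvd h2,
        Nat.factorization_eq_zero_of_not_dvd h3] at this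
      simpa using this
    · rw [Nat.factorization_eq_zero_of_not_dvd hlp]
      exact ⟨0, rfl⟩)
  -- `p - q` is `m₃ * B^2` with `m₃ ∣ 10`
  obtain ⟨m₃, B, hpB, hm₃⟩ := class_lemma (p - q) 10 hpq0 (by norm_num) (by
    intro ℓ hℓ hl10
    by_cases hl : ℓ ∣ p - q
    · have h1 : ¬ ℓ ∣ q := fun h => hdq ℓ hℓ (e1 ▸ dvd_add hl h) h
      have h2 : ¬ ℓ ∣ p := fun h => h1 ((Nat.dvd_add_right hl).mp (e1 ▸ h))
      have h3 : ¬ ℓ ∣ p - 81 * q := by
        intro h
        have h80 : ℓ ∣ 80 * q := (Nat.dvd_add_right h).mp (e3 ▸ hl)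
        rcases (Nat.Prime.dvd_mul hℓ).mp h80 with h' | h'
        · have h'' : ℓ ∣ 2 ^ 4 * 5 := by norm_num; exact h'
          rcases (Nat.Prime.dvd_mul hℓ).mp h'' with h5 | h5
          · exact hl10 (dvd_trans (hℓ.dvd_of_dvd_pow h5) (by norm_num))
          · exact hl10 (dvd_trans h5 (by norm_num))
        · exact h1 h'
      have := hev ℓ
      rw [Nat.factorization_eq_zero_of_not_dvd h1, Nat.factorization_eq_zero_of_not_dvd h2,
        Nat.factorization_eq_zero_of_not_dvd h3] at this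
      simpa using this
    · rw [Nat.factorization_eq_zero_of_not_dvd hl]
      exact ⟨0, rfl⟩)
  have he0 : e ≠ 0 := by
    rintro rfl
    simp at hqe
    exact hq0 hqe
  have hA0 : A ≠ 0 := by
    rintro rfl
    simp at hpA
    exact hp0 hpA
  have hB0 : B ≠ 0 := by
    rintro rfl
    simp at hpB
    exact hpq0 hpB
  -- the product identity in `ℚ`
  have hNQ : (p : ℚ) * q * ((p : ℚ) - q) * ((p : ℚ) - 81 * q) = (n₀ : ℚ) ^ 2 := by
    have := congrArg (Nat.cast : ℕ → ℚ) hN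
    rw [Nat.cast_mul, Nat.cast_mul, Nat.cast_mul, Nat.cast_mul,
      Nat.cast_sub (by omega : q ≤ p), Nat.cast_sub (by omega : 81 * q ≤ p)] at this
    push_cast at this
    rw [this]
    ring
  have hm₂' : m₂ = 1 ∨ m₂ = 3 := (Nat.dvd_prime Nat.prime_three).mp hm₂
  rcases hm₂' with rfl | rfl
  swap
  · -- `p = 3 A^2` is impossible
    exfalso
    have hsq : IsSquare (((3 * (A : ℤ) ^ 2 - (e : ℤ) ^ 2) * ((A : ℤ) ^ 2 - 27 * (e : ℤ) ^ 2) : ℤ) : ℚ) := by
      refine ⟨(n₀ : ℚ) / (3 * A * e), ?_⟩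
      have hA' : (A : ℚ) ≠ 0 := by exact_mod_cast hA0
      have he' : (e : ℚ) ≠ 0 := by exact_mod_cast he0
      rw [hpA, hqe] at hNQ
      push_cast at hNQ ⊢
      field_simp
      linear_combination hNQ
    obtain ⟨Z, hZ⟩ := Rat.isSquare_intCast_iff.mp hsq
    have h3e : (3 : ℤ) ∣ (e : ℤ) := no_three A e Z (by rw [hZ]; ring)
    have h3e' : 3 ∣ e := by exact_mod_cast h3e
    have h3q : 3 ∣ q := by rw [hqe]; exact dvd_pow h3e' two_ne_zero
    have h3p : 3 ∣ p := by rw [hpA]; exact dvd_mul_right 3 _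
    exact hdq 3 Nat.prime_three h3p h3q
  rw [one_mul] at hpA
  refine ⟨A, e, B, hpA, hqe, ?_⟩
  have hm₃' : m₃ ∈ Nat.divisors 10 := Nat.mem_divisors.mpr ⟨hm₃, by norm_num⟩
  have hdiv : Nat.divisors 10 = {1, 2, 5, 10} := by decide
  rw [hdiv] at hm₃'
  simp only [Finset.mem_insert, Finset.mem_singleton] at hm₃'
  have hcast : ((p - q : ℕ) : ℤ) = (A : ℤ) ^ 2 - (e : ℤ) ^ 2 := by
    rw [Nat.cast_sub (by omega : q ≤ p), hpA, hqe]
    push_cast
    ring
  have hodd : ¬ ((2 : ℤ) ∣ (A : ℤ) ∧ (2 : ℤ) ∣ (e : ℤ)) := by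
    rintro ⟨h1, h2⟩
    have h1' : 2 ∣ A := by exact_mod_cast h1
    have h2' : 2 ∣ e := by exact_mod_cast h2
    exact hdq 2 Nat.prime_two (by rw [hpA]; exact dvd_pow h1' two_ne_zero)
      (by rw [hqe]; exact dvd_pow h2' two_ne_zero)
  -- an integer `C` with `A^2 - 81 e^2 = m₃ C^2` when `m₃ ∈ {2, 10}`
  have hC : ∀ m : ℕ, (m = 2 ∨ m = 10) → p - q = m * B ^ 2 → False := by
    intro m hm hpB'
    have hsq : IsSquare ((((m : ℤ) * ((A : ℤ) ^ 2 - 81 * (e : ℤ) ^ 2)) : ℤ) : ℚ) := by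
      refine ⟨(n₀ : ℚ) / (A * e * B), ?_⟩
      have hA' : (A : ℚ) ≠ 0 := by exact_mod_cast hA0
      have he' : (e : ℚ) ≠ 0 := by exact_mod_cast he0
      have hB' : (B : ℚ) ≠ 0 := by exact_mod_cast hB0
      have hpB'' : (p : ℚ) - q = m * (B : ℚ) ^ 2 := by
        have := congrArg (Nat.cast : ℕ → ℚ) hpB'
        rw [Nat.cast_sub (by omega : q ≤ p)] at this
        push_cast at this
        exact this
      rw [hpB'', hpA, hqe] at hNQ
      push_cast at hNQ ⊢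
      field_simp
      linear_combination hNQ
    obtain ⟨Z, hZ⟩ := Rat.isSquare_intCast_iff.mp hsq
    -- `m ∣ Z`
    have hmZ : (m : ℤ) ∣ Z := by
      have hdvd : (m : ℤ) ∣ Z ^ 2 := ⟨_, by rw [sq, ← hZ]⟩
      rcases hm with rfl | rfl
      · exact Int.prime_two.dvd_of_dvd_pow hdvd
      · have h2 : (2 : ℤ) ∣ Z := Int.prime_two.dvd_of_dvd_pow (dvd_trans (by norm_num) hdvd)
        have h5 : (5 : ℤ) ∣ Z := by
          have h5p : Prime (5 : ℤ) := by
            rw [Int.prime_iff_natAbs_prime]; norm_num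
          exact h5p.dvd_of_dvd_pow (dvd_trans (by norm_num) hdvd)
        have : ((2 : ℤ) * 5) ∣ Z := IsCoprime.mul_dvd (by norm_num) h2 h5
        exact_mod_cast this
    obtain ⟨C, rfl⟩ := hmZ
    have hm0 : (m : ℤ) ≠ 0 := by rcases hm with rfl | rfl <;> norm_num
    have h2 : (A : ℤ) ^ 2 - 81 * (e : ℤ) ^ 2 = (m : ℤ) * C ^ 2 := by
      have : (m : ℤ) * ((A : ℤ) ^ 2 - 81 * (e : ℤ) ^ 2) = (m : ℤ) * ((m : ℤ) * C ^ 2) := by
        rw [hZ]; ring
      exact mul_left_cancel₀ hm0 this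
    have h1 : (A : ℤ) ^ 2 - (e : ℤ) ^ 2 = (m : ℤ) * (B : ℤ) ^ 2 := by
      rw [← hcast, hpB']
      push_cast
      ring
    exact no_two (m : ℤ) A e B C (by rcases hm with rfl | rfl <;> simp) hodd h1 h2
  rcases hm₃' with rfl | rfl | rfl | rfl
  · left; rw [hpB]; ring
  · exact (hC 2 (Or.inl rfl) hpB).elim
  · right; exact hpB
  · exact (hC 10 (Or.inr rfl) hpB).elim

/-- Local analysis on `y^2 = x (x - 1) (x - 81)`: a rational point with `x > 81` has
`x` a square and `x - 1` a square or five times a square. -/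
lemma local_class (u v : ℚ) (hu : 81 < u) (h : v ^ 2 = u * (u - 1) * (u - 81)) :
    IsSquare u ∧ (IsSquare (u - 1) ∨ IsSquare (5 * (u - 1))) := by
  have hnum : 0 < u.num := Rat.num_pos.mpr (by linarith)
  obtain ⟨p, hp⟩ : ∃ p : ℕ, (p : ℤ) = u.num := ⟨u.num.toNat, Int.toNat_of_nonneg hnum.le⟩
  obtain ⟨q, hq⟩ : ∃ q : ℕ, q = u.den := ⟨_, rfl⟩
  have hq0 : 0 < q := hq ▸ u.den_pos
  have hcop : Nat.Coprime p q := by
    have := u.reduced
    rw [← hp, ← hq] at this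
    simpa using this
  have hu' : u = (p : ℚ) / q := by
    have h1 := (Rat.num_div_den u).symm
    rw [← hp, ← hq, Int.cast_natCast] at h1
    exact h1
  have hqQ : (0 : ℚ) < q := by exact_mod_cast hq0
  have hpq : 81 * q < p := by
    have : (81 : ℚ) * q < p := by
      rw [hu', lt_div_iff₀ hqQ] at hu
      exact hu
    exact_mod_cast this
  have hsq : IsSquare ((p * q * (p - q) * (p - 81 * q) : ℕ) : ℚ) := by
    refine ⟨v * q ^ 2, ?_⟩
    rw [Nat.cast_mul, Nat.cast_mul, Nat.cast_mul, Nat.cast_sub (by omega : q ≤ p),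
      Nat.cast_sub (by omega : 81 * q ≤ p)]
    push_cast
    have : v * (q : ℚ) ^ 2 * (v * (q : ℚ) ^ 2) = v ^ 2 * (q : ℚ) ^ 4 := by ring
    rw [this, h, hu']
    field_simp
  obtain ⟨n₀, hn₀⟩ := Rat.isSquare_natCast_iff.mp hsq
  obtain ⟨A, e, B, hA, he, hB⟩ := local_nat p q n₀ hcop hq0 hpq hn₀
  have he0 : (e : ℚ) ≠ 0 := by
    intro h0
    have : e = 0 := by exact_mod_cast h0
    subst this
    simp at he
    omega
  have hpQ : (p : ℚ) = (A : ℚ) ^ 2 := by exact_mod_cast hA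
  have hqQ' : (q : ℚ) = (e : ℚ) ^ 2 := by exact_mod_cast he
  have hsub : ((p - q : ℕ) : ℚ) = (p : ℚ) - q := Nat.cast_sub (by omega : q ≤ p)
  have hu1 : u - 1 = ((p : ℚ) - q) / q := by
    rw [hu']
    field_simp
  refine ⟨⟨(A : ℚ) / e, ?_⟩, ?_⟩
  · rw [hu', hpQ, hqQ']
    field_simp
  · rcases hB with hB | hB
    · left
      refine ⟨(B : ℚ) / e, ?_⟩
      have hB' : (p : ℚ) - q = (B : ℚ) ^ 2 := by
        rw [← hsub, hB]
        push_cast
        ring
      rw [hu1, hB', hqQ']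
      field_simp
    · right
      refine ⟨5 * (B : ℚ) / e, ?_⟩
      have hB' : (p : ℚ) - q = 5 * (B : ℚ) ^ 2 := by
        rw [← hsub, hB]
        push_cast
        ring
      rw [hu1, hB', hqQ']
      field_simp

/-- From a rational `w` with `w`, `w - 1`, `w - 81` squares, an integer solution. -/
lemma extract (w : ℚ) (h0 : IsSquare w) (h1 : IsSquare (w - 1)) (h2 : IsSquare (w - 81)) :
    ∃ (A B D : ℤ) (E : ℕ), 0 < E ∧ w.num = A ^ 2 ∧ A ^ 2 = B ^ 2 + (E : ℤ) ^ 2 ∧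
      A ^ 2 = D ^ 2 + 81 * (E : ℤ) ^ 2 := by
  obtain ⟨⟨A, hA⟩, ⟨E, hE⟩⟩ := Rat.isSquare_iff.mp h0
  have hE0 : 0 < E := by
    rcases Nat.eq_zero_or_pos E with rfl | hpos
    · simp at hE
    · exact hpos
  have hEQ : (E : ℚ) ≠ 0 := by exact_mod_cast hE0.ne'
  have hw : w = (A : ℚ) ^ 2 / (E : ℚ) ^ 2 := by
    have := (Rat.num_div_den w).symm
    rw [hA, hE] at this
    rw [this]
    push_cast
    ring
  have hB : IsSquare (((A ^ 2 - (E : ℤ) ^ 2 : ℤ)) : ℚ) := by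
    have : (((A ^ 2 - (E : ℤ) ^ 2 : ℤ)) : ℚ) = (w - 1) * ((E : ℚ) * (E : ℚ)) := by
      push_cast
      rw [hw]
      field_simp
    rw [this]
    exact h1.mul ⟨_, rfl⟩
  have hD : IsSquare (((A ^ 2 - 81 * (E : ℤ) ^ 2 : ℤ)) : ℚ) := by
    have : (((A ^ 2 - 81 * (E : ℤ) ^ 2 : ℤ)) : ℚ) = (w - 81) * ((E : ℚ) * (E : ℚ)) := by
      push_cast
      rw [hw]
      field_simp
    rw [this]
    exact h2.mul ⟨_, rfl⟩
  obtain ⟨B, hB⟩ := Rat.isSquare_intCast_iff.mp hB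
  obtain ⟨D, hD⟩ := Rat.isSquare_intCast_iff.mp hD
  exact ⟨A, B, D, E, hE0, by rw [hA]; ring, by linarith, by linarith⟩

/-- The Fermat descent: two Pythagorean triples with the same hypotenuse and legs `c`, `9 c`
do not exist. -/
lemma core : ∀ a b c d : ℕ, 0 < c → a ^ 2 = b ^ 2 + c ^ 2 → a ^ 2 = d ^ 2 + 81 * c ^ 2 → False := by
  intro a
  induction a using Nat.strong_induction_on with
  | _ a ih =>
  intro b c d hc h1 h2
  have hba : b < a := by
    by_contra hcon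
    have : a ^ 2 ≤ b ^ 2 := Nat.pow_le_pow_left (not_lt.mp hcon) 2
    have : 0 < c ^ 2 := by positivity
    omega
  have hda : d < a := by
    by_contra hcon
    have : a ^ 2 ≤ d ^ 2 := Nat.pow_le_pow_left (not_lt.mp hcon) 2
    have : 0 < c ^ 2 := by positivity
    omega
  have ha2 : 2 ≤ a := by
    by_contra hcon
    have : a ^ 2 ≤ 1 ^ 2 := Nat.pow_le_pow_left (by omega) 2
    have : 0 < c ^ 2 := by positivity
    omega
  have hcQ : (0 : ℚ) < c := by exact_mod_cast hc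
  have haQ : (0 : ℚ) < a := by exact_mod_cast (by omega : 0 < a)
  have hbQ : (0 : ℚ) ≤ b := by positivity
  have hdQ : (0 : ℚ) ≤ d := by positivity
  have hbaQ : (b : ℚ) < a := by exact_mod_cast hba
  have hdaQ : (d : ℚ) < a := by exact_mod_cast hda
  have h1Q : (a : ℚ) ^ 2 = (b : ℚ) ^ 2 + (c : ℚ) ^ 2 := by exact_mod_cast h1
  have h2Q : (a : ℚ) ^ 2 = (d : ℚ) ^ 2 + 81 * (c : ℚ) ^ 2 := by exact_mod_cast h2
  obtain ⟨r₁, hr₁⟩ : ∃ r : ℚ, r = (a : ℚ) / c := ⟨_, rfl⟩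
  obtain ⟨r₂, hr₂⟩ : ∃ r : ℚ, r = (b : ℚ) / c := ⟨_, rfl⟩
  obtain ⟨r₃, hr₃⟩ : ∃ r : ℚ, r = (d : ℚ) / c := ⟨_, rfl⟩
  have e1 : r₁ ^ 2 - r₂ ^ 2 = 1 := by
    rw [hr₁, hr₂]
    field_simp
    linarith
  have e2 : r₁ ^ 2 - r₃ ^ 2 = 81 := by
    rw [hr₁, hr₃]
    field_simp
    linarith
  have p1 : 0 < r₁ := by rw [hr₁]; positivity
  have p2 : 0 ≤ r₂ := by rw [hr₂]; positivity
  have p3 : 0 ≤ r₃ := by rw [hr₃]; positivity
  have l2 : r₂ < r₁ := by rw [hr₁, hr₂]; exact div_lt_div_of_pos_right hbaQ hcQ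
  have l3 : r₃ < r₁ := by rw [hr₁, hr₃]; exact div_lt_div_of_pos_right hdaQ hcQ
  have p23 : 0 < r₂ + r₃ := by
    rcases p2.lt_or_eq with h | h
    · linarith
    · rcases p3.lt_or_eq with h' | h'
      · linarith
      · exfalso
        rw [← h] at e1
        rw [← h'] at e2
        linarith
  -- the halved point
  obtain ⟨u, hu⟩ : ∃ u : ℚ, u = (r₁ + r₃) * (r₁ + r₂) := ⟨_, rfl⟩
  obtain ⟨v, hv⟩ : ∃ v : ℚ, v = (r₁ + r₂) * (r₁ + r₃) * (r₂ + r₃) := ⟨_, rfl⟩
  have hu1 : u - 1 = (r₁ + r₂) * (r₂ + r₃) := by rw [hu]; linear_combination e1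
  have hu81 : u - 81 = (r₁ + r₃) * (r₂ + r₃) := by rw [hu]; linear_combination e2
  have hu_gt : 81 < u := by
    have : 0 < (r₁ + r₃) * (r₂ + r₃) := by positivity
    linarith
  have hv2 : v ^ 2 = u * (u - 1) * (u - 81) := by
    rw [hu1, hu81, hu, hv]
    ring
  obtain ⟨hsq, hcase⟩ := local_class u v hu_gt hv2
  have hu0 : u ≠ 0 := by linarith
  have hu10 : u - 1 ≠ 0 := by linarith
  have hu810 : u - 81 ≠ 0 := by linarith
  have h12 : r₁ - r₂ ≠ 0 := by linarith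
  have hab : ((a : ℤ) - b) ≠ 0 := by
    have : (b : ℤ) < a := by exact_mod_cast hba
    omega
  have habQ : (a : ℚ) - b ≠ 0 := by linarith
  -- a point `w = m / (a - b)` with `w`, `w - 1`, `w - 81` squares, `0 < m ≤ a + d`
  have key : ∃ (w : ℚ) (m : ℤ), IsSquare w ∧ IsSquare (w - 1) ∧ IsSquare (w - 81) ∧
      w = (m : ℚ) / (((a : ℤ) - b : ℤ) : ℚ) ∧ 0 < m ∧ m ≤ (a : ℤ) + d := by
    rcases hcase with hc1 | hc5
    · refine ⟨u, (a : ℤ) + d, hsq, hc1, ?_, ?_, ?_, le_refl _⟩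
      · have : u - 81 = v ^ 2 / (u * (u - 1)) := by
          rw [hv2]
          field_simp
        rw [this]
        exact (IsSquare.sq v).div (hsq.mul hc1)
      · have : u * (r₁ - r₂) = r₁ + r₃ := by rw [hu]; linear_combination (r₁ + r₃) * e1
        have hu_eq : u = (r₁ + r₃) / (r₁ - r₂) := by
          field_simp
          linarith
        rw [hu_eq, hr₁, hr₂, hr₃]
        push_cast
        field_simp
      · have : (0 : ℤ) < a := by exact_mod_cast (by omega : 0 < a)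
        positivity
    · obtain ⟨u', hu'⟩ : ∃ u' : ℚ, u' = (r₁ - r₃) * (r₁ + r₂) := ⟨_, rfl⟩
      have hw : u' * (u - 81) = 81 * (u - 1) := by
        rw [hu1, hu81, hu']
        linear_combination (r₁ + r₂) * (r₂ + r₃) * e2
      have h5' : IsSquare (5 * (u - 81)) := by
        have : 5 * (u - 81) = (5 * v) ^ 2 / (u * (5 * (u - 1))) := by
          rw [mul_pow, hv2]
          field_simp
        rw [this]
        exact (IsSquare.sq (5 * v)).div (hsq.mul hc5)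
      have hu'_eq : u' = 81 * (u - 1) / (u - 81) := by
        field_simp
        linarith
      refine ⟨u', (a : ℤ) - d, ?_, ?_, ?_, ?_, ?_, ?_⟩
      · have : u' = (9 : ℚ) ^ 2 * (5 * (u - 1)) / (5 * (u - 81)) := by
          rw [hu'_eq]
          field_simp
          ring
        rw [this]
        exact ((IsSquare.sq 9).mul hc5).div h5'
      · have : u' - 1 = (20 : ℚ) ^ 2 * u / (5 * (u - 81)) := by
          rw [hu'_eq]
          field_simp
          ring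
        rw [this]
        exact ((IsSquare.sq 20).mul hsq).div h5'
      · have : u' - 81 = (180 : ℚ) ^ 2 / (5 * (u - 81)) := by
          rw [hu'_eq]
          field_simp
          ring
        rw [this]
        exact (IsSquare.sq 180).div h5'
      · have : u' * (r₁ - r₂) = r₁ - r₃ := by rw [hu']; linear_combination (r₁ - r₃) * e1
        have hu_eq : u' = (r₁ - r₃) / (r₁ - r₂) := by
          field_simp
          linarith
        rw [hu_eq, hr₁, hr₂, hr₃]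
        push_cast
        field_simp
      · have : (d : ℤ) < a := by exact_mod_cast hda
        omega
      · have : (0 : ℤ) ≤ d := by positivity
        omega
  obtain ⟨w, m, hw0, hw1, hw81, hwm, hm0, hmle⟩ := key
  obtain ⟨A, B, D, E, hE, hnum, hAB, hAD⟩ := extract w hw0 hw1 hw81
  -- `A^2 ∣ m`
  have hdvd : w.num ∣ m := by
    have : w = Rat.divInt m ((a : ℤ) - b) := by
      rw [hwm, Rat.divInt_eq_div]
    rw [this]
    exact Rat.num_dvd m hab
  have hle : A ^ 2 ≤ m := by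
    rw [← hnum]
    exact Int.le_of_dvd hm0 hdvd
  have hAa : A.natAbs < a := by
    have h3 : (d : ℤ) < a := by exact_mod_cast hda
    have h4 : (2 : ℤ) ≤ a := by exact_mod_cast ha2
    have h5 : A ^ 2 < (a : ℤ) ^ 2 := by nlinarith
    have h6 : |A| < |(a : ℤ)| := sq_lt_sq.mp h5
    rw [abs_of_nonneg (by positivity : (0 : ℤ) ≤ a)] at h6
    zify
    exact h6
  refine ih A.natAbs hAa B.natAbs E D.natAbs hE ?_ ?_
  · zify
    simp only [sq_abs]
    exact hAB
  · zify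
    simp only [sq_abs]
    exact hAD

/-- Rational version of `core`. -/
lemma core_rat (a b c d : ℚ) (hc : c ≠ 0) (h1 : a ^ 2 = b ^ 2 + c ^ 2)
    (h2 : a ^ 2 = d ^ 2 + 81 * c ^ 2) : False := by
  obtain ⟨a', ha'⟩ : ∃ z : ℤ, (z : ℚ) = a * (a.den * b.den * c.den * d.den) :=
    ⟨a.num * (b.den * c.den * d.den), by
      push_cast
      rw [← Rat.mul_den_eq_num a]
      ring⟩
  obtain ⟨b', hb'⟩ : ∃ z : ℤ, (z : ℚ) = b * (a.den * b.den * c.den * d.den) :=
    ⟨b.num * (a.den * c.den * d.den), by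
      push_cast
      rw [← Rat.mul_den_eq_num b]
      ring⟩
  obtain ⟨c', hc'⟩ : ∃ z : ℤ, (z : ℚ) = c * (a.den * b.den * c.den * d.den) :=
    ⟨c.num * (a.den * b.den * d.den), by
      push_cast
      rw [← Rat.mul_den_eq_num c]
      ring⟩
  obtain ⟨d', hd'⟩ : ∃ z : ℤ, (z : ℚ) = d * (a.den * b.den * c.den * d.den) :=
    ⟨d.num * (a.den * b.den * c.den * d.den / d.den : ℕ), by
      have : a.den * b.den * c.den * d.den / d.den = a.den * b.den * c.den :=
        Nat.mul_div_cancel _ d.den_pos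
      rw [this]
      push_cast
      rw [← Rat.mul_den_eq_num d]
      ring⟩
  have hN : ((a.den : ℚ) * b.den * c.den * d.den) ≠ 0 := by
    have h1 := a.den_ne_zero
    have h2 := b.den_ne_zero
    have h3 := c.den_ne_zero
    have h4 := d.den_ne_zero
    positivity
  have hc0 : c' ≠ 0 := by
    rintro rfl
    rw [Int.cast_zero] at hc'
    exact (mul_ne_zero hc hN) hc'.symm
  have e1 : a' ^ 2 = b' ^ 2 + c' ^ 2 := by
    have : ((a' ^ 2 : ℤ) : ℚ) = ((b' ^ 2 + c' ^ 2 : ℤ) : ℚ) := by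
      push_cast
      rw [ha', hb', hc']
      linear_combination ((a.den : ℚ) * b.den * c.den * d.den) ^ 2 * h1
    exact_mod_cast this
  have e2 : a' ^ 2 = d' ^ 2 + 81 * c' ^ 2 := by
    have : ((a' ^ 2 : ℤ) : ℚ) = ((d' ^ 2 + 81 * c' ^ 2 : ℤ) : ℚ) := by
      push_cast
      rw [ha', hd', hc']
      linear_combination ((a.den : ℚ) * b.den * c.den * d.den) ^ 2 * h2
    exact_mod_cast this
  refine core a'.natAbs b'.natAbs c'.natAbs d'.natAbs (Int.natAbs_pos.mpr hc0) ?_ ?_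
  · zify
    simp only [sq_abs]
    exact e1
  · zify
    simp only [sq_abs]
    exact e2

/-- The curve `y^2 = x (x - 1) (x - 81)` (Cremona `15a2`) has only its `2`-torsion points
as rational points. -/
theorem e2_points (x y : ℚ) (h : y ^ 2 = x * (x - 1) * (x - 81)) : y = 0 := by
  by_contra hy
  refine core_rat (x ^ 2 - 81) (x ^ 2 - 2 * x + 81) (2 * y) (x ^ 2 - 162 * x + 81)
    (mul_ne_zero two_ne_zero hy) ?_ ?_
  · linear_combination (-4 : ℚ) * h
  · linear_combination (-324 : ℚ) * h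

/-- **Rational points of `X₀(15)`**: the curve `Y^2 = X (X - 9) (X - 25)` (Cremona `15a1`) has
exactly the rational points with `X ∈ {0, 9, 25, 5, 45}` (besides the point at infinity). -/
theorem x0_15_points (X Y : ℚ) (h : Y ^ 2 = X * (X - 9) * (X - 25)) :
    X = 0 ∨ X = 9 ∨ X = 25 ∨ X = 5 ∨ X = 45 := by
  by_cases h25 : X = 25
  · right; right; left; exact h25
  have h25' : X - 25 ≠ 0 := sub_ne_zero.mpr h25
  have key : (Y * (X - 5) * (X - 45) / (X - 25) ^ 2) ^ 2 =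
      (X * (X - 9) / (X - 25)) * (X * (X - 9) / (X - 25) - 1) * (X * (X - 9) / (X - 25) - 81) := by
    field_simp
    linear_combination ((X - 5) ^ 2 * (X - 45) ^ 2) * h
  have h0 := e2_points _ _ key
  rw [div_eq_zero_iff] at h0
  rcases h0 with h0 | h0
  · rcases mul_eq_zero.mp h0 with h0 | h0
    · rcases mul_eq_zero.mp h0 with h0 | h0
      · rw [h0] at h
        have h' : X * (X - 9) * (X - 25) = 0 := by rw [← h]; ring
        rcases mul_eq_zero.mp h' with h' | h'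
        · rcases mul_eq_zero.mp h' with h' | h'
          · left; exact h'
          · right; left; linarith
        · exact absurd h' h25'
      · right; right; right; left; linarith
    · right; right; right; right; linarith
  · exact absurd ((pow_eq_zero_iff two_ne_zero).mp h0) h25'

end Fermat.Agent.S51.helper1731
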