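import Mathlib

/-!
# S51 helper (helper1971): torsion points of order 3 and 5 in `x`-coordinates

For a Weierstrass curve `W` over a field `F` we set (as plain functions of `x`)

* `Mx W x = 4x³ + b₂x² + 2b₄x + b₆` (this is `ψ₂²`),
* `Nx W x = x⁴ - b₄x² - 2b₆x - b₈` (so that `x(2P) = Nx / Mx`),
* `psi3 W x = 3x⁴ + b₂x³ + 3b₄x² + 3b₆x + b₈ = x * Mx - Nx`,
* `psi5 W x = psi3³ - b₄(x) psi3 Mx² + Mx⁴` where `b₄(x) = b₄ + b₂x + 6x²`
  (degree 12, leading coefficient `-5`).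

Main results (`W : WeierstrassCurve.Affine F`, points `W.Point`):

* `dbl_x`, `add_self_some`: duplication formula `x(2P) * Mx x = Nx x`.
* `psi3_eq_zero_of_three_torsion`: `P = (x, y)`, `3 • P = 0` implies `psi3 x = 0`.
* `three_torsion_of_psi3_eq_zero`: conversely (for `Δ ≠ 0`).
* `five_torsion_rel`: `P = (x₁, y₁)`, `5 • P = 0`, then `2 • P = (x₂, y₂)` with `x₁ ≠ x₂`,
  `Mx x₁ ≠ 0`, `Mx x₂ ≠ 0`, `Nx x₁ = x₂ * Mx x₁`, `Nx x₂ = x₁ * Mx x₂`, `psi5 x₁ = 0`.
* `exists_three_torsion`, `exists_five_torsion`: over an algebraically closed field in which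
  `3 ≠ 0` (resp. `5 ≠ 0`), a curve with `Δ ≠ 0` has a nonzero point killed by 3 (resp. 5).
-/

set_option autoImplicit false

namespace Fermat.Agent.S51.helper1971

open WeierstrassCurve WeierstrassCurve.Affine Polynomial

variable {F : Type*} [Field F]

/-- The `x`-polynomial `ψ₂² = 4x³ + b₂x² + 2b₄x + b₆`, as a function. -/
def Mx (W : Affine F) (x : F) : F := 4 * x ^ 3 + W.b₂ * x ^ 2 + 2 * W.b₄ * x + W.b₆

/-- The numerator `x⁴ - b₄x² - 2b₆x - b₈` of the duplication map, as a function. -/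
def Nx (W : Affine F) (x : F) : F := x ^ 4 - W.b₄ * x ^ 2 - 2 * W.b₆ * x - W.b₈

/-- The `3`-division polynomial as a function. -/
def psi3 (W : Affine F) (x : F) : F :=
  3 * x ^ 4 + W.b₂ * x ^ 3 + 3 * W.b₄ * x ^ 2 + 3 * W.b₆ * x + W.b₈

/-- The translated `b₂`. -/
def b2x (W : Affine F) (x : F) : F := W.b₂ + 12 * x

/-- The translated `b₄`. -/
def b4x (W : Affine F) (x : F) : F := W.b₄ + W.b₂ * x + 6 * x ^ 2

/-- The `5`-division polynomial (up to sign) as a function. -/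
def psi5 (W : Affine F) (x : F) : F :=
  psi3 W x ^ 3 - b4x W x * psi3 W x * Mx W x ^ 2 + Mx W x ^ 4

lemma psi3_eq (W : Affine F) (x : F) : psi3 W x = x * Mx W x - Nx W x := by
  simp only [psi3, Mx, Nx]; ring

lemma Mx_eq {W : Affine F} {x y : F} (h : W.Equation x y) :
    Mx W x = (y - W.negY x y) ^ 2 := by
  rw [Affine.equation_iff] at h
  simp only [Mx, negY, WeierstrassCurve.b₂, WeierstrassCurve.b₄, WeierstrassCurve.b₆]
  linear_combination (-4 : F) * h

/-- The translated relation `4 b₈ = b₂ b₆ - b₄²`. -/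
lemma rel_x (W : Affine F) (x : F) :
    4 * psi3 W x = b2x W x * Mx W x - b4x W x ^ 2 := by
  simp only [psi3, b2x, Mx, b4x, WeierstrassCurve.b₂, WeierstrassCurve.b₄, WeierstrassCurve.b₆,
    WeierstrassCurve.b₈]
  ring

/-- The discriminant in terms of the translated invariants. -/
lemma Δ_eq_x (W : Affine F) (x : F) :
    W.Δ = psi3 W x * (32 * b4x W x - b2x W x ^ 2) +
      Mx W x * (b2x W x * b4x W x - 27 * Mx W x) := by
  simp only [WeierstrassCurve.Δ, psi3, b2x, Mx, b4x, WeierstrassCurve.b₂, WeierstrassCurve.b₄,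
    WeierstrassCurve.b₆, WeierstrassCurve.b₈]
  ring

/-- Taylor expansion of `Mx` around `x`. -/
lemma Mx_add (W : Affine F) (x w : F) :
    Mx W (x + w) = 4 * w ^ 3 + b2x W x * w ^ 2 + 2 * b4x W x * w + Mx W x := by
  simp only [b2x, Mx, b4x]
  ring

/-- Taylor expansion of `Nx - x * Mx` around `x`. -/
lemma Nx_add (W : Affine F) (x w : F) :
    Nx W (x + w) - x * Mx W (x + w) =
      w ^ 4 - b4x W x * w ^ 2 - 2 * Mx W x * w - psi3 W x := by
  simp only [Nx, psi3, Mx, b4x]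
  ring

lemma Mx_ne_zero_of_psi3_eq_zero {W : Affine F} (hΔ : W.Δ ≠ 0) {x : F} (h : psi3 W x = 0) :
    Mx W x ≠ 0 := by
  intro hM
  apply hΔ
  rw [Δ_eq_x W x, h, hM]
  ring

lemma psi3_ne_zero_of_Mx_eq_zero {W : Affine F} (hΔ : W.Δ ≠ 0) {x : F} (h : Mx W x = 0) :
    psi3 W x ≠ 0 := fun h3 => Mx_ne_zero_of_psi3_eq_zero hΔ h3 h

lemma Mx_ne_zero_of_psi5_eq_zero {W : Affine F} (hΔ : W.Δ ≠ 0) {x : F} (h : psi5 W x = 0) :
    Mx W x ≠ 0 := by
  intro hM
  have h3 : psi3 W x = 0 := by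
    rw [psi5, hM] at h
    have : psi3 W x ^ 3 = 0 := by linear_combination h
    exact pow_eq_zero_iff (by norm_num) |>.mp this
  exact Mx_ne_zero_of_psi3_eq_zero hΔ h3 hM

lemma psi3_ne_zero_of_psi5_eq_zero {W : Affine F} (hΔ : W.Δ ≠ 0) {x : F} (h : psi5 W x = 0) :
    psi3 W x ≠ 0 := by
  intro h3
  have hM : Mx W x = 0 := by
    rw [psi5, h3] at h
    have : Mx W x ^ 4 = 0 := by linear_combination h
    exact pow_eq_zero_iff (by norm_num) |>.mp this
  exact Mx_ne_zero_of_psi3_eq_zero hΔ h3 hM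

/-- If `psi5 x = 0` and `w = -psi3 x / Mx x` then `x + w` is the `x`-coordinate of `2P`,
and `Nx (x + w) = x * Mx (x + w)`. -/
lemma Nx_eq_of_psi5_eq_zero {W : Affine F} {x w : F} (h : psi5 W x = 0)
    (hw : w * Mx W x = -psi3 W x) (hM : Mx W x ≠ 0) :
    Nx W (x + w) = x * Mx W (x + w) := by
  have key : Mx W x ^ 4 * (Nx W (x + w) - x * Mx W (x + w)) = 0 := by
    rw [Nx_add]
    rw [psi5] at h
    linear_combination (psi3 W x) * h +
      (Mx W x ^ 3 * w ^ 3 - Mx W x ^ 2 * w ^ 2 * psi3 W x + Mx W x * w * psi3 W x ^ 2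
        - psi3 W x ^ 3 - b4x W x * Mx W x ^ 3 * w + b4x W x * Mx W x ^ 2 * psi3 W x
        - 2 * Mx W x ^ 4) * hw
  have := (mul_eq_zero.mp key).resolve_left (pow_ne_zero 4 hM)
  linear_combination this

/-- If `psi5 x = 0` and `w = -psi3 x / Mx x` then `Mx (x + w) ≠ 0` (for `Δ ≠ 0`). -/
lemma Mx_add_ne_zero_of_psi5_eq_zero {W : Affine F} (hΔ : W.Δ ≠ 0) {x w : F}
    (h : psi5 W x = 0) (hw : w * Mx W x = -psi3 W x) :
    Mx W (x + w) ≠ 0 := by
  have hM : Mx W x ≠ 0 := Mx_ne_zero_of_psi5_eq_zero hΔ h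
  have h3 : psi3 W x ≠ 0 := psi3_ne_zero_of_psi5_eq_zero hΔ h
  intro h0
  rw [Mx_add] at h0
  have hrel := rel_x W x
  rw [psi5] at h
  -- notation: b8 = psi3, b6 = Mx, b4 = b4x, b2 = b2x
  -- Rc : -4 b8^3 + b2 b8^2 b6 - 2 b4 b8 b6^2 + b6^4 = 0
  have Rc : -4 * psi3 W x ^ 3 + b2x W x * psi3 W x ^ 2 * Mx W x
      - 2 * b4x W x * psi3 W x * Mx W x ^ 2 + Mx W x ^ 4 = 0 := by
    linear_combination (Mx W x ^ 3) * h0 +
      (-4 * (Mx W x ^ 2 * w ^ 2 - Mx W x * w * psi3 W x + psi3 W x ^ 2)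
        - b2x W x * Mx W x * (Mx W x * w - psi3 W x) - 2 * b4x W x * Mx W x ^ 2) * hw
  -- S' : b4 b6^2 = b4^2 b8 - b8^2
  have S' : b4x W x * Mx W x ^ 2 = b4x W x ^ 2 * psi3 W x - psi3 W x ^ 2 := by
    have : psi3 W x * (b4x W x * Mx W x ^ 2 - (b4x W x ^ 2 * psi3 W x - psi3 W x ^ 2)) = 0 := by
      linear_combination (-1 : F) * Rc + h - (psi3 W x ^ 2) * hrel
    have := (mul_eq_zero.mp this).resolve_left h3
    linear_combination this
  -- T : b6^4 = b4^2 b8^2 - 2 b8^3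
  have T : Mx W x ^ 4 = b4x W x ^ 2 * psi3 W x ^ 2 - 2 * psi3 W x ^ 3 := by
    linear_combination h + (psi3 W x) * S'
  have : psi3 W x ^ 4 = 0 := by
    linear_combination (b4x W x ^ 2) * T
      - (b4x W x * Mx W x ^ 2 + b4x W x ^ 2 * psi3 W x - psi3 W x ^ 2) * S'
  exact h3 (pow_eq_zero_iff (by norm_num) |>.mp this)

section GroupLaw

variable [DecidableEq F] {W : Affine F}

/-- Doubling formula in `x`-coordinates. -/
lemma dbl_x {x y : F} (h : W.Equation x y) (hy : y ≠ W.negY x y) :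
    W.addX x x (W.slope x x y y) * Mx W x = Nx W x := by
  have hd : y - W.negY x y ≠ 0 := sub_ne_zero.mpr hy
  rw [Mx_eq h, slope_of_Y_ne rfl hy]
  rw [Affine.equation_iff] at h
  simp only [addX, Nx, WeierstrassCurve.b₄, WeierstrassCurve.b₆, WeierstrassCurve.b₈]
  field_simp
  simp only [negY]
  linear_combination (-(W.a₁ ^ 2 + 4 * W.a₂ + 8 * x)) * h

omit [DecidableEq F] in
lemma Mx_ne_zero_iff {x y : F} (h : W.Equation x y) : Mx W x ≠ 0 ↔ y ≠ W.negY x y := by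
  rw [Mx_eq h, Ne, sq_eq_zero_iff, sub_eq_zero]

/-- `2 • (x, y) = 0` iff `y = negY x y`. -/
lemma add_self_eq_zero_iff {x y : F} (h : W.Nonsingular x y) :
    Point.some x y h + Point.some x y h = 0 ↔ y = W.negY x y := by
  constructor
  · intro h0
    by_contra hy
    rw [Point.add_self_of_Y_ne hy] at h0
    exact Point.some_ne_zero _ h0
  · intro hy
    exact Point.add_self_of_Y_eq hy

/-- Duplication of an affine point which is not of order two. -/
lemma add_self_some {x y : F} (h : W.Nonsingular x y) (hy : y ≠ W.negY x y) :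
    ∃ (x' y' : F) (h' : W.Nonsingular x' y'),
      Point.some x y h + Point.some x y h = Point.some x' y' h' ∧ x' * Mx W x = Nx W x :=
  ⟨_, _, _, Point.add_self_of_Y_ne hy, dbl_x h.1 hy⟩

lemma three_zsmul_eq (P : W.Point) : (3 : ℤ) • P = P + P + P := by
  rw [show (3 : ℤ) = 1 + 1 + 1 by norm_num, add_zsmul, add_zsmul, one_zsmul]

lemma five_zsmul_eq (P : W.Point) : (5 : ℤ) • P = (P + P) + (P + P) + P := by
  rw [show (5 : ℤ) = (1 + 1) + (1 + 1) + 1 by norm_num, add_zsmul, add_zsmul, add_zsmul,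
    one_zsmul]

/-- A nonzero `3`-torsion point has `psi3 x = 0`. -/
theorem psi3_eq_zero_of_three_torsion {x y : F} (h : W.Nonsingular x y)
    (h3 : (3 : ℤ) • Point.some x y h = 0) : psi3 W x = 0 := by
  rw [three_zsmul_eq] at h3
  have h3' : Point.some x y h + Point.some x y h = -Point.some x y h :=
    eq_neg_of_add_eq_zero_left h3
  by_cases hy : y = W.negY x y
  · rw [Point.add_self_of_Y_eq hy] at h3'
    exact absurd (neg_eq_zero.mp h3'.symm) (Point.some_ne_zero h)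
  · rw [Point.add_self_of_Y_ne hy, Point.neg_some] at h3'
    have hx : W.addX x x (W.slope x x y y) = x := by
      injection h3'
    have hd := dbl_x h.1 hy
    rw [hx] at hd
    rw [psi3_eq]
    linear_combination hd

/-- A point with `psi3 x = 0` is a `3`-torsion point (for `Δ ≠ 0`). -/
theorem three_torsion_of_psi3_eq_zero (hΔ : W.Δ ≠ 0) {x y : F} (h : W.Nonsingular x y)
    (h3 : psi3 W x = 0) : (3 : ℤ) • Point.some x y h = 0 := by
  have hM : Mx W x ≠ 0 := Mx_ne_zero_of_psi3_eq_zero hΔ h3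
  have hy : y ≠ W.negY x y := (Mx_ne_zero_iff h.1).mp hM
  obtain ⟨x', y', h', hadd, hx'⟩ := add_self_some h hy
  have hxx : x' = x := by
    apply mul_right_cancel₀ hM
    rw [hx']
    rw [psi3_eq] at h3
    linear_combination (-1 : F) * h3
  subst hxx
  rw [three_zsmul_eq, hadd]
  rcases (Point.X_eq_iff (h₁ := h') (h₂ := h)).mp rfl with heq | heq
  · exfalso
    rw [heq] at hadd
    have : Point.some x' y h = 0 := by
      have := congrArg (fun Q => Q - Point.some x' y h) hadd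
      simp at this
    exact Point.some_ne_zero h this
  · rw [heq]
    exact neg_add_cancel _

/-- Relations satisfied by the `x`-coordinates of a nonzero `5`-torsion point and its double. -/
theorem five_torsion_rel {x₁ y₁ : F} (h₁ : W.Nonsingular x₁ y₁)
    (h5 : (5 : ℤ) • Point.some x₁ y₁ h₁ = 0) :
    ∃ (x₂ y₂ : F) (h₂ : W.Nonsingular x₂ y₂),
      Point.some x₁ y₁ h₁ + Point.some x₁ y₁ h₁ = Point.some x₂ y₂ h₂ ∧ x₁ ≠ x₂ ∧
      Mx W x₁ ≠ 0 ∧ Mx W x₂ ≠ 0 ∧ Nx W x₁ = x₂ * Mx W x₁ ∧ Nx W x₂ = x₁ * Mx W x₂ := by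
  rw [five_zsmul_eq] at h5
  have hP0 : Point.some x₁ y₁ h₁ ≠ 0 := Point.some_ne_zero h₁
  have h5' : (Point.some x₁ y₁ h₁ + Point.some x₁ y₁ h₁) +
      (Point.some x₁ y₁ h₁ + Point.some x₁ y₁ h₁) = -Point.some x₁ y₁ h₁ :=
    eq_neg_of_add_eq_zero_left h5
  by_cases hy₁ : y₁ = W.negY x₁ y₁
  · rw [Point.add_self_of_Y_eq hy₁, add_zero] at h5'
    exact absurd (neg_eq_zero.mp h5'.symm) hP0
  obtain ⟨x₂, y₂, h₂, hadd, hx₂⟩ := add_self_some h₁ hy₁
  rw [hadd] at h5'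
  by_cases hy₂ : y₂ = W.negY x₂ y₂
  · rw [Point.add_self_of_Y_eq hy₂] at h5'
    exact absurd (neg_eq_zero.mp h5'.symm) hP0
  have h5'' := h5'
  rw [Point.add_self_of_Y_ne hy₂, Point.neg_some] at h5''
  have hx₄ : W.addX x₂ x₂ (W.slope x₂ x₂ y₂ y₂) = x₁ := by
    injection h5''
  have hd := dbl_x h₂.1 hy₂
  rw [hx₄] at hd
  refine ⟨x₂, y₂, h₂, hadd, ?_, (Mx_ne_zero_iff h₁.1).mpr hy₁, (Mx_ne_zero_iff h₂.1).mpr hy₂,
    hx₂.symm, hd.symm⟩
  intro hxx
  rcases (Point.X_eq_iff (h₁ := h₁) (h₂ := h₂)).mp hxx with heq | heq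
  · -- P = 2P, so P = 0
    rw [← heq] at hadd
    have : Point.some x₁ y₁ h₁ = 0 := by
      have := congrArg (fun Q => Q - Point.some x₁ y₁ h₁) hadd
      simp at this
    exact hP0 this
  · -- P = -2P, and 4P = -P gives 2P + 2P = 2P
    have hQ : Point.some x₂ y₂ h₂ = -Point.some x₁ y₁ h₁ := by rw [heq, neg_neg]
    rw [← hQ] at h5'
    have : Point.some x₂ y₂ h₂ = 0 := by
      have := congrArg (fun Q => Q - Point.some x₂ y₂ h₂) h5'
      simp at this
    exact Point.some_ne_zero h₂ this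

/-- A nonzero `5`-torsion point has `psi5 x = 0`. -/
theorem psi5_eq_zero_of_five_torsion {x₁ y₁ : F} (h₁ : W.Nonsingular x₁ y₁)
    (h5 : (5 : ℤ) • Point.some x₁ y₁ h₁ = 0) : psi5 W x₁ = 0 := by
  obtain ⟨x₂, y₂, h₂, hadd, hne, hM₁, hM₂, hN₁, hN₂⟩ := five_torsion_rel h₁ h5
  -- `psi3 x₁ ≠ 0` since otherwise `x₂ = x₁`
  have h3 : psi3 W x₁ ≠ 0 := by
    intro h3
    apply hne
    apply mul_right_cancel₀ hM₁
    rw [← hN₁]
    rw [psi3_eq] at h3
    linear_combination h3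
  set w := x₂ - x₁ with hw
  have hx₂ : x₂ = x₁ + w := by rw [hw]; ring
  have hwM : w * Mx W x₁ = -psi3 W x₁ := by
    rw [psi3_eq, hw]
    linear_combination (-1 : F) * hN₁
  have hN := Nx_add W x₁ w
  rw [← hx₂, hN₂, sub_self] at hN
  have key : psi3 W x₁ * psi5 W x₁ = 0 := by
    rw [psi5]
    linear_combination (-(Mx W x₁ ^ 4)) * hN -
      (Mx W x₁ ^ 3 * w ^ 3 - Mx W x₁ ^ 2 * w ^ 2 * psi3 W x₁ + Mx W x₁ * w * psi3 W x₁ ^ 2
        - psi3 W x₁ ^ 3 - b4x W x₁ * Mx W x₁ ^ 3 * w + b4x W x₁ * Mx W x₁ ^ 2 * psi3 W x₁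
        - 2 * Mx W x₁ ^ 4) * hwM
  exact (mul_eq_zero.mp key).resolve_left h3

/-- A point with `psi5 x = 0` is a `5`-torsion point (for `Δ ≠ 0`). -/
theorem five_torsion_of_psi5_eq_zero (hΔ : W.Δ ≠ 0) {x y : F} (h : W.Nonsingular x y)
    (h5 : psi5 W x = 0) : (5 : ℤ) • Point.some x y h = 0 := by
  have hM : Mx W x ≠ 0 := Mx_ne_zero_of_psi5_eq_zero hΔ h5
  have h3 : psi3 W x ≠ 0 := psi3_ne_zero_of_psi5_eq_zero hΔ h5
  have hy : y ≠ W.negY x y := (Mx_ne_zero_iff h.1).mp hM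
  obtain ⟨x₂, y₂, h₂, hadd, hx₂⟩ := add_self_some h hy
  set w := x₂ - x with hw
  have hx₂' : x₂ = x + w := by rw [hw]; ring
  have hwM : w * Mx W x = -psi3 W x := by
    rw [psi3_eq, hw]
    linear_combination hx₂
  have hM₂ : Mx W x₂ ≠ 0 := by
    rw [hx₂']; exact Mx_add_ne_zero_of_psi5_eq_zero hΔ h5 hwM
  have hN₂ : Nx W x₂ = x * Mx W x₂ := by
    rw [hx₂']; exact Nx_eq_of_psi5_eq_zero h5 hwM hM
  have hy₂ : y₂ ≠ W.negY x₂ y₂ := (Mx_ne_zero_iff h₂.1).mp hM₂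
  obtain ⟨x₄, y₄, h₄, hadd₂, hx₄⟩ := add_self_some h₂ hy₂
  have hxx : x₄ = x := by
    apply mul_right_cancel₀ hM₂
    rw [hx₄, hN₂]
  subst hxx
  rw [five_zsmul_eq, hadd, hadd₂]
  rcases (Point.X_eq_iff (h₁ := h₄) (h₂ := h)).mp rfl with heq | heq
  · -- 4P = P would give 3P = 0, hence psi3 x = 0
    exfalso
    apply h3
    apply psi3_eq_zero_of_three_torsion h
    rw [three_zsmul_eq, hadd]
    have h4 : Point.some x₂ y₂ h₂ + Point.some x₂ y₂ h₂ = Point.some x₄ y h := by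
      rw [hadd₂, heq]
    rw [← hadd] at h4
    have := congrArg (fun Q => Q - Point.some x₄ y h) h4
    simp only [sub_self] at this
    rw [← this, ← hadd]
    abel
  · rw [heq]
    exact neg_add_cancel _

end GroupLaw

section Polynomials

/-- `Mx` as a polynomial. -/
noncomputable def MPoly (W : Affine F) : F[X] :=
  C 4 * X ^ 3 + C W.b₂ * X ^ 2 + C (2 * W.b₄) * X + C W.b₆

/-- `psi3` as a polynomial. -/
noncomputable def psi3Poly (W : Affine F) : F[X] :=
  C 3 * X ^ 4 + C W.b₂ * X ^ 3 + C (3 * W.b₄) * X ^ 2 + C (3 * W.b₆) * X + C W.b₈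

/-- `b4x` as a polynomial. -/
noncomputable def b4Poly (W : Affine F) : F[X] :=
  C W.b₄ + C W.b₂ * X + C 6 * X ^ 2

/-- `psi5` as a polynomial. -/
noncomputable def psi5Poly (W : Affine F) : F[X] :=
  psi3Poly W ^ 3 - b4Poly W * psi3Poly W * MPoly W ^ 2 + MPoly W ^ 4

lemma eval_MPoly (W : Affine F) (x : F) : (MPoly W).eval x = Mx W x := by
  simp [MPoly, Mx]

lemma eval_psi3Poly (W : Affine F) (x : F) : (psi3Poly W).eval x = psi3 W x := by
  simp [psi3Poly, psi3]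

lemma eval_b4Poly (W : Affine F) (x : F) : (b4Poly W).eval x = b4x W x := by
  simp [b4Poly, b4x]

lemma eval_psi5Poly (W : Affine F) (x : F) : (psi5Poly W).eval x = psi5 W x := by
  simp [psi5Poly, psi5, eval_MPoly, eval_psi3Poly, eval_b4Poly]

lemma natDegree_psi3Poly_le (W : Affine F) : (psi3Poly W).natDegree ≤ 4 := by
  unfold psi3Poly; compute_degree

lemma coeff_psi3Poly (W : Affine F) : (psi3Poly W).coeff 4 = 3 := by
  unfold psi3Poly; compute_degree!

lemma natDegree_psi5Poly_le (W : Affine F) : (psi5Poly W).natDegree ≤ 12 := by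
  unfold psi5Poly psi3Poly b4Poly MPoly; compute_degree

lemma coeff_psi5Poly (W : Affine F) : (psi5Poly W).coeff 12 = -5 := by
  unfold psi5Poly psi3Poly b4Poly MPoly; compute_degree!

lemma psi3Poly_ne_zero (W : Affine F) (h3 : (3 : F) ≠ 0) : psi3Poly W ≠ 0 := by
  intro h
  have := coeff_psi3Poly W
  rw [h, coeff_zero] at this
  exact h3 this.symm

lemma psi5Poly_ne_zero (W : Affine F) (h5 : (5 : F) ≠ 0) : psi5Poly W ≠ 0 := by
  intro h
  have := coeff_psi5Poly W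
  rw [h, coeff_zero] at this
  apply h5
  linear_combination this

lemma natDegree_psi3Poly (W : Affine F) (h3 : (3 : F) ≠ 0) : (psi3Poly W).natDegree = 4 :=
  le_antisymm (natDegree_psi3Poly_le W)
    (le_natDegree_of_ne_zero (by rw [coeff_psi3Poly]; exact h3))

lemma natDegree_psi5Poly (W : Affine F) (h5 : (5 : F) ≠ 0) : (psi5Poly W).natDegree = 12 :=
  le_antisymm (natDegree_psi5Poly_le W)
    (le_natDegree_of_ne_zero (by rw [coeff_psi5Poly]; exact neg_ne_zero.mpr h5))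

end Polynomials

section Existence

variable [DecidableEq F] [IsAlgClosed F] {W : Affine F}

omit [DecidableEq F] in
/-- Over an algebraically closed field every `x` is the `x`-coordinate of a point. -/
lemma exists_Y (W : Affine F) (x : F) : ∃ y : F, W.Equation x y := by
  obtain ⟨y, hy⟩ := IsAlgClosed.exists_root
    (X ^ 2 + C (W.a₁ * x + W.a₃) * X - C (x ^ 3 + W.a₂ * x ^ 2 + W.a₄ * x + W.a₆) : F[X])
    (by
      have : (X ^ 2 + C (W.a₁ * x + W.a₃) * X - C (x ^ 3 + W.a₂ * x ^ 2 + W.a₄ * x + W.a₆) :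
          F[X]).degree = 2 := by compute_degree!
      rw [this]; norm_num)
  refine ⟨y, ?_⟩
  rw [Affine.equation_iff]
  simp only [IsRoot.def, eval_sub, eval_add, eval_pow, eval_X, eval_mul, eval_C] at hy
  linear_combination hy

/-- Existence of a nonzero point of order `3`. -/
theorem exists_three_torsion (h3 : (3 : F) ≠ 0) (hΔ : W.Δ ≠ 0) :
    ∃ P : W.Point, P ≠ 0 ∧ (3 : ℤ) • P = 0 := by
  obtain ⟨x, hx⟩ := IsAlgClosed.exists_root (psi3Poly W)
    (by
      rw [degree_eq_natDegree (psi3Poly_ne_zero W h3), natDegree_psi3Poly W h3]; norm_num)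
  rw [IsRoot.def, eval_psi3Poly] at hx
  obtain ⟨y, hy⟩ := exists_Y W x
  have hns : W.Nonsingular x y := (equation_iff_nonsingular_of_Δ_ne_zero hΔ).mp hy
  exact ⟨Point.some x y hns, Point.some_ne_zero hns, three_torsion_of_psi3_eq_zero hΔ hns hx⟩

/-- Existence of a nonzero point of order `5`. -/
theorem exists_five_torsion (h5 : (5 : F) ≠ 0) (hΔ : W.Δ ≠ 0) :
    ∃ P : W.Point, P ≠ 0 ∧ (5 : ℤ) • P = 0 := by
  obtain ⟨x, hx⟩ := IsAlgClosed.exists_root (psi5Poly W)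
    (by
      rw [degree_eq_natDegree (psi5Poly_ne_zero W h5), natDegree_psi5Poly W h5]; norm_num)
  rw [IsRoot.def, eval_psi5Poly] at hx
  obtain ⟨y, hy⟩ := exists_Y W x
  have hns : W.Nonsingular x y := (equation_iff_nonsingular_of_Δ_ne_zero hΔ).mp hy
  exact ⟨Point.some x y hns, Point.some_ne_zero hns, five_torsion_of_psi5_eq_zero hΔ hns hx⟩

end Existence

end Fermat.Agent.S51.helper1971
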