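import Mathlib
import Fermat.Prelude.Def_FLTPrelim_Modularity

/-!
S51 endgame (piece P3/M3): a semistable integral model cannot have
`j ∈ {-25/2, -349938025/8, -121945/32, 46969655/32768}`.
All declarations live in `Fermat.Agent.S51.helper2451`.
-/

set_option autoImplicit false

namespace Fermat.Agent.S51.helper2451

/-- If `k * c ^ 3 = 5 * m * d` with `5 ∤ k`, `5 ∤ m`, then `5 ∣ c` and `5 ∣ d`. -/
theorem five_dvd_both_of_five {c d k m : ℤ} (hk : ¬ (5 : ℤ) ∣ k) (hm : ¬ (5 : ℤ) ∣ m)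
    (h : k * c ^ 3 = 5 * m * d) : (5 : ℤ) ∣ c ∧ (5 : ℤ) ∣ d := by
  have h5 : Prime (5 : ℤ) := by norm_num
  have hc : (5 : ℤ) ∣ c := by
    have h1 : (5 : ℤ) ∣ k * c ^ 3 := ⟨m * d, by rw [h]; ring⟩
    rcases h5.dvd_or_dvd h1 with h2 | h2
    · exact absurd h2 hk
    · exact h5.dvd_of_dvd_pow h2
  refine ⟨hc, ?_⟩
  obtain ⟨c', rfl⟩ := hc
  have h3 : m * d = 5 * (5 * k * c' ^ 3) := by
    have : (5 : ℤ) * (m * d) = 5 * (5 * (5 * k * c' ^ 3)) := by linear_combination -h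
    exact mul_left_cancel₀ (by norm_num) this
  have h4 : (5 : ℤ) ∣ m * d := ⟨_, h3⟩
  rcases h5.dvd_or_dvd h4 with h2 | h2
  · exact absurd h2 hm
  · exact h2

/-- If `k * c ^ 3 = 25 * m * d` with `5 ∤ k`, `5 ∤ m`, then `5 ∣ c` and `5 ∣ d`. -/
theorem five_dvd_both_of_twentyfive {c d k m : ℤ} (hk : ¬ (5 : ℤ) ∣ k) (hm : ¬ (5 : ℤ) ∣ m)
    (h : k * c ^ 3 = 25 * m * d) : (5 : ℤ) ∣ c ∧ (5 : ℤ) ∣ d := by
  have h5 : Prime (5 : ℤ) := by norm_num
  have hc : (5 : ℤ) ∣ c := by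
    have h1 : (5 : ℤ) ∣ k * c ^ 3 := ⟨5 * m * d, by rw [h]; ring⟩
    rcases h5.dvd_or_dvd h1 with h2 | h2
    · exact absurd h2 hk
    · exact h5.dvd_of_dvd_pow h2
  refine ⟨hc, ?_⟩
  obtain ⟨c', rfl⟩ := hc
  have h3 : m * d = 5 * (k * c' ^ 3) := by
    have : (25 : ℤ) * (m * d) = 25 * (5 * (k * c' ^ 3)) := by linear_combination -h
    exact mul_left_cancel₀ (by norm_num) this
  have h4 : (5 : ℤ) ∣ m * d := ⟨_, h3⟩
  rcases h5.dvd_or_dvd h4 with h2 | h2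
  · exact absurd h2 hm
  · exact h2

/-- A semistable model cannot have `5 ∣ c₄` and `5 ∣ Δ`. -/
theorem not_five_dvd_both (W : WeierstrassCurve ℤ) (hW : W.IsSemistableModel) :
    ¬ ((5 : ℤ) ∣ W.c₄ ∧ (5 : ℤ) ∣ W.Δ) := by
  rintro ⟨h1, h2⟩
  exact hW 5 (by norm_num) (by exact_mod_cast h2) (by exact_mod_cast h1)

/-- **Endgame over `ℤ`**: the four exceptional `j`-invariants of the non-cuspidal rational
points of `X₀(15)` do not occur for a semistable integral model. -/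
theorem endgame (W : WeierstrassCurve ℤ) (hW : W.IsSemistableModel) :
    ¬ (-2 * W.c₄ ^ 3 = 25 * W.Δ) ∧ ¬ (-8 * W.c₄ ^ 3 = 25 * 241 ^ 3 * W.Δ) ∧
      ¬ (-32 * W.c₄ ^ 3 = 5 * 29 ^ 3 * W.Δ) ∧ ¬ (32768 * W.c₄ ^ 3 = 5 * 211 ^ 3 * W.Δ) := by
  refine ⟨fun h => ?_, fun h => ?_, fun h => ?_, fun h => ?_⟩
  · exact not_five_dvd_both W hW
      (five_dvd_both_of_twentyfive (k := -2) (m := 1) (by norm_num) (by norm_num)
        (by linear_combination h))
  · exact not_five_dvd_both W hW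
      (five_dvd_both_of_twentyfive (k := -8) (m := 241 ^ 3) (by norm_num) (by norm_num)
        (by linear_combination h))
  · exact not_five_dvd_both W hW
      (five_dvd_both_of_five (k := -32) (m := 29 ^ 3) (by norm_num) (by norm_num)
        (by linear_combination h))
  · exact not_five_dvd_both W hW
      (five_dvd_both_of_five (k := 32768) (m := 211 ^ 3) (by norm_num) (by norm_num)
        (by linear_combination h))

/-- **Endgame over `ℚ`** in terms of the `X₀(5)` Hauptmodul `t` (so `j = (t²+10t+5)³/t`):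
the four values `t ∈ {-25/2, -25/8, -40, -10}` are impossible for a semistable model. -/
theorem endgame_rat (W : WeierstrassCurve ℤ) (hW : W.IsSemistableModel) (t : ℚ)
    (ht : t = -25 / 2 ∨ t = -25 / 8 ∨ t = -40 ∨ t = -10) :
    (W.c₄ : ℚ) ^ 3 * t ≠ (t ^ 2 + 10 * t + 5) ^ 3 * (W.Δ : ℚ) := by
  obtain ⟨e1, e2, e3, e4⟩ := endgame W hW
  intro h
  rcases ht with rfl | rfl | rfl | rfl
  · apply e3
    have h' : ((-32 * W.c₄ ^ 3 : ℤ) : ℚ) = ((5 * 29 ^ 3 * W.Δ : ℤ) : ℚ) := by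
      push_cast; linear_combination (64 / 25 : ℚ) * h
    exact_mod_cast h'
  · apply e4
    have h' : ((32768 * W.c₄ ^ 3 : ℤ) : ℚ) = ((5 * 211 ^ 3 * W.Δ : ℤ) : ℚ) := by
      push_cast; linear_combination (-262144 / 25 : ℚ) * h
    exact_mod_cast h'
  · apply e2
    have h' : ((-8 * W.c₄ ^ 3 : ℤ) : ℚ) = ((25 * 241 ^ 3 * W.Δ : ℤ) : ℚ) := by
      push_cast; linear_combination (1 / 5 : ℚ) * h
    exact_mod_cast h'
  · apply e1
    have h' : ((-2 * W.c₄ ^ 3 : ℤ) : ℚ) = ((25 * W.Δ : ℤ) : ℚ) := by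
      push_cast; linear_combination (1 / 5 : ℚ) * h
    exact_mod_cast h'

/-- Cast lemma: `c₄` of the base change to `ℚ`. -/
theorem map_c₄_rat (W : WeierstrassCurve ℤ) :
    (W.map (Int.castRingHom ℚ)).c₄ = (W.c₄ : ℚ) := by
  rw [WeierstrassCurve.map_c₄]; rfl

/-- Cast lemma: `Δ` of the base change to `ℚ`. -/
theorem map_Δ_rat (W : WeierstrassCurve ℤ) :
    (W.map (Int.castRingHom ℚ)).Δ = (W.Δ : ℚ) := by
  rw [WeierstrassCurve.map_Δ]; rfl

/-- `Δ ≠ 0` transfers to the base change to `ℚ`. -/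
theorem map_Δ_rat_ne_zero (W : WeierstrassCurve ℤ) (hΔ : W.Δ ≠ 0) :
    (W.map (Int.castRingHom ℚ)).Δ ≠ 0 := by
  rw [map_Δ_rat]; exact_mod_cast hΔ

/-- **Endgame for the base change**: with `E = W.map (Int.castRingHom ℚ)`, the relation
`E.c₄ ^ 3 * t = (t ^ 2 + 10 * t + 5) ^ 3 * E.Δ` fails for `t ∈ {-25/2, -25/8, -40, -10}`. -/
theorem endgame_map (W : WeierstrassCurve ℤ) (hW : W.IsSemistableModel) (t : ℚ)
    (ht : t = -25 / 2 ∨ t = -25 / 8 ∨ t = -40 ∨ t = -10) :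
    (W.map (Int.castRingHom ℚ)).c₄ ^ 3 * t ≠
      (t ^ 2 + 10 * t + 5) ^ 3 * (W.map (Int.castRingHom ℚ)).Δ := by
  rw [map_c₄_rat, map_Δ_rat]
  exact endgame_rat W hW t ht

/-- Variant in the coordinate `w = t + 11` (helper171's normalisation):
`c₄³ (w - 11) = Δ (w² - 12 w + 16)³` fails for `w ∈ {63/8, -3/2, -29, 1}`. -/
theorem endgame_map_w (W : WeierstrassCurve ℤ) (hW : W.IsSemistableModel) (w : ℚ)
    (hw : w = 63 / 8 ∨ w = -3 / 2 ∨ w = -29 ∨ w = 1) :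
    (W.map (Int.castRingHom ℚ)).c₄ ^ 3 * (w - 11) ≠
      (W.map (Int.castRingHom ℚ)).Δ * (w ^ 2 - 12 * w + 16) ^ 3 := by
  intro h
  refine endgame_map W hW (w - 11) ?_ ?_
  · rcases hw with rfl | rfl | rfl | rfl
    · right; left; norm_num
    · left; norm_num
    · right; right; left; norm_num
    · right; right; right; norm_num
  · rw [h]; ring

/-- Variant in the coordinate `m = t + 10` (helper951's normalisation):
`c₄³ (m - 10) = Δ (m² - 10 m + 5)³` fails for `m ∈ {-5/2, 55/8, 0, -30}`. -/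
theorem endgame_map_m (W : WeierstrassCurve ℤ) (hW : W.IsSemistableModel) (m : ℚ)
    (hm : m = -5 / 2 ∨ m = 55 / 8 ∨ m = 0 ∨ m = -30) :
    (W.map (Int.castRingHom ℚ)).c₄ ^ 3 * (m - 10) ≠
      (W.map (Int.castRingHom ℚ)).Δ * (m ^ 2 - 10 * m + 5) ^ 3 := by
  intro h
  refine endgame_map W hW (m - 10) ?_ ?_
  · rcases hm with rfl | rfl | rfl | rfl
    · left; norm_num
    · right; left; norm_num
    · right; right; right; norm_num
    · right; right; left; norm_num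
  · rw [h]; ring

end Fermat.Agent.S51.helper2451
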