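import Mathlib

set_option autoImplicit false

namespace Fermat.Agent.S51.helper531

section Reduced

variable {K : Type*} [Field K] [CharZero K]

/-- Reduced frame (`x1 = 0`, `x2 = w`, `g = w^2 - B4`): the three identities. -/
theorem red_identities (w g x : K) (hw : w ≠ 0) (hg : g ≠ 0)
    (B2 : K) (hB2 : B2 = ((w^2 - g)^2 - 4*w^2*g) / (w*g))
    (hx : 3*x^4 + B2*x^3 + 3*(w^2 - g)*x^2 + 3*(w*g)*x + (-(w^2*g)) = 0)
    (θ m s : K)
    (hθ : θ = (2*x - w)^2 / w^2)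
    (hm : m = (B2 + 6*w) * (2*x - w) / w^2)
    (hs : s = ((B2 + 6*w)^2 + 12*w^2 - (B2^2 - 24*(w^2 - g))) / (12*w^2)) :
    m^2 = (s^2 + 4) * θ ∧
    2*s*(1 + 3*θ) + 2*m*(3 + θ) + 3*(1 - θ)^2 = 0 ∧
    (B2^2 - 24*(w^2 - g))^3 * (s - 11) =
      ((s - 11)^2 + 10*(s - 11) + 5)^3 *
        (-B2^2*(-(w^2*g)) - 8*(w^2 - g)^3 - 27*(w*g)^2 + 9*B2*(w^2 - g)*(w*g)) := by
  have hs' : s = (w^4 - g^2) / (g * w^2) := by
    rw [hs, hB2]; field_simp; ring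
  refine ⟨?_, ?_, ?_⟩
  · rw [hm, hθ, hs', hB2]; field_simp; ring
  · have key : 2*s*(1 + 3*θ) + 2*m*(3 + θ) + 3*(1 - θ)^2
        = 16 * (3*x^4 + B2*x^3 + 3*(w^2 - g)*x^2 + 3*(w*g)*x + (-(w^2*g))) / w^4 := by
      rw [hm, hθ, hs', hB2]; field_simp; ring
    rw [key, hx]; simp
  · rw [hs', hB2]; field_simp; ring

end Reduced

section General

variable {K : Type*} [Field K] [CharZero K]

/-- **Core identities** (P2).  `b2 b4 b6 b8` are the `b`-invariants of a Weierstrass curve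
(`hb8` is the universal relation), `x0` is a root of the 3-division polynomial,
`x1, x2` are the `x`-coordinates of `P, 2P` for a point `P` of exact order 5
(so that duplication swaps them).  Then the invariants `θ, m, s` satisfy (R1), (R2), (R3). -/
theorem core_identities (b2 b4 b6 b8 x0 x1 x2 : K)
    (hb8 : 4*b8 = b2*b6 - b4^2)
    (hne : x1 ≠ x2)
    (hM1 : 4*x1^3 + b2*x1^2 + 2*b4*x1 + b6 ≠ 0)
    (h12 : x1^4 - b4*x1^2 - 2*b6*x1 - b8 = x2 * (4*x1^3 + b2*x1^2 + 2*b4*x1 + b6))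
    (h21 : x2^4 - b4*x2^2 - 2*b6*x2 - b8 = x1 * (4*x2^3 + b2*x2^2 + 2*b4*x2 + b6))
    (h3 : 3*x0^4 + b2*x0^3 + 3*b4*x0^2 + 3*b6*x0 + b8 = 0)
    (θ m s : K)
    (hθ : θ = (2*x0 - (x1 + x2))^2 / (x1 - x2)^2)
    (hm : m = (b2 + 6*(x1 + x2)) * (2*x0 - (x1 + x2)) / (x1 - x2)^2)
    (hs : s = ((b2 + 6*(x1 + x2))^2 + 12*(x1 - x2)^2 - (b2^2 - 24*b4)) / (12*(x1 - x2)^2)) :
    m^2 = (s^2 + 4) * θ ∧
    2*s*(1 + 3*θ) + 2*m*(3 + θ) + 3*(1 - θ)^2 = 0 ∧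
    (b2^2 - 24*b4)^3 * (s - 11) =
      ((s - 11)^2 + 10*(s - 11) + 5)^3 *
        (-b2^2*b8 - 8*b4^3 - 27*b6^2 + 9*b2*b4*b6) := by
  -- translated frame
  set w : K := x2 - x1 with hw_def
  set x : K := x0 - x1 with hx_def
  set B2 : K := b2 + 12*x1 with hB2_def
  set B4 : K := b4 + x1*b2 + 6*x1^2 with hB4_def
  set B6 : K := 4*x1^3 + b2*x1^2 + 2*b4*x1 + b6 with hB6_def
  set B8 : K := 3*x1^4 + b2*x1^3 + 3*b4*x1^2 + 3*b6*x1 + b8 with hB8_def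
  have hw : w ≠ 0 := sub_ne_zero.mpr (Ne.symm hne)
  have e8 : B8 = -(w * B6) := by
    simp only [hB8_def, hB6_def, hw_def]; linear_combination -h12
  have eN : w^4 - B4*w^2 - 2*B6*w - B8 = 0 := by
    simp only [hB8_def, hB6_def, hB4_def, hw_def]; linear_combination h21
  have e6 : B6 = w * (w^2 - B4) := by
    have h : w * (w^3 - B4*w - B6) = 0 := by rw [e8] at eN; linear_combination eN
    rcases mul_eq_zero.mp h with h | h
    · exact absurd h hw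
    · linear_combination -h
  set g : K := w^2 - B4 with hg_def
  have hg : g ≠ 0 := by
    intro h0; apply hM1; rw [e6, h0, mul_zero]
  have e4 : 4*B8 = B2*B6 - B4^2 := by
    simp only [hB8_def, hB6_def, hB4_def, hB2_def]; linear_combination hb8
  have eB4 : B4 = w^2 - g := by rw [hg_def]; ring
  have eB6 : B6 = w * g := e6
  have eB8 : B8 = -(w^2 * g) := by rw [e8, eB6]; ring
  have eB2 : B2 = ((w^2 - g)^2 - 4*w^2*g) / (w*g) := by
    field_simp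
    rw [eB8, eB6, eB4] at e4
    linear_combination -e4
  have hx' : 3*x^4 + B2*x^3 + 3*(w^2 - g)*x^2 + 3*(w*g)*x + (-(w^2*g)) = 0 := by
    rw [← eB4, ← eB6, ← eB8]
    simp only [hB8_def, hB6_def, hB4_def, hB2_def, hx_def]; linear_combination h3
  have hd : (x1 - x2)^2 = w^2 := by rw [hw_def]; ring
  have hθ' : θ = (2*x - w)^2 / w^2 := by
    rw [hθ, hd]; congr 1; rw [hx_def, hw_def]; ring
  have hm' : m = (B2 + 6*w) * (2*x - w) / w^2 := by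
    rw [hm, hd]; congr 1; rw [hx_def, hw_def, hB2_def]; ring
  have hc4 : b2^2 - 24*b4 = B2^2 - 24*(w^2 - g) := by
    rw [← eB4, hB2_def, hB4_def]; ring
  have hs' : s = ((B2 + 6*w)^2 + 12*w^2 - (B2^2 - 24*(w^2 - g))) / (12*w^2) := by
    rw [hs, hd, hc4]; congr 2; rw [hw_def, hB2_def]; ring
  have hΔ : -b2^2*b8 - 8*b4^3 - 27*b6^2 + 9*b2*b4*b6
      = -B2^2*(-(w^2*g)) - 8*(w^2 - g)^3 - 27*(w*g)^2 + 9*B2*(w^2 - g)*(w*g) := by
    rw [← eB4, ← eB6, ← eB8]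
    simp only [hB8_def, hB6_def, hB4_def, hB2_def]
    linear_combination (6*b2*x1 + 36*x1^2) * hb8
  obtain ⟨r1, r2, r3⟩ := red_identities w g x hw hg B2 eB2 hx' θ m s hθ' hm' hs'
  refine ⟨r1, r2, ?_⟩
  rw [hc4, hΔ]; exact r3

end General

end Fermat.Agent.S51.helper531
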