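import Mathlib

set_option autoImplicit false

namespace Fermat.Agent.S51.helper531

/-- The descent statement (P1): rational points of `Y^2 = X (X - 9) (X - 25)` (a model of `X₀(15)`). -/
def DescentX015 : Prop :=
  ∀ X Y : ℚ, Y^2 = X * (X - 9) * (X - 25) → X = 0 ∨ X = 9 ∨ X = 25 ∨ X = 5 ∨ X = 45

/-- (P4) From the identities (R1), (R2) over `ℚ` and the descent statement,
the invariant `s` takes one of four values. -/
theorem s_values (hD : DescentX015) (s θ m : ℚ)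
    (R1 : m^2 = (s^2 + 4) * θ)
    (R2 : 2*s*(1 + 3*θ) + 2*m*(3 + θ) + 3*(1 - θ)^2 = 0)
    (hs : s ≠ 11) :
    s = 1 ∨ s = -29 ∨ s = -3/2 ∨ s = 63/8 := by
  have hθ3 : 3 + θ ≠ 0 := by
    intro h
    have hθ : θ = -3 := by linarith
    subst hθ
    have hs3 : s = 3 := by linarith
    subst hs3
    nlinarith [sq_nonneg m]
  have Qeq : 4*(1 - θ)^3*s^2 + 12*(1 + 3*θ)*(1 - θ)^2*s + 9*(1 - θ)^4 - 16*θ*(3 + θ)^2 = 0 := by
    linear_combination (2*s*(1 + 3*θ) + 3*(1 - θ)^2 - 2*m*(3 + θ)) * R2 + 4*(3 + θ)^2 * R1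
  have hN : ((1 - θ)*(2*(1 - θ)*s + 3*(1 + 3*θ)))^2 = θ*(1 - θ)*(25 - 9*θ)*(3 + θ)^2 := by
    linear_combination (1 - θ) * Qeq
  have hY : (9 * ((1 - θ)*(2*(1 - θ)*s + 3*(1 + 3*θ))/(3 + θ)))^2
      = (9*θ) * (9*θ - 9) * (9*θ - 25) := by
    rw [mul_pow, div_pow, hN]
    field_simp
    ring
  rcases hD _ _ hY with h | h | h | h | h
  · have hθ : θ = 0 := by linarith
    subst hθ
    have h2 : (2*s + 3)^2 = 0 := by linear_combination Qeq
    have h3 : 2*s + 3 = 0 := by simpa using h2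
    right; right; left; linarith
  · have hθ : θ = 1 := by linarith
    subst hθ
    norm_num at Qeq
  · have hθ : θ = 25/9 := by linarith
    subst hθ
    have h2 : (8*s - 63)^2 = 0 := by linear_combination (-729/256 : ℚ) * Qeq
    have h3 : 8*s - 63 = 0 := by simpa using h2
    right; right; right; linarith
  · have hθ : θ = 5/9 := by linarith
    subst hθ
    have h2 : (s - 11) * (s + 29) = 0 := by linear_combination (729/256 : ℚ) * Qeq
    rcases mul_eq_zero.mp h2 with h3 | h3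
    · exact absurd (by linarith) hs
    · right; left; linarith
  · have hθ : θ = 5 := by linarith
    subst hθ
    have h2 : (s - 11) * (s - 1) = 0 := by linear_combination (-1/256 : ℚ) * Qeq
    rcases mul_eq_zero.mp h2 with h3 | h3
    · exact absurd (by linarith) hs
    · left; linarith

/-- (P3, integer form) `k * c4^3 = 5 * n * Δ` or `= 25 * n * Δ` with `5 ∤ k`, `5 ∤ n`
forces `5 ∣ c4` and `5 ∣ Δ`. -/
theorem five_dvd_of_eq (c4 Δ k n : ℤ) (hk : ¬ (5 : ℤ) ∣ k) (hn : ¬ (5 : ℤ) ∣ n)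
    (h : k * c4^3 = 5 * n * Δ ∨ k * c4^3 = 25 * n * Δ) : (5 : ℤ) ∣ c4 ∧ (5 : ℤ) ∣ Δ := by
  have p5 : Prime (5 : ℤ) := by
    rw [Int.prime_iff_natAbs_prime]; norm_num
  have h1 : (5 : ℤ) ∣ k * c4^3 := by
    rcases h with h | h
    · exact ⟨n * Δ, by rw [h]; ring⟩
    · exact ⟨5 * n * Δ, by rw [h]; ring⟩
  have h2 : (5 : ℤ) ∣ c4 := by
    rcases p5.dvd_or_dvd h1 with h' | h'
    · exact absurd h' hk
    · exact p5.dvd_of_dvd_pow h'
  refine ⟨h2, ?_⟩
  obtain ⟨c, rfl⟩ := h2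
  have h4 : (5 : ℤ) ∣ n * Δ := by
    rcases h with h | h
    · exact ⟨5 * k * c^3, by linarith⟩
    · exact ⟨k * c^3, by linarith⟩
  rcases p5.dvd_or_dvd h4 with h' | h'
  · exact absurd h' hn
  · exact h'

/-- (P3) The four exceptional values of `s` are incompatible with a semistable integral model:
`5` would divide both `c₄` and `Δ`. -/
theorem five_dvd_of_s_values (c4 Δ : ℤ) (s : ℚ)
    (hs : s = 1 ∨ s = -29 ∨ s = -3/2 ∨ s = 63/8)
    (hR3 : (c4 : ℚ)^3 * (s - 11) = ((s - 11)^2 + 10*(s - 11) + 5)^3 * (Δ : ℚ)) :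
    (5 : ℤ) ∣ c4 ∧ (5 : ℤ) ∣ Δ := by
  rcases hs with rfl | rfl | rfl | rfl
  · -- t = -10
    have h : (-2 : ℤ) * c4^3 = 25 * 1 * Δ := by
      have : ((-2 : ℤ) : ℚ) * (c4 : ℚ)^3 = 25 * 1 * (Δ : ℚ) := by
        push_cast; linear_combination (1/5 : ℚ) * hR3
      exact_mod_cast this
    exact five_dvd_of_eq c4 Δ (-2) 1 (by norm_num) (by norm_num) (Or.inr h)
  · -- t = -40
    have h : (-8 : ℤ) * c4^3 = 25 * 13997521 * Δ := by
      have : ((-8 : ℤ) : ℚ) * (c4 : ℚ)^3 = 25 * 13997521 * (Δ : ℚ) := by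
        push_cast; linear_combination (1/5 : ℚ) * hR3
      exact_mod_cast this
    exact five_dvd_of_eq c4 Δ (-8) 13997521 (by norm_num) (by norm_num) (Or.inr h)
  · -- t = -25/2
    have h : (-32 : ℤ) * c4^3 = 5 * 24389 * Δ := by
      have : ((-32 : ℤ) : ℚ) * (c4 : ℚ)^3 = 5 * 24389 * (Δ : ℚ) := by
        push_cast; linear_combination (64/25 : ℚ) * hR3
      exact_mod_cast this
    exact five_dvd_of_eq c4 Δ (-32) 24389 (by norm_num) (by norm_num) (Or.inl h)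
  · -- t = -25/8
    have h : (32768 : ℤ) * c4^3 = 5 * 9393931 * Δ := by
      have : ((32768 : ℤ) : ℚ) * (c4 : ℚ)^3 = 5 * 9393931 * (Δ : ℚ) := by
        push_cast; linear_combination (-262144/25 : ℚ) * hR3
      exact_mod_cast this
    exact five_dvd_of_eq c4 Δ 32768 9393931 (by norm_num) (by norm_num) (Or.inl h)

end Fermat.Agent.S51.helper531
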