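import Mathlib
import Fermat.Prelude.Def_FLTPrelim_FreyPackage
import Fermat.Prelude.Def_FLTPrelim_GaloisRep
import Fermat.Prelude.Def_FLTPrelim_Modularity
import Fermat.Prelude.Def_FLTPrelim_ModularRep
import Fermat.Agent.S51.helper1971_Torsion
import Fermat.Agent.S51.helper2811_GaloisDescent
import Fermat.Agent.S51.helper531_Core
import Fermat.Agent.S51.helper531_Values
import Fermat.Agent.S51.helper2451_Endgame
import Fermat.Agent.S51.helper51_Card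

/-!
# S51 assembly (helper51, captain)

`s51_of_descent`: the statement of S51 follows from the descent statement
`helper531.DescentX015` (rational points of `Y² = X (X - 9) (X - 25)`).
-/

set_option autoImplicit false

namespace Fermat.Agent.S51.helper51

open WeierstrassCurve WeierstrassCurve.Affine WeierstrassCurve.Affine.Point Polynomial
open Fermat.Agent.S51

local notation "Qbar" => AlgebraicClosure ℚ

variable {E : WeierstrassCurve ℚ}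

/-- Membership in the torsion submodule, with an integer literal. -/
lemma mem_torsion_iff (n : ℕ) (P : (E⁄Qbar).Point) :
    P ∈ Submodule.torsionBy ℤ (E⁄Qbar).Point (n : ℕ) ↔ (n : ℤ) • P = 0 :=
  Submodule.mem_torsionBy_iff _ _

lemma baseChange_Δ_ne_zero (hΔ : E.Δ ≠ 0) : (E⁄Qbar).Δ ≠ 0 := by
  show (E.map (algebraMap ℚ Qbar)).Δ ≠ 0
  rw [WeierstrassCurve.map_Δ]
  exact (map_ne_zero_iff _ (algebraMap ℚ Qbar).injective).mpr hΔ

/-- `E[3]` is finite with fewer than `27` elements. -/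
theorem three_torsion_card :
    Finite (Submodule.torsionBy ℤ (E⁄Qbar).Point (3 : ℕ)) ∧
      Nat.card (Submodule.torsionBy ℤ (E⁄Qbar).Point (3 : ℕ)) < 27 := by
  have h3 : (3 : Qbar) ≠ 0 := by norm_num
  obtain ⟨hfin, hcard⟩ := card_le_of_roots (E⁄Qbar) (helper1971.psi3Poly (E⁄Qbar))
    (helper1971.psi3Poly_ne_zero _ h3)
    (Submodule.torsionBy ℤ (E⁄Qbar).Point (3 : ℕ) : Set (E⁄Qbar).Point)
    (by
      intro x y h hP
      rw [helper1971.eval_psi3Poly]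
      exact helper1971.psi3_eq_zero_of_three_torsion h ((mem_torsion_iff 3 _).mp hP))
  have hdeg := helper1971.natDegree_psi3Poly_le (E⁄Qbar)
  refine ⟨hfin, ?_⟩
  have : Nat.card (Submodule.torsionBy ℤ (E⁄Qbar).Point (3 : ℕ)) =
      (Submodule.torsionBy ℤ (E⁄Qbar).Point (3 : ℕ) : Set (E⁄Qbar).Point).ncard := rfl
  rw [this]
  omega

/-- `E[5]` is finite with fewer than `125` elements. -/
theorem five_torsion_card :
    Finite (Submodule.torsionBy ℤ (E⁄Qbar).Point (5 : ℕ)) ∧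
      Nat.card (Submodule.torsionBy ℤ (E⁄Qbar).Point (5 : ℕ)) < 125 := by
  have h5 : (5 : Qbar) ≠ 0 := by norm_num
  obtain ⟨hfin, hcard⟩ := card_le_of_roots (E⁄Qbar) (helper1971.psi5Poly (E⁄Qbar))
    (helper1971.psi5Poly_ne_zero _ h5)
    (Submodule.torsionBy ℤ (E⁄Qbar).Point (5 : ℕ) : Set (E⁄Qbar).Point)
    (by
      intro x y h hP
      rw [helper1971.eval_psi5Poly]
      exact helper1971.psi5_eq_zero_of_five_torsion h ((mem_torsion_iff 5 _).mp hP))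
  have hdeg := helper1971.natDegree_psi5Poly_le (E⁄Qbar)
  refine ⟨hfin, ?_⟩
  have : Nat.card (Submodule.torsionBy ℤ (E⁄Qbar).Point (5 : ℕ)) =
      (Submodule.torsionBy ℤ (E⁄Qbar).Point (5 : ℕ) : Set (E⁄Qbar).Point).ncard := rfl
  rw [this]
  omega

/-- `E[3]` is nontrivial. -/
theorem three_torsion_nontrivial (hΔ : E.Δ ≠ 0) :
    Nontrivial (Submodule.torsionBy ℤ (E⁄Qbar).Point (3 : ℕ)) := by
  have h3 : (3 : Qbar) ≠ 0 := by norm_num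
  obtain ⟨P, hP0, hP⟩ := helper1971.exists_three_torsion (W := E⁄Qbar) h3 (baseChange_Δ_ne_zero hΔ)
  refine nontrivial_of_ne ⟨P, (mem_torsion_iff 3 P).mpr hP⟩ 0 ?_
  intro h
  exact hP0 (congrArg Subtype.val h)

/-- `E[5]` is nontrivial. -/
theorem five_torsion_nontrivial (hΔ : E.Δ ≠ 0) :
    Nontrivial (Submodule.torsionBy ℤ (E⁄Qbar).Point (5 : ℕ)) := by
  have h5 : (5 : Qbar) ≠ 0 := by norm_num
  obtain ⟨P, hP0, hP⟩ := helper1971.exists_five_torsion (W := E⁄Qbar) h5 (baseChange_Δ_ne_zero hΔ)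
  refine nontrivial_of_ne ⟨P, (mem_torsion_iff 5 P).mpr hP⟩ 0 ?_
  intro h
  exact hP0 (congrArg Subtype.val h)

/-- **3-part**: if `E[3]` is reducible then the 3-division polynomial has a rational root. -/
theorem three_part (hΔ : E.Δ ≠ 0)
    (h : ¬ GaloisRepIsIrreducible (K := Qbar) ℚ E 3) :
    ∃ x₀ : ℚ, 3 * x₀ ^ 4 + E.b₂ * x₀ ^ 3 + 3 * E.b₄ * x₀ ^ 2 + 3 * E.b₆ * x₀ + E.b₈ = 0 := by
  unfold GaloisRepIsIrreducible at h
  rw [not_and] at h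
  have h' := h (three_torsion_nontrivial hΔ)
  push Not at h'
  obtain ⟨N, hN, h0, h1⟩ := h'
  obtain ⟨hfin, hcard⟩ := three_torsion_card (E := E)
  obtain ⟨P, x, y, hxy, q, -, hP, hq⟩ := helper2811.three_stable_imp hcard N hN h0 h1
  have hP3 : (3 : ℤ) • Point.some x y hxy = 0 := by
    rw [← hP]; exact (mem_torsion_iff 3 _).mp P.2
  have hpsi := helper1971.psi3_eq_zero_of_three_torsion hxy hP3
  refine ⟨q, ?_⟩
  apply (algebraMap ℚ Qbar).injective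
  rw [_root_.map_zero, ← hpsi, helper1971.psi3, ← hq]
  show _ = 3 * _ ^ 4 + (E.map (algebraMap ℚ Qbar)).b₂ * _ ^ 3 +
    3 * (E.map (algebraMap ℚ Qbar)).b₄ * _ ^ 2 + 3 * (E.map (algebraMap ℚ Qbar)).b₆ * _ +
    (E.map (algebraMap ℚ Qbar)).b₈
  rw [WeierstrassCurve.map_b₂, WeierstrassCurve.map_b₄, WeierstrassCurve.map_b₆,
    WeierstrassCurve.map_b₈]
  simp only [map_add, map_mul, map_pow, map_ofNat]

/-- **5-part**: if `E[5]` is reducible then there are `x₁ ≠ x₂` in `Qbar` with rational sum and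
product, swapped by the duplication map. -/
theorem five_part (hΔ : E.Δ ≠ 0)
    (h : ¬ GaloisRepIsIrreducible (K := Qbar) ℚ E 5) :
    ∃ (x₁ x₂ : Qbar) (e₁ e₂ : ℚ), algebraMap ℚ Qbar e₁ = x₁ + x₂ ∧
      algebraMap ℚ Qbar e₂ = x₁ * x₂ ∧ x₁ ≠ x₂ ∧
      helper1971.Mx (E⁄Qbar) x₁ ≠ 0 ∧
      helper1971.Nx (E⁄Qbar) x₁ = x₂ * helper1971.Mx (E⁄Qbar) x₁ ∧
      helper1971.Nx (E⁄Qbar) x₂ = x₁ * helper1971.Mx (E⁄Qbar) x₂ := by
  unfold GaloisRepIsIrreducible at h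
  rw [not_and] at h
  have h' := h (five_torsion_nontrivial hΔ)
  push Not at h'
  obtain ⟨N, hN, h0, h1⟩ := h'
  obtain ⟨hfin, hcard⟩ := five_torsion_card (E := E)
  obtain ⟨P, x₁, y₁, x₂, y₂, h₁, h₂, e₁, e₂, -, hP, hPP, he₁, he₂⟩ :=
    helper2811.five_stable_imp hcard N hN h0 h1
  have hP5 : (5 : ℤ) • Point.some x₁ y₁ h₁ = 0 := by
    rw [← hP]; exact (mem_torsion_iff 5 _).mp P.2
  obtain ⟨x₂', y₂', h₂', hadd, hne, hM₁, -, hN₁, hN₂⟩ := helper1971.five_torsion_rel h₁ hP5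
  rw [hP, hadd] at hPP
  have hx : x₂' = x₂ := ((Point.some.injEq ..).mp hPP).1
  subst hx
  exact ⟨x₁, x₂', e₁, e₂, he₁, he₂, hne, hM₁, hN₁, hN₂⟩

/-- **Assembly**: the statement of S51 follows from the descent statement. -/
theorem s51_of_descent (hD : helper531.DescentX015) (W : WeierstrassCurve ℤ) (hΔ : W.Δ ≠ 0)
    (hW : W.IsSemistableModel) : W.ModRepIsIrreducible 3 ∨ W.ModRepIsIrreducible 5 := by
  by_contra hcon
  rw [not_or] at hcon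
  obtain ⟨h3, h5⟩ := hcon
  unfold WeierstrassCurve.ModRepIsIrreducible at h3 h5
  have hΔE : (W.map (Int.castRingHom ℚ)).Δ ≠ 0 := helper2451.map_Δ_rat_ne_zero W hΔ
  generalize hE : W.map (Int.castRingHom ℚ) = E at h3 h5 hΔE
  obtain ⟨x₀, hx₀⟩ := three_part hΔE h3
  obtain ⟨x₁, x₂, e₁, e₂, he₁, he₂, hne, hM₁, hN₁, hN₂⟩ := five_part hΔE h5
  rw [eq_ratCast] at he₁ he₂
  -- the `b`-invariants of the base change
  have hb2 : (E⁄Qbar).b₂ = (E.b₂ : Qbar) := by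
    show (E.map (algebraMap ℚ Qbar)).b₂ = _
    rw [WeierstrassCurve.map_b₂, eq_ratCast]
  have hb4 : (E⁄Qbar).b₄ = (E.b₄ : Qbar) := by
    show (E.map (algebraMap ℚ Qbar)).b₄ = _
    rw [WeierstrassCurve.map_b₄, eq_ratCast]
  have hb6 : (E⁄Qbar).b₆ = (E.b₆ : Qbar) := by
    show (E.map (algebraMap ℚ Qbar)).b₆ = _
    rw [WeierstrassCurve.map_b₆, eq_ratCast]
  have hb8 : (E⁄Qbar).b₈ = (E.b₈ : Qbar) := by
    show (E.map (algebraMap ℚ Qbar)).b₈ = _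
    rw [WeierstrassCurve.map_b₈, eq_ratCast]
  simp only [helper1971.Mx, helper1971.Nx, hb2, hb4, hb6, hb8] at hM₁ hN₁ hN₂
  -- rational invariants
  have hdK : (x₁ - x₂) ^ 2 = ((e₁ ^ 2 - 4 * e₂ : ℚ) : Qbar) := by
    push_cast; rw [he₁, he₂]; ring
  have hrel : 4 * (E.b₈ : Qbar) = (E.b₂ : Qbar) * (E.b₆ : Qbar) - (E.b₄ : Qbar) ^ 2 := by
    exact_mod_cast congrArg (fun q : ℚ => (q : Qbar)) E.b_relation
  have hx₀' : 3 * (x₀ : Qbar) ^ 4 + (E.b₂ : Qbar) * (x₀ : Qbar) ^ 3 +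
      3 * (E.b₄ : Qbar) * (x₀ : Qbar) ^ 2 + 3 * (E.b₆ : Qbar) * (x₀ : Qbar) + (E.b₈ : Qbar) = 0 := by
    exact_mod_cast congrArg (fun q : ℚ => (q : Qbar)) hx₀
  obtain ⟨R1, R2, R3⟩ := helper531.core_identities (K := Qbar) (E.b₂ : Qbar) (E.b₄ : Qbar)
    (E.b₆ : Qbar) (E.b₈ : Qbar) (x₀ : Qbar) x₁ x₂ hrel hne hM₁ hN₁ hN₂ hx₀'
    (((2 * x₀ - e₁) ^ 2 / (e₁ ^ 2 - 4 * e₂) : ℚ) : Qbar)
    (((E.b₂ + 6 * e₁) * (2 * x₀ - e₁) / (e₁ ^ 2 - 4 * e₂) : ℚ) : Qbar)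
    ((((E.b₂ + 6 * e₁) ^ 2 + 12 * (e₁ ^ 2 - 4 * e₂) - (E.b₂ ^ 2 - 24 * E.b₄)) /
      (12 * (e₁ ^ 2 - 4 * e₂)) : ℚ) : Qbar)
    (by rw [hdK, ← he₁]; push_cast; rfl)
    (by rw [hdK, ← he₁]; push_cast; rfl)
    (by rw [hdK, ← he₁]; push_cast; rfl)
  generalize (2 * x₀ - e₁) ^ 2 / (e₁ ^ 2 - 4 * e₂) = θ at R1 R2 R3
  generalize (E.b₂ + 6 * e₁) * (2 * x₀ - e₁) / (e₁ ^ 2 - 4 * e₂) = m at R1 R2 R3
  generalize ((E.b₂ + 6 * e₁) ^ 2 + 12 * (e₁ ^ 2 - 4 * e₂) - (E.b₂ ^ 2 - 24 * E.b₄)) /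
      (12 * (e₁ ^ 2 - 4 * e₂)) = s at R1 R2 R3
  have R1' : m ^ 2 = (s ^ 2 + 4) * θ := by exact_mod_cast R1
  have R2' : 2 * s * (1 + 3 * θ) + 2 * m * (3 + θ) + 3 * (1 - θ) ^ 2 = 0 := by exact_mod_cast R2
  have R3' : (E.b₂ ^ 2 - 24 * E.b₄) ^ 3 * (s - 11) =
      ((s - 11) ^ 2 + 10 * (s - 11) + 5) ^ 3 *
        (-E.b₂ ^ 2 * E.b₈ - 8 * E.b₄ ^ 3 - 27 * E.b₆ ^ 2 + 9 * E.b₂ * E.b₄ * E.b₆) := by
    exact_mod_cast R3
  have R3'' : E.c₄ ^ 3 * (s - 11) = ((s - 11) ^ 2 + 10 * (s - 11) + 5) ^ 3 * E.Δ := R3'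
  have hs11 : s ≠ 11 := by
    intro h
    rw [h] at R3''
    norm_num at R3''
    exact hΔE R3''
  have hsv := helper531.s_values hD s θ m R1' R2' hs11
  rw [← hE, helper2451.map_c₄_rat, helper2451.map_Δ_rat] at R3''
  exact helper2451.not_five_dvd_both W hW (helper531.five_dvd_of_s_values W.c₄ W.Δ s hsv R3'')

end Fermat.Agent.S51.helper51
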