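import Mathlib
import Fermat.Prelude.Def_FLTPrelim_ModularRep
import Fermat.Agent.S51.helper1971_Torsion
import Fermat.Agent.S51.helper2811_GaloisDescent
import Fermat.Agent.S51.helper531_Core
import Fermat.Agent.S51.helper531_Values

/-!
# S51 assembly (helper111)

* `torsion_finite_card`: root counting bound for the `n`-torsion of a Weierstrass curve
  (piece P6).
* `three_part`, `five_part`: a non-irreducible mod 3 (resp. mod 5) representation produces
  rational data (pieces P5-P8 glued against the frozen definitions).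
* `s51_of_descent`: the statement of S51 from the descent statement `DescentX015` (piece P9).

Uses `helper1971_Torsion`, `helper2811_GaloisDescent`, `helper531_Core`, `helper531_Values`.
-/

set_option autoImplicit false

open WeierstrassCurve WeierstrassCurve.Affine WeierstrassCurve.Affine.Point Polynomial

namespace Fermat.Agent.S51.helper111

section Card

variable {F : Type*} [Field F] (W : Affine F)

/-- The quadratic polynomial in `y` cutting out the fibre of the curve over `x`. -/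
noncomputable def yPoly (x : F) : F[X] :=
  X ^ 2 + C (W.a₁ * x + W.a₃) * X - C (x ^ 3 + W.a₂ * x ^ 2 + W.a₄ * x + W.a₆)

lemma natDegree_yPoly_le (x : F) : (yPoly W x).natDegree ≤ 2 := by
  unfold yPoly; compute_degree

lemma degree_yPoly (x : F) : (yPoly W x).degree = 2 := by
  unfold yPoly; compute_degree!

lemma yPoly_ne_zero (x : F) : yPoly W x ≠ 0 := by
  intro h
  have h2 := degree_yPoly W x
  rw [h, degree_zero] at h2
  exact absurd h2 (by simp)

lemma yPoly_root {x y : F} (h : W.Equation x y) : (yPoly W x).IsRoot y := by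
  rw [Affine.equation_iff] at h
  simp only [yPoly, IsRoot.def, eval_sub, eval_add, eval_pow, eval_X, eval_mul, eval_C]
  linear_combination h

/-- Coordinates of a point. -/
def coords : W.Point → Option (F × F)
  | .zero => none
  | .some x y _ => some (x, y)

lemma coords_injective : Function.Injective (coords W) := by
  rintro (_ | ⟨x₁, y₁, h₁⟩) (_ | ⟨x₂, y₂, h₂⟩) h <;>
    simp only [coords, Option.some.injEq, Prod.mk.injEq, reduceCtorEq] at h
  · rfl
  · obtain ⟨rfl, rfl⟩ := h; rfl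

variable [DecidableEq F]

/-- The candidate set of coordinates of points whose `x`-coordinate is a root of `p`. -/
noncomputable def candSet (p : F[X]) : Finset (Option (F × F)) :=
  insert none (p.roots.toFinset.biUnion fun x =>
    (yPoly W x).roots.toFinset.image fun y => some (x, y))

lemma card_candSet_le (p : F[X]) (d : ℕ) (hd : p.natDegree ≤ d) :
    (candSet W p).card ≤ d * 2 + 1 := by
  unfold candSet
  refine (Finset.card_insert_le _ _).trans (Nat.add_le_add_right ?_ 1)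
  refine (Finset.card_biUnion_le_card_mul _ _ 2 ?_).trans ?_
  · intro x _
    refine Finset.card_image_le.trans ?_
    exact (Multiset.toFinset_card_le _).trans ((card_roots' _).trans (natDegree_yPoly_le W x))
  · exact Nat.mul_le_mul_right 2 ((Multiset.toFinset_card_le _).trans ((card_roots' p).trans hd))

/-- **Root counting** (P6): if the `x`-coordinate of every affine point killed by `n` is a root
of a nonzero polynomial of degree `≤ d`, then the `n`-torsion is finite of size `≤ 2d + 1`. -/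
theorem torsion_finite_card (n : ℤ) (p : F[X]) (hp : p ≠ 0) (d : ℕ) (hd : p.natDegree ≤ d)
    (hroot : ∀ (x y : F) (h : W.Nonsingular x y), n • Point.some x y h = 0 → p.eval x = 0) :
    Finite (Submodule.torsionBy ℤ W.Point n) ∧
      Nat.card (Submodule.torsionBy ℤ W.Point n) ≤ d * 2 + 1 := by
  classical
  have hmem : ∀ P : Submodule.torsionBy ℤ W.Point n, coords W (P : W.Point) ∈ candSet W p := by
    rintro ⟨P, hP⟩
    rw [Submodule.mem_torsionBy_iff] at hP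
    cases P with
    | zero => simp [candSet, coords]
    | some x y h =>
      simp only [candSet, coords, Finset.mem_insert, reduceCtorEq, Finset.mem_biUnion,
        Finset.mem_image, Multiset.mem_toFinset, false_or]
      refine ⟨x, ?_, y, ?_, rfl⟩
      · rw [mem_roots hp]; exact hroot x y h hP
      · rw [mem_roots (yPoly_ne_zero W x)]; exact yPoly_root W h.1
  let g : Submodule.torsionBy ℤ W.Point n → candSet W p :=
    fun P => ⟨coords W (P : W.Point), hmem P⟩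
  have hg : Function.Injective g := by
    intro P Q h
    have h' : coords W (P : W.Point) = coords W (Q : W.Point) := congrArg Subtype.val h
    exact Subtype.ext (coords_injective W h')
  have hfin : Finite (Submodule.torsionBy ℤ W.Point n) := Finite.of_injective g hg
  refine ⟨hfin, ?_⟩
  calc Nat.card (Submodule.torsionBy ℤ W.Point n)
      ≤ Nat.card (candSet W p) := Nat.card_le_card_of_injective g hg
    _ = (candSet W p).card := by rw [Nat.card_eq_fintype_card, Fintype.card_coe]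
    _ ≤ d * 2 + 1 := card_candSet_le W p d hd

open Fermat.Agent.S51.helper1971 in
theorem three_torsion_card (h3 : (3 : F) ≠ 0) :
    Finite (Submodule.torsionBy ℤ W.Point ((3 : ℕ) : ℤ)) ∧
      Nat.card (Submodule.torsionBy ℤ W.Point ((3 : ℕ) : ℤ)) < 27 := by
  obtain ⟨hf, hc⟩ := torsion_finite_card W ((3 : ℕ) : ℤ) (psi3Poly W) (psi3Poly_ne_zero W h3) 4
    (natDegree_psi3Poly_le W) (fun x y h h0 => by
      rw [eval_psi3Poly]
      exact psi3_eq_zero_of_three_torsion h (by simpa using h0))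
  exact ⟨hf, by omega⟩

open Fermat.Agent.S51.helper1971 in
theorem five_torsion_card (h5 : (5 : F) ≠ 0) :
    Finite (Submodule.torsionBy ℤ W.Point ((5 : ℕ) : ℤ)) ∧
      Nat.card (Submodule.torsionBy ℤ W.Point ((5 : ℕ) : ℤ)) < 125 := by
  obtain ⟨hf, hc⟩ := torsion_finite_card W ((5 : ℕ) : ℤ) (psi5Poly W) (psi5Poly_ne_zero W h5) 12
    (natDegree_psi5Poly_le W) (fun x y h h0 => by
      rw [eval_psi5Poly]
      exact psi5_eq_zero_of_five_torsion h (by simpa using h0))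
  exact ⟨hf, by omega⟩

end Card

section Assembly

open Fermat.Agent.S51.helper1971 Fermat.Agent.S51.helper2811 Fermat.Agent.S51.helper531

variable (E : WeierstrassCurve ℚ)

lemma bc_b₂ : (E⁄(AlgebraicClosure ℚ)).b₂ = ((E.b₂ : ℚ) : AlgebraicClosure ℚ) := by
  show (WeierstrassCurve.map E (algebraMap ℚ (AlgebraicClosure ℚ))).b₂ = _
  rw [WeierstrassCurve.map_b₂, eq_ratCast]

lemma bc_b₄ : (E⁄(AlgebraicClosure ℚ)).b₄ = ((E.b₄ : ℚ) : AlgebraicClosure ℚ) := by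
  show (WeierstrassCurve.map E (algebraMap ℚ (AlgebraicClosure ℚ))).b₄ = _
  rw [WeierstrassCurve.map_b₄, eq_ratCast]

lemma bc_b₆ : (E⁄(AlgebraicClosure ℚ)).b₆ = ((E.b₆ : ℚ) : AlgebraicClosure ℚ) := by
  show (WeierstrassCurve.map E (algebraMap ℚ (AlgebraicClosure ℚ))).b₆ = _
  rw [WeierstrassCurve.map_b₆, eq_ratCast]

lemma bc_b₈ : (E⁄(AlgebraicClosure ℚ)).b₈ = ((E.b₈ : ℚ) : AlgebraicClosure ℚ) := by
  show (WeierstrassCurve.map E (algebraMap ℚ (AlgebraicClosure ℚ))).b₈ = _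
  rw [WeierstrassCurve.map_b₈, eq_ratCast]

lemma bc_Δ_ne_zero (hΔ : E.Δ ≠ 0) : (E⁄(AlgebraicClosure ℚ)).Δ ≠ 0 := by
  have h : (E⁄(AlgebraicClosure ℚ)).Δ = algebraMap ℚ (AlgebraicClosure ℚ) E.Δ :=
    WeierstrassCurve.map_Δ E _
  rw [h]
  exact (_root_.map_ne_zero _).mpr hΔ

/-- **3-part**: if the mod 3 representation is not irreducible, the 3-division polynomial has a
rational root. -/
theorem three_part (hΔ : E.Δ ≠ 0)
    (h : ¬ GaloisRepIsIrreducible (K := AlgebraicClosure ℚ) ℚ E 3) :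
    ∃ x₀ : ℚ, 3 * x₀ ^ 4 + E.b₂ * x₀ ^ 3 + 3 * E.b₄ * x₀ ^ 2 + 3 * E.b₆ * x₀ + E.b₈ = 0 := by
  have hΔK := bc_Δ_ne_zero E hΔ
  have h3K : (3 : AlgebraicClosure ℚ) ≠ 0 := by norm_num
  obtain ⟨hfin, hcard⟩ := three_torsion_card (E⁄(AlgebraicClosure ℚ)) h3K
  have hnt : Nontrivial (Submodule.torsionBy ℤ (E⁄(AlgebraicClosure ℚ)).Point (3 : ℕ)) := by
    obtain ⟨P, hP0, hP3⟩ := exists_three_torsion (W := E⁄(AlgebraicClosure ℚ)) h3K hΔK
    refine ⟨⟨⟨P, ?_⟩, 0, ?_⟩⟩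
    · rw [Submodule.mem_torsionBy_iff]; simpa using hP3
    · intro h0; exact hP0 (congrArg Subtype.val h0)
  obtain ⟨N, hN, h0, h1⟩ : ∃ N : Submodule (ZMod 3)
      (Submodule.torsionBy ℤ (E⁄(AlgebraicClosure ℚ)).Point (3 : ℕ)),
      IsGaloisStable ℚ N ∧ N ≠ ⊥ ∧ N ≠ ⊤ := by
    by_contra hno
    refine h ⟨hnt, fun N hN => ?_⟩
    by_contra hb
    exact hno ⟨N, hN, fun e => hb (Or.inl e), fun e => hb (Or.inr e)⟩
  obtain ⟨P, x, y, hxy, q, hPN, hP, hq⟩ := three_stable_imp hcard N hN h0 h1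
  have hP3 : (3 : ℤ) • Point.some x y hxy = 0 := by
    have := P.2
    rw [Submodule.mem_torsionBy_iff, hP] at this
    simpa using this
  have hpsi := psi3_eq_zero_of_three_torsion hxy hP3
  refine ⟨q, ?_⟩
  have hq' : x = (q : AlgebraicClosure ℚ) := by rw [← hq, eq_ratCast]
  unfold psi3 at hpsi
  rw [bc_b₂, bc_b₄, bc_b₆, bc_b₈, hq'] at hpsi
  exact_mod_cast hpsi

/-- **5-part**: if the mod 5 representation is not irreducible, there are `x₁, x₂` (the
`x`-coordinates of `P`, `2P` for a generator `P` of a stable line) swapped by duplication,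
with rational sum and product. -/
theorem five_part (hΔ : E.Δ ≠ 0)
    (h : ¬ GaloisRepIsIrreducible (K := AlgebraicClosure ℚ) ℚ E 5) :
    ∃ (x₁ x₂ : AlgebraicClosure ℚ) (e₁ e₂ : ℚ),
      x₁ + x₂ = (e₁ : AlgebraicClosure ℚ) ∧ x₁ * x₂ = (e₂ : AlgebraicClosure ℚ) ∧ x₁ ≠ x₂ ∧
      Mx (E⁄(AlgebraicClosure ℚ)) x₁ ≠ 0 ∧
      Nx (E⁄(AlgebraicClosure ℚ)) x₁ = x₂ * Mx (E⁄(AlgebraicClosure ℚ)) x₁ ∧
      Nx (E⁄(AlgebraicClosure ℚ)) x₂ = x₁ * Mx (E⁄(AlgebraicClosure ℚ)) x₂ := by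
  have hΔK := bc_Δ_ne_zero E hΔ
  have h5K : (5 : AlgebraicClosure ℚ) ≠ 0 := by norm_num
  obtain ⟨hfin, hcard⟩ := five_torsion_card (E⁄(AlgebraicClosure ℚ)) h5K
  have hnt : Nontrivial (Submodule.torsionBy ℤ (E⁄(AlgebraicClosure ℚ)).Point (5 : ℕ)) := by
    obtain ⟨P, hP0, hP5⟩ := exists_five_torsion (W := E⁄(AlgebraicClosure ℚ)) h5K hΔK
    refine ⟨⟨⟨P, ?_⟩, 0, ?_⟩⟩
    · rw [Submodule.mem_torsionBy_iff]; simpa using hP5
    · intro h0; exact hP0 (congrArg Subtype.val h0)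
  obtain ⟨N, hN, h0, h1⟩ : ∃ N : Submodule (ZMod 5)
      (Submodule.torsionBy ℤ (E⁄(AlgebraicClosure ℚ)).Point (5 : ℕ)),
      IsGaloisStable ℚ N ∧ N ≠ ⊥ ∧ N ≠ ⊤ := by
    by_contra hno
    refine h ⟨hnt, fun N hN => ?_⟩
    by_contra hb
    exact hno ⟨N, hN, fun e => hb (Or.inl e), fun e => hb (Or.inr e)⟩
  obtain ⟨P, x₁, y₁, x₂, y₂, h₁, h₂, e₁, e₂, hPN, hP, hPP, he₁, he₂⟩ :=
    five_stable_imp hcard N hN h0 h1
  have hP5 : (5 : ℤ) • Point.some x₁ y₁ h₁ = 0 := by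
    have := P.2
    rw [Submodule.mem_torsionBy_iff, hP] at this
    simpa using this
  obtain ⟨x₂', y₂', h₂', hadd, hne, hM₁, hM₂, hN₁, hN₂⟩ := five_torsion_rel h₁ hP5
  rw [hP] at hPP
  have hx : x₂' = x₂ := by
    have h12 := hadd.symm.trans hPP
    injection h12
  subst hx
  exact ⟨x₁, x₂', e₁, e₂, by rw [← he₁, eq_ratCast], by rw [← he₂, eq_ratCast], hne, hM₁,
    hN₁, hN₂⟩

/-- **S51 from the descent statement**: a semistable integral Weierstrass model with nonzero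
discriminant has irreducible mod 3 or mod 5 representation, provided the rational points of
`Y² = X (X - 9) (X - 25)` are known (`DescentX015`). -/
theorem s51_of_descent (hD : DescentX015) (W : WeierstrassCurve ℤ) (hΔ : W.Δ ≠ 0)
    (hW : W.IsSemistableModel) : W.ModRepIsIrreducible 3 ∨ W.ModRepIsIrreducible 5 := by
  by_contra hcon
  rw [not_or] at hcon
  obtain ⟨h3, h5⟩ := hcon
  unfold WeierstrassCurve.ModRepIsIrreducible at h3 h5
  have hc₄ : (W.map (Int.castRingHom ℚ)).c₄ = (W.c₄ : ℚ) := by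
    rw [WeierstrassCurve.map_c₄]; rfl
  have hΔ' : (W.map (Int.castRingHom ℚ)).Δ = (W.Δ : ℚ) := by
    rw [WeierstrassCurve.map_Δ]; rfl
  generalize W.map (Int.castRingHom ℚ) = E at h3 h5 hc₄ hΔ'
  have hΔE : E.Δ ≠ 0 := by rw [hΔ']; exact_mod_cast hΔ
  obtain ⟨x₀, hx₀⟩ := three_part E hΔE h3
  obtain ⟨x₁, x₂, e₁, e₂, he₁, he₂, hne, hM₁, hN₁, hN₂⟩ := five_part E hΔE h5
  unfold Mx at hM₁ hN₁ hN₂
  unfold Nx at hN₁ hN₂
  rw [bc_b₂, bc_b₄, bc_b₆] at hM₁ hN₁ hN₂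
  rw [bc_b₈] at hN₁ hN₂
  -- the rational invariants
  have hdK : (x₁ - x₂) ^ 2 = ((e₁ ^ 2 - 4 * e₂ : ℚ) : AlgebraicClosure ℚ) := by
    push_cast; rw [← he₁, ← he₂]; ring
  have hd0 : e₁ ^ 2 - 4 * e₂ ≠ 0 := by
    intro h0
    rw [h0, Rat.cast_zero] at hdK
    exact hne (sub_eq_zero.mp (pow_eq_zero_iff (two_ne_zero)|>.mp hdK))
  have hb8 : 4 * ((E.b₈ : ℚ) : AlgebraicClosure ℚ) = (E.b₂ : AlgebraicClosure ℚ) * E.b₆ - E.b₄ ^ 2 := by
    exact_mod_cast congrArg (fun q : ℚ => (q : AlgebraicClosure ℚ)) E.b_relation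
  have hx₀K : 3 * (x₀ : AlgebraicClosure ℚ) ^ 4 + (E.b₂ : AlgebraicClosure ℚ) * x₀ ^ 3 + 3 * E.b₄ * x₀ ^ 2
      + 3 * E.b₆ * x₀ + E.b₈ = 0 := by
    exact_mod_cast congrArg (fun q : ℚ => (q : AlgebraicClosure ℚ)) hx₀
  obtain ⟨R1K, R2K, R3K⟩ := core_identities (K := AlgebraicClosure ℚ)
    (E.b₂ : AlgebraicClosure ℚ) E.b₄ E.b₆ E.b₈ (x₀ : AlgebraicClosure ℚ) x₁ x₂ hb8 hne hM₁ hN₁ hN₂ hx₀K
    (((2 * x₀ - e₁) ^ 2 / (e₁ ^ 2 - 4 * e₂) : ℚ) : AlgebraicClosure ℚ)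
    (((E.b₂ + 6 * e₁) * (2 * x₀ - e₁) / (e₁ ^ 2 - 4 * e₂) : ℚ) : AlgebraicClosure ℚ)
    ((((E.b₂ + 6 * e₁) ^ 2 + 12 * (e₁ ^ 2 - 4 * e₂) - (E.b₂ ^ 2 - 24 * E.b₄)) /
      (12 * (e₁ ^ 2 - 4 * e₂)) : ℚ) : AlgebraicClosure ℚ)
    (by rw [hdK, he₁]; push_cast; ring)
    (by rw [hdK, he₁]; push_cast; ring)
    (by rw [hdK, he₁]; push_cast; ring)
  set θ : ℚ := (2 * x₀ - e₁) ^ 2 / (e₁ ^ 2 - 4 * e₂) with hθ
  set m : ℚ := (E.b₂ + 6 * e₁) * (2 * x₀ - e₁) / (e₁ ^ 2 - 4 * e₂) with hm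
  set s : ℚ := ((E.b₂ + 6 * e₁) ^ 2 + 12 * (e₁ ^ 2 - 4 * e₂) - (E.b₂ ^ 2 - 24 * E.b₄)) /
      (12 * (e₁ ^ 2 - 4 * e₂)) with hs
  have R1 : m ^ 2 = (s ^ 2 + 4) * θ := by exact_mod_cast R1K
  have R2 : 2 * s * (1 + 3 * θ) + 2 * m * (3 + θ) + 3 * (1 - θ) ^ 2 = 0 := by exact_mod_cast R2K
  have R3 : E.c₄ ^ 3 * (s - 11) = ((s - 11) ^ 2 + 10 * (s - 11) + 5) ^ 3 * E.Δ := by
    have R3' : (E.b₂ ^ 2 - 24 * E.b₄) ^ 3 * (s - 11) = ((s - 11) ^ 2 + 10 * (s - 11) + 5) ^ 3 *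
        (-E.b₂ ^ 2 * E.b₈ - 8 * E.b₄ ^ 3 - 27 * E.b₆ ^ 2 + 9 * E.b₂ * E.b₄ * E.b₆) := by
      exact_mod_cast R3K
    exact R3'
  have hs11 : s ≠ 11 := by
    intro h11
    rw [h11] at R3
    apply hΔE
    have : (125 : ℚ) * E.Δ = 0 := by linear_combination -R3
    simpa using this
  have hsv := s_values hD s θ m R1 R2 hs11
  rw [hc₄, hΔ'] at R3
  obtain ⟨h5c, h5Δ⟩ := five_dvd_of_s_values W.c₄ W.Δ s hsv R3
  exact hW 5 (by norm_num) (by exact_mod_cast h5Δ) (by exact_mod_cast h5c)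

end Assembly

end Fermat.Agent.S51.helper111
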