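import Mathlib
import Fermat.Prelude.Def_FLTPrelim_GaloisRep
import Fermat.Prelude.Def_FLTPrelim_Modularity
import Fermat.Prelude.Def_FLTPrelim_ModularRep
import Fermat.Agent.S51.helper531_Core
import Fermat.Agent.S51.helper531_Values
import Fermat.Agent.S51.helper1971_Torsion
import Fermat.Agent.S51.helper2811_GaloisDescent

/-!
# S51 assembly (helper212)

`main_of_descent`: the frozen S51 statement (a semistable Weierstrass model over `ℤ` with
`Δ ≠ 0` has irreducible mod-3 or mod-5 representation), assuming only the descent statement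
`helper531.DescentX015` (rational points of `Y² = X (X - 9) (X - 25)`).

Pieces proved here:
* `torsion_finite_card`: the `n`-torsion of an affine Weierstrass curve is finite of
  cardinality `≤ 2 deg f + 1` as soon as the `x`-coordinates of its affine points are
  roots of a nonzero polynomial `f`;
* `three_part`, `five_part`: reducibility mod 3 / mod 5 in `x`-coordinates;
* `main_of_descent`.
-/

set_option autoImplicit false

namespace Fermat.Agent.S51.helper212

open WeierstrassCurve WeierstrassCurve.Affine Polynomial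

section Card

variable {F : Type*} [Field F]

/-- The quadratic polynomial in `Y` whose roots are the `y`-coordinates above `x`. -/
noncomputable def yPoly (W : Affine F) (x : F) : F[X] :=
  X ^ 2 + C (W.a₁ * x + W.a₃) * X - C (x ^ 3 + W.a₂ * x ^ 2 + W.a₄ * x + W.a₆)

lemma yPoly_natDegree (W : Affine F) (x : F) : (yPoly W x).natDegree = 2 := by
  unfold yPoly; compute_degree!

lemma yPoly_ne_zero (W : Affine F) (x : F) : yPoly W x ≠ 0 := by
  intro h
  have := yPoly_natDegree W x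
  rw [h, natDegree_zero] at this
  exact absurd this (by norm_num)

lemma yPoly_isRoot {W : Affine F} {x y : F} (h : W.Equation x y) : (yPoly W x).IsRoot y := by
  rw [Affine.equation_iff] at h
  simp only [yPoly, IsRoot.def, eval_sub, eval_add, eval_pow, eval_X, eval_mul, eval_C]
  linear_combination h

/-- If the `x`-coordinates of all affine `n`-torsion points are roots of a nonzero polynomial
`f`, then the `n`-torsion is finite with at most `2 * deg f + 1` elements. -/
theorem torsion_finite_card [DecidableEq F] (W : Affine F) (n : ℤ) (f : F[X]) (hf : f ≠ 0)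
    (hroot : ∀ (x y : F) (h : W.Nonsingular x y), n • Point.some x y h = 0 → f.eval x = 0) :
    Finite (Submodule.torsionBy ℤ W.Point n) ∧
      Nat.card (Submodule.torsionBy ℤ W.Point n) ≤ 2 * f.natDegree + 1 := by
  classical
  let R : Finset F := f.roots.toFinset
  let S : Finset (F × F) :=
    R.biUnion (fun x => (yPoly W x).roots.toFinset.image (fun y => (x, y)))
  let g : F × F → W.Point :=
    fun p => if h : W.Nonsingular p.1 p.2 then Point.some p.1 p.2 h else 0
  let U : Finset W.Point := insert 0 (S.image g)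
  have hmem : ∀ P : Submodule.torsionBy ℤ W.Point n, (P : W.Point) ∈ U := by
    rintro ⟨P, hP⟩
    rw [Submodule.mem_torsionBy_iff] at hP
    cases P with
    | zero => exact Finset.mem_insert_self _ _
    | some x y h =>
      apply Finset.mem_insert_of_mem
      rw [Finset.mem_image]
      refine ⟨(x, y), ?_, dif_pos h⟩
      rw [Finset.mem_biUnion]
      refine ⟨x, ?_, Finset.mem_image_of_mem _ ?_⟩
      · rw [Multiset.mem_toFinset, mem_roots hf]; exact hroot x y h hP
      · rw [Multiset.mem_toFinset, mem_roots (yPoly_ne_zero W x)]; exact yPoly_isRoot h.1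
  have hcardS : S.card ≤ f.natDegree * 2 := by
    refine (Finset.card_biUnion_le_card_mul _ _ 2 ?_).trans ?_
    · intro x _
      refine Finset.card_image_le.trans ((Multiset.toFinset_card_le _).trans ?_)
      exact (card_roots' _).trans (yPoly_natDegree W x).le
    · exact Nat.mul_le_mul_right 2 ((Multiset.toFinset_card_le _).trans (card_roots' f))
  have hcardU : U.card ≤ 2 * f.natDegree + 1 := by
    refine (Finset.card_insert_le _ _).trans ?_
    have := Finset.card_image_le (s := S) (f := g)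
    omega
  let ι : Submodule.torsionBy ℤ W.Point n → U := fun P => ⟨P, hmem P⟩
  have hι : Function.Injective ι :=
    fun P Q h => Subtype.ext (congrArg (fun u : U => (u : W.Point)) h)
  have : Finite (Submodule.torsionBy ℤ W.Point n) := Finite.of_injective ι hι
  refine ⟨inferInstance, ?_⟩
  calc Nat.card (Submodule.torsionBy ℤ W.Point n) ≤ Nat.card U :=
        Nat.card_le_card_of_injective ι hι
    _ = U.card := by rw [Nat.card_eq_fintype_card, Fintype.card_coe]
    _ ≤ 2 * f.natDegree + 1 := hcardU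

end Card

section Main

open WeierstrassCurve.Affine.Point

variable (E : WeierstrassCurve ℚ)

lemma baseChange_Δ_ne_zero (hΔ : E.Δ ≠ 0) : (E⁄(AlgebraicClosure ℚ)).Δ ≠ 0 := by
  show (E.map (algebraMap ℚ (AlgebraicClosure ℚ))).Δ ≠ 0
  rw [WeierstrassCurve.map_Δ]
  exact (_root_.map_ne_zero _).mpr hΔ

/-- `E[3]` over `ℚ̄` is finite with at most `9` elements. -/
theorem three_torsion_card :
    Finite (Submodule.torsionBy ℤ (E⁄(AlgebraicClosure ℚ)).Point (3 : ℕ)) ∧
      Nat.card (Submodule.torsionBy ℤ (E⁄(AlgebraicClosure ℚ)).Point (3 : ℕ)) < 27 := by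
  obtain ⟨hfin, hcard⟩ := torsion_finite_card (E⁄(AlgebraicClosure ℚ)) ((3 : ℕ) : ℤ)
    (helper1971.psi3Poly _) (helper1971.psi3Poly_ne_zero _ (by norm_num))
    (fun x y h h3 => by
      rw [helper1971.eval_psi3Poly]
      exact helper1971.psi3_eq_zero_of_three_torsion h (by simpa using h3))
  refine ⟨hfin, lt_of_le_of_lt hcard ?_⟩
  have := helper1971.natDegree_psi3Poly_le (E⁄(AlgebraicClosure ℚ))
  omega

/-- `E[5]` over `ℚ̄` is finite with at most `25` elements. -/
theorem five_torsion_card :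
    Finite (Submodule.torsionBy ℤ (E⁄(AlgebraicClosure ℚ)).Point (5 : ℕ)) ∧
      Nat.card (Submodule.torsionBy ℤ (E⁄(AlgebraicClosure ℚ)).Point (5 : ℕ)) < 125 := by
  obtain ⟨hfin, hcard⟩ := torsion_finite_card (E⁄(AlgebraicClosure ℚ)) ((5 : ℕ) : ℤ)
    (helper1971.psi5Poly _) (helper1971.psi5Poly_ne_zero _ (by norm_num))
    (fun x y h h5 => by
      rw [helper1971.eval_psi5Poly]
      exact helper1971.psi5_eq_zero_of_five_torsion h (by simpa using h5))
  refine ⟨hfin, lt_of_le_of_lt hcard ?_⟩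
  have := helper1971.natDegree_psi5Poly_le (E⁄(AlgebraicClosure ℚ))
  omega

theorem three_torsion_nontrivial (hΔ : E.Δ ≠ 0) :
    Nontrivial (Submodule.torsionBy ℤ (E⁄(AlgebraicClosure ℚ)).Point (3 : ℕ)) := by
  obtain ⟨P, hP0, hP3⟩ := helper1971.exists_three_torsion (W := E⁄(AlgebraicClosure ℚ))
    (by norm_num) (baseChange_Δ_ne_zero E hΔ)
  have hmem : P ∈ Submodule.torsionBy ℤ (E⁄(AlgebraicClosure ℚ)).Point (3 : ℕ) := by
    rw [Submodule.mem_torsionBy_iff]; simpa using hP3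
  exact ⟨⟨⟨P, hmem⟩, 0, fun h0 => hP0 (congrArg Subtype.val h0)⟩⟩

theorem five_torsion_nontrivial (hΔ : E.Δ ≠ 0) :
    Nontrivial (Submodule.torsionBy ℤ (E⁄(AlgebraicClosure ℚ)).Point (5 : ℕ)) := by
  obtain ⟨P, hP0, hP5⟩ := helper1971.exists_five_torsion (W := E⁄(AlgebraicClosure ℚ))
    (by norm_num) (baseChange_Δ_ne_zero E hΔ)
  have hmem : P ∈ Submodule.torsionBy ℤ (E⁄(AlgebraicClosure ℚ)).Point (5 : ℕ) := by
    rw [Submodule.mem_torsionBy_iff]; simpa using hP5
  exact ⟨⟨⟨P, hmem⟩, 0, fun h0 => hP0 (congrArg Subtype.val h0)⟩⟩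

/-- **3-part**: if the mod-3 representation is reducible, the 3-division polynomial has a
rational root. -/
theorem three_part (hΔ : E.Δ ≠ 0)
    (h : ¬ GaloisRepIsIrreducible (K := AlgebraicClosure ℚ) ℚ E 3) :
    ∃ q : ℚ, helper1971.psi3 (E⁄(AlgebraicClosure ℚ)) (algebraMap ℚ (AlgebraicClosure ℚ) q) = 0 := by
  obtain ⟨hfin, hcard⟩ := three_torsion_card E
  have hnt := three_torsion_nontrivial E hΔ
  have h' : ¬ ∀ N : Submodule (ZMod 3) (Submodule.torsionBy ℤ (E⁄(AlgebraicClosure ℚ)).Point (3 : ℕ)),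
      IsGaloisStable ℚ N → N = ⊥ ∨ N = ⊤ := fun hall => h ⟨hnt, hall⟩
  obtain ⟨N, hN'⟩ := not_forall.mp h'
  obtain ⟨hN, hN''⟩ := Classical.not_imp.mp hN'
  obtain ⟨h0, h1⟩ := not_or.mp hN''
  obtain ⟨P, x, y, hxy, q, hPN, hP, hq⟩ := helper2811.three_stable_imp hcard N hN h0 h1
  have h3 : (3 : ℤ) • Point.some x y hxy = 0 := by
    rw [← hP]
    exact (Submodule.mem_torsionBy_iff _ _).mp P.2
  exact ⟨q, by rw [hq]; exact helper1971.psi3_eq_zero_of_three_torsion hxy h3⟩

/-- **5-part**: if the mod-5 representation is reducible, there are `x₁ ≠ x₂` in `ℚ̄`,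
swapped by the duplication map, with rational sum and product. -/
theorem five_part (hΔ : E.Δ ≠ 0)
    (h : ¬ GaloisRepIsIrreducible (K := AlgebraicClosure ℚ) ℚ E 5) :
    ∃ (x₁ x₂ : AlgebraicClosure ℚ) (e₁ e₂ : ℚ), x₁ ≠ x₂ ∧
      helper1971.Mx (E⁄(AlgebraicClosure ℚ)) x₁ ≠ 0 ∧
      helper1971.Nx (E⁄(AlgebraicClosure ℚ)) x₁ = x₂ * helper1971.Mx (E⁄(AlgebraicClosure ℚ)) x₁ ∧
      helper1971.Nx (E⁄(AlgebraicClosure ℚ)) x₂ = x₁ * helper1971.Mx (E⁄(AlgebraicClosure ℚ)) x₂ ∧
      algebraMap ℚ (AlgebraicClosure ℚ) e₁ = x₁ + x₂ ∧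
      algebraMap ℚ (AlgebraicClosure ℚ) e₂ = x₁ * x₂ := by
  obtain ⟨hfin, hcard⟩ := five_torsion_card E
  have hnt := five_torsion_nontrivial E hΔ
  have h' : ¬ ∀ N : Submodule (ZMod 5) (Submodule.torsionBy ℤ (E⁄(AlgebraicClosure ℚ)).Point (5 : ℕ)),
      IsGaloisStable ℚ N → N = ⊥ ∨ N = ⊤ := fun hall => h ⟨hnt, hall⟩
  obtain ⟨N, hN'⟩ := not_forall.mp h'
  obtain ⟨hN, hN''⟩ := Classical.not_imp.mp hN'
  obtain ⟨h0, h1⟩ := not_or.mp hN''
  obtain ⟨P, x₁, y₁, x₂, y₂, h₁, h₂, e₁, e₂, hPN, hP, h2P, he₁, he₂⟩ :=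
    helper2811.five_stable_imp hcard N hN h0 h1
  have h5 : (5 : ℤ) • Point.some x₁ y₁ h₁ = 0 := by
    rw [← hP]
    exact (Submodule.mem_torsionBy_iff _ _).mp P.2
  obtain ⟨x₂', y₂', h₂', hadd, hne, hM₁, hM₂, hN₁, hN₂⟩ := helper1971.five_torsion_rel h₁ h5
  rw [hP, hadd] at h2P
  obtain ⟨rfl, rfl⟩ := (Point.some.injEq ..).mp h2P
  exact ⟨x₁, x₂', e₁, e₂, hne, hM₁, hN₁, hN₂, he₁, he₂⟩

/-- **Assembly**: the frozen S51 statement, assuming only the descent statement
`helper531.DescentX015` (rational points of `Y² = X (X - 9) (X - 25)`). -/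
theorem main_of_descent (hD : helper531.DescentX015) (W : WeierstrassCurve ℤ) (hΔ : W.Δ ≠ 0)
    (hW : W.IsSemistableModel) : W.ModRepIsIrreducible 3 ∨ W.ModRepIsIrreducible 5 := by
  by_contra hcon
  obtain ⟨hc3, hc5⟩ := not_or.mp hcon
  have hc4E : (W.map (Int.castRingHom ℚ)).c₄ = (W.c₄ : ℚ) := by
    rw [WeierstrassCurve.map_c₄]; rfl
  have hΔE' : (W.map (Int.castRingHom ℚ)).Δ = (W.Δ : ℚ) := by
    rw [WeierstrassCurve.map_Δ]; rfl
  have hΔE : (W.map (Int.castRingHom ℚ)).Δ ≠ 0 := by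
    rw [hΔE']; exact_mod_cast hΔ
  unfold ModRepIsIrreducible at hc3 hc5
  obtain ⟨q, hq⟩ := three_part _ hΔE hc3
  obtain ⟨x₁, x₂, e₁, e₂, hne, hM1, hN1, hN2, he₁, he₂⟩ := five_part _ hΔE hc5
  generalize W.map (Int.castRingHom ℚ) = E at hc4E hΔE' hΔE hq hM1 hN1 hN2
  set φ := algebraMap ℚ (AlgebraicClosure ℚ) with hφ
  have hφinj : Function.Injective φ := φ.injective
  have hb2 : (E⁄(AlgebraicClosure ℚ)).b₂ = φ E.b₂ := E.map_b₂ φ
  have hb4 : (E⁄(AlgebraicClosure ℚ)).b₄ = φ E.b₄ := E.map_b₄ φ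
  have hb6 : (E⁄(AlgebraicClosure ℚ)).b₆ = φ E.b₆ := E.map_b₆ φ
  have hb8 : (E⁄(AlgebraicClosure ℚ)).b₈ = φ E.b₈ := E.map_b₈ φ
  simp only [helper1971.psi3, helper1971.Mx, helper1971.Nx, hb2, hb4, hb6, hb8] at hq hM1 hN1 hN2
  set d : ℚ := e₁ ^ 2 - 4 * e₂ with hd
  have hdK : φ d = (x₁ - x₂) ^ 2 := by
    rw [hd, map_sub, map_pow, map_mul, he₁, he₂, map_ofNat]; ring
  set θ : ℚ := (2 * q - e₁) ^ 2 / d with hθ
  set m : ℚ := (E.b₂ + 6 * e₁) * (2 * q - e₁) / d with hm
  set s : ℚ := ((E.b₂ + 6 * e₁) ^ 2 + 12 * d - (E.b₂ ^ 2 - 24 * E.b₄)) / (12 * d) with hs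
  obtain ⟨R1, R2, R3⟩ := helper531.core_identities (φ E.b₂) (φ E.b₄) (φ E.b₆) (φ E.b₈) (φ q)
    x₁ x₂
    (by rw [← map_ofNat φ 4, ← map_mul, ← map_mul, ← map_pow, ← map_sub, E.b_relation])
    hne hM1 hN1 hN2 hq (φ θ) (φ m) (φ s)
    (by rw [hθ, map_div₀, hdK, map_pow, map_sub, map_mul, map_ofNat, he₁])
    (by rw [hm, map_div₀, hdK, map_mul, map_add, map_mul, map_sub, map_mul, map_ofNat,
      map_ofNat, he₁])
    (by
      rw [hs]
      simp only [map_div₀, map_mul, map_add, map_sub, map_pow, map_ofNat, hdK, he₁])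
  have R1' : m ^ 2 = (s ^ 2 + 4) * θ := by
    apply hφinj
    simp only [map_mul, map_add, map_pow, map_ofNat]
    exact R1
  have R2' : 2 * s * (1 + 3 * θ) + 2 * m * (3 + θ) + 3 * (1 - θ) ^ 2 = 0 := by
    apply hφinj
    simp only [map_mul, map_add, map_sub, map_pow, map_ofNat, map_one, _root_.map_zero]
    exact R2
  have R3' : (W.c₄ : ℚ) ^ 3 * (s - 11) =
      ((s - 11) ^ 2 + 10 * (s - 11) + 5) ^ 3 * (W.Δ : ℚ) := by
    rw [← hc4E, ← hΔE']
    apply hφinj
    simp only [WeierstrassCurve.c₄, WeierstrassCurve.Δ, map_mul, map_add, map_sub, map_pow,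
      map_neg, map_ofNat]
    linear_combination R3
  by_cases hs11 : s = 11
  · rw [hs11] at R3'
    have h5 : ((11 : ℚ) - 11) ^ 2 + 10 * (11 - 11) + 5 = 5 := by norm_num
    rw [h5, sub_self, mul_zero] at R3'
    rcases mul_eq_zero.mp R3'.symm with h | h
    · norm_num at h
    · exact hΔ (by exact_mod_cast h)
  · have hsv := helper531.s_values hD s θ m R1' R2' hs11
    obtain ⟨h5c, h5Δ⟩ := helper531.five_dvd_of_s_values W.c₄ W.Δ s hsv R3'
    exact hW 5 (by norm_num) (by exact_mod_cast h5Δ) (by exact_mod_cast h5c)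

end Main

end Fermat.Agent.S51.helper212
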