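/-
S51 helper (helper2572): the 3-part of the "no semistable curve has both a rational 3-isogeny
and a rational 5-isogeny" argument.

Main result: `Fermat.Agent.S51.helper2572.three_reducible_imp_root`:
for a Weierstrass curve `W` over `ℚ` with `Δ ≠ 0`, if the mod-3 Galois representation on
`E[3](ℚ̄)` is not irreducible (in the sense of the Prelude), then the third division polynomial
`ψ₃ = 3x⁴ + b₂x³ + 3b₄x² + 3b₆x + b₈` has a rational root.

Also proved along the way (for a general field): a nonzero point `P` with `3P = 0` has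
`ψ₃(x(P)) = 0`, conversely a nonsingular point with `ψ₃(x) = 0` is 3-torsion, `E[3](ℚ̄)` is
nontrivial, and a proper nonzero subgroup of the 3-torsion is `{0, P, -P}`.
-/
import Mathlib
import Fermat.Prelude.Def_FLTPrelim_GaloisRep

namespace Fermat.Agent.S51.helper2572

open WeierstrassCurve WeierstrassCurve.Affine

section Field

variable {F : Type*} [Field F]

/-- The third division polynomial `ψ₃` of a Weierstrass curve, evaluated at `x`. -/
def psi3 (W : WeierstrassCurve F) (x : F) : F :=
  3 * x ^ 4 + W.b₂ * x ^ 3 + 3 * W.b₄ * x ^ 2 + 3 * W.b₆ * x + W.b₈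

open Polynomial in
/-- The third division polynomial as a polynomial. -/
noncomputable def psi3Poly (W : WeierstrassCurve F) : F[X] :=
  C 3 * X ^ 4 + C W.b₂ * X ^ 3 + C (3 * W.b₄) * X ^ 2 + C (3 * W.b₆) * X + C W.b₈

lemma psi3Poly_eval (W : WeierstrassCurve F) (x : F) : (psi3Poly W).eval x = psi3 W x := by
  simp [psi3Poly, psi3]

lemma psi3Poly_natDegree_le (W : WeierstrassCurve F) : (psi3Poly W).natDegree ≤ 4 := by
  unfold psi3Poly
  compute_degree

lemma psi3Poly_coeff_four (W : WeierstrassCurve F) : (psi3Poly W).coeff 4 = 3 := by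
  simp only [psi3Poly, Polynomial.coeff_add, Polynomial.coeff_C_mul_X_pow,
    Polynomial.coeff_C_mul_X, Polynomial.coeff_C]
  norm_num

lemma psi3Poly_ne_zero (W : WeierstrassCurve F) (h3 : (3 : F) ≠ 0) : psi3Poly W ≠ 0 := by
  intro h
  have := psi3Poly_coeff_four W
  rw [h] at this
  simp at this
  exact h3 this.symm

lemma psi3Poly_degree_ne_zero (W : WeierstrassCurve F) (h3 : (3 : F) ≠ 0) :
    (psi3Poly W).degree ≠ 0 := by
  intro h
  have h4 : (psi3Poly W).coeff 4 = 0 :=
    Polynomial.coeff_eq_zero_of_degree_lt (by rw [h]; exact_mod_cast Nat.zero_lt_succ 3)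
  rw [psi3Poly_coeff_four] at h4
  exact h3 h4

/-- The doubling numerator identity: on the curve,
`n² + a₁ n d - (a₂ + 3x) d² = -ψ₃(x)` with `n = 3x² + 2a₂x + a₄ - a₁y`, `d = 2y + a₁x + a₃`. -/
lemma key_identity (W : Affine F) {x y : F} (heq : W.Equation x y) :
    (3 * x ^ 2 + 2 * W.a₂ * x + W.a₄ - W.a₁ * y) ^ 2
      + W.a₁ * (3 * x ^ 2 + 2 * W.a₂ * x + W.a₄ - W.a₁ * y) * (2 * y + W.a₁ * x + W.a₃)
      - (W.a₂ + 3 * x) * (2 * y + W.a₁ * x + W.a₃) ^ 2 = - psi3 W x := by
  rw [equation_iff] at heq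
  simp only [psi3, WeierstrassCurve.b₂, WeierstrassCurve.b₄, WeierstrassCurve.b₆,
    WeierstrassCurve.b₈]
  linear_combination (-(12 * x + (W.a₁ ^ 2 + 4 * W.a₂))) * heq

/-- x-coordinate of a point (junk value `0` at infinity). -/
def xc {W : Affine F} : W.Point → F
  | .zero => 0
  | .some x _ _ => x

lemma xc_some {W : Affine F} {x y : F} (h : W.Nonsingular x y) :
    xc (Point.some x y h) = x := rfl

lemma eq_or_eq_neg_of_xc_eq {W : Affine F} {P Q : W.Point} (hP : P ≠ 0) (hQ : Q ≠ 0)
    (h : xc P = xc Q) : P = Q ∨ P = -Q := by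
  rcases P with _ | ⟨x₁, y₁, h₁⟩
  · exact absurd rfl hP
  rcases Q with _ | ⟨x₂, y₂, h₂⟩
  · exact absurd rfl hQ
  exact Point.X_eq_iff.mp h

variable [DecidableEq F]

/-- x-coordinate of the double of a non-2-torsion point equals `x` iff `ψ₃(x) = 0`. -/
lemma addX_self_eq_iff (W : Affine F) {x y : F} (heq : W.Equation x y)
    (hy : y ≠ W.negY x y) :
    W.addX x x (W.slope x x y y) = x ↔ psi3 W x = 0 := by
  have hd : 2 * y + W.a₁ * x + W.a₃ ≠ 0 := by
    intro h
    apply hy
    simp only [negY]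
    linear_combination h
  rw [slope_of_Y_ne rfl hy]
  have hd' : y - W.negY x y = 2 * y + W.a₁ * x + W.a₃ := by simp only [negY]; ring
  rw [hd']
  have key := key_identity W heq
  simp only [addX]
  generalize 3 * x ^ 2 + 2 * W.a₂ * x + W.a₄ - W.a₁ * y = n at key ⊢
  generalize 2 * y + W.a₁ * x + W.a₃ = d at key hd ⊢
  have e : (n / d) ^ 2 + W.a₁ * (n / d) - W.a₂ - x - x - x
      = (n ^ 2 + W.a₁ * n * d - (W.a₂ + 3 * x) * d ^ 2) / d ^ 2 := by
    field_simp
    ring
  rw [← sub_eq_zero, e, key, div_eq_zero_iff, neg_eq_zero]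
  simp [hd]

variable {W : Affine F}

/-- A nonzero point with `2P = -P` has `ψ₃(x(P)) = 0`. -/
lemma psi3_xc_of_add_self {P : W.Point} (hP : P ≠ 0) (h : P + P = -P) :
    psi3 W (xc P) = 0 := by
  rcases P with _ | ⟨x, y, hxy⟩
  · exact absurd rfl hP
  by_cases hy : y = W.negY x y
  · rw [Point.add_self_of_Y_eq hy] at h
    exact absurd h.symm (Point.some_ne_zero _)
  · rw [Point.add_self_of_Y_ne hy, Point.neg_some, Point.some.injEq] at h
    exact (addX_self_eq_iff W hxy.1 hy).mp h.1

/-- A nonsingular point whose x-coordinate is a root of `ψ₃` satisfies `2P = -P`. -/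
lemma add_self_of_psi3 {x y : F} (h : W.Nonsingular x y) (h3 : psi3 W x = 0) :
    Point.some x y h + Point.some x y h = -Point.some x y h := by
  have hy : y ≠ W.negY x y := by
    intro hy
    have hd : 2 * y + W.a₁ * x + W.a₃ = 0 := by
      simp only [negY] at hy
      linear_combination hy
    have key := key_identity W h.1
    rw [hd, h3] at key
    have hn : 3 * x ^ 2 + 2 * W.a₂ * x + W.a₄ - W.a₁ * y = 0 := by
      have : (3 * x ^ 2 + 2 * W.a₂ * x + W.a₄ - W.a₁ * y) ^ 2 = 0 := by
        linear_combination key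
      exact pow_eq_zero_iff (two_ne_zero) |>.mp this
    have h' := h
    rw [nonsingular_iff'] at h'
    rcases h'.2 with h' | h'
    · exact h' (by linear_combination -hn)
    · exact h' hd
  have hX := (addX_self_eq_iff W h.1 hy).mpr h3
  have hns := nonsingular_add h h (fun hxy => hy hxy.right)
  rcases (Point.X_eq_iff (h₁ := hns) (h₂ := h)).mp hX with h1 | h1
  · exfalso
    have h2 : Point.some x y h + Point.some x y h = Point.some x y h := by
      rw [Point.add_self_of_Y_ne hy]; exact h1
    have h3 : Point.some x y h = 0 := by simp at h2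
    exact Point.some_ne_zero h h3
  · rw [Point.add_self_of_Y_ne hy]; exact h1

end Field

/-- Abstract counting lemma: in an abelian group of exponent 3 whose nonzero elements have an
"x-coordinate" that is a root of a nonzero polynomial of degree `≤ 4` and determines the element
up to sign, a subgroup containing a nonzero `P` and missing some `Q` is `{0, P, -P}`. -/
lemma five_roots_aux {A : Type*} [AddCommGroup A] {K : Type*} [Field K] (x : A → K)
    (p : Polynomial K) (hp : p ≠ 0) (hdeg : p.natDegree ≤ 4)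
    (hroot : ∀ a : A, a ≠ 0 → p.eval (x a) = 0)
    (hx : ∀ a b : A, a ≠ 0 → b ≠ 0 → x a = x b → a = b ∨ a = -b)
    (h3 : ∀ a : A, (3 : ℤ) • a = 0)
    (N : AddSubgroup A) {P Q R : A} (hP : P ∈ N) (hP0 : P ≠ 0) (hQ : Q ∉ N) (hR : R ∈ N) :
    R = 0 ∨ R = P ∨ R = -P := by
  by_contra hcon
  push Not at hcon
  obtain ⟨hR0, hRP, hRnP⟩ := hcon
  have h3P := h3 P
  have h3R := h3 R
  have hPR0 : P + R ≠ 0 := fun h => hRnP (by linear_combination (norm := module) h)
  have hPmR0 : P - R ≠ 0 := fun h => hRP (by linear_combination (norm := module) -h)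
  have hQ0 : Q ≠ 0 := fun h => hQ (h ▸ N.zero_mem)
  have hQN : ∀ a : A, a ∈ N → a ≠ 0 → x a ≠ x Q := by
    intro a ha ha0 h
    rcases hx a Q ha0 hQ0 h with h | h
    · exact hQ (h ▸ ha)
    · have : Q = -a := by rw [h, neg_neg]
      exact hQ (this ▸ N.neg_mem ha)
  have h01 : x P ≠ x R := by
    intro h
    rcases hx _ _ hP0 hR0 h with h | h
    · exact hRP h.symm
    · exact hRnP (by rw [h, neg_neg])
  have h02 : x P ≠ x (P + R) := by
    intro h
    rcases hx _ _ hP0 hPR0 h with h | h
    · exact hR0 (by linear_combination (norm := module) -h)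
    · exact hRP (by linear_combination (norm := module) h - h3P)
  have h03 : x P ≠ x (P - R) := by
    intro h
    rcases hx _ _ hP0 hPmR0 h with h | h
    · exact hR0 (by linear_combination (norm := module) h)
    · exact hRnP (by linear_combination (norm := module) h3P - h)
  have h04 : x P ≠ x Q := hQN P hP hP0
  have h12 : x R ≠ x (P + R) := by
    intro h
    rcases hx _ _ hR0 hPR0 h with h | h
    · exact hP0 (by linear_combination (norm := module) -h)
    · exact hRP (by linear_combination (norm := module) h3R - h)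
  have h13 : x R ≠ x (P - R) := by
    intro h
    rcases hx _ _ hR0 hPmR0 h with h | h
    · exact hRnP (by linear_combination (norm := module) h3R - h)
    · exact hP0 (by linear_combination (norm := module) h)
  have h14 : x R ≠ x Q := hQN R hR hR0
  have h23 : x (P + R) ≠ x (P - R) := by
    intro h
    rcases hx _ _ hPR0 hPmR0 h with h | h
    · exact hR0 (by linear_combination (norm := module) h3R - h)
    · exact hP0 (by linear_combination (norm := module) h3P - h)
  have h24 : x (P + R) ≠ x Q := hQN _ (N.add_mem hP hR) hPR0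
  have h34 : x (P - R) ≠ x Q := hQN _ (N.sub_mem hP hR) hPmR0
  let f : Fin 5 → K := ![x P, x R, x (P + R), x (P - R), x Q]
  have hinj : Function.Injective f := by
    rw [← List.nodup_ofFn]
    simp [f, h01, h02, h03, h04, h12, h13, h14, h23, h24, h34]
  have heval : ∀ i, p.eval (f i) = 0 := by
    intro i
    fin_cases i
    · exact hroot _ hP0
    · exact hroot _ hR0
    · exact hroot _ hPR0
    · exact hroot _ hPmR0
    · exact hroot _ hQ0
  exact hp (Polynomial.eq_zero_of_natDegree_lt_card_of_eval_eq_zero p hinj heval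
    (by simp; omega))

section Torsion

variable {K : Type*} [Field K] [DecidableEq K] (E : Affine K)

lemma add_self_of_mem_torsion {P : E.Point}
    (hP : P ∈ Submodule.torsionBy ℤ E.Point ((3 : ℕ) : ℤ)) : P + P = -P := by
  rw [Submodule.mem_torsionBy_iff] at hP
  have : ((3 : ℕ) : ℤ) • P = P + P + P := by
    push_cast
    rw [show (3 : ℤ) = 1 + 1 + 1 by norm_num, add_smul, add_smul, one_smul]
  rw [this] at hP
  exact eq_neg_of_add_eq_zero_left hP

lemma mem_torsion_of_add_self {P : E.Point} (h : P + P = -P) :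
    P ∈ Submodule.torsionBy ℤ E.Point ((3 : ℕ) : ℤ) := by
  rw [Submodule.mem_torsionBy_iff]
  have : ((3 : ℕ) : ℤ) • P = P + P + P := by
    push_cast
    rw [show (3 : ℤ) = 1 + 1 + 1 by norm_num, add_smul, add_smul, one_smul]
  rw [this, h, neg_add_cancel]

/-- A subgroup of the 3-torsion containing a nonzero `P` and missing some `Q` is `{0, P, -P}`. -/
lemma three_torsion_line (h3 : (3 : K) ≠ 0)
    (N : AddSubgroup (Submodule.torsionBy ℤ E.Point ((3 : ℕ) : ℤ)))
    {P Q R : Submodule.torsionBy ℤ E.Point ((3 : ℕ) : ℤ)} (hP : P ∈ N) (hP0 : P ≠ 0)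
    (hQ : Q ∉ N) (hR : R ∈ N) : R = 0 ∨ R = P ∨ R = -P := by
  refine five_roots_aux (A := Submodule.torsionBy ℤ E.Point ((3 : ℕ) : ℤ))
    (fun a => xc (a : E.Point)) (psi3Poly E) (psi3Poly_ne_zero E h3)
    (psi3Poly_natDegree_le E) ?_ ?_ ?_ N hP hP0 hQ hR
  · intro a ha
    rw [psi3Poly_eval]
    exact psi3_xc_of_add_self (fun h => ha (Subtype.ext h)) (add_self_of_mem_torsion E a.2)
  · intro a b ha hb h
    rcases eq_or_eq_neg_of_xc_eq (fun h => ha (Subtype.ext h)) (fun h => hb (Subtype.ext h)) h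
      with h | h
    · exact Or.inl (Subtype.ext h)
    · exact Or.inr (Subtype.ext h)
  · intro a
    apply Subtype.ext
    simp

end Torsion

section Rat

/-- The `ℚ`-algebra structure used by the frozen definitions makes `AlgebraicClosure ℚ` Galois
over `ℚ`. -/
theorem isGalois_rat_closure : IsGalois ℚ (AlgebraicClosure ℚ) := by
  have e : (DivisionRing.toRatAlgebra : Algebra ℚ (AlgebraicClosure ℚ))
      = AlgebraicClosure.instAlgebra ℚ := Subsingleton.elim _ _
  rw [e]
  infer_instance

/-- An element of `AlgebraicClosure ℚ` fixed by every `ℚ`-automorphism is rational. -/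
theorem exists_rat_of_fixed (x : AlgebraicClosure ℚ)
    (h : ∀ σ : AlgebraicClosure ℚ ≃ₐ[ℚ] AlgebraicClosure ℚ, σ x = x) :
    ∃ q : ℚ, algebraMap ℚ (AlgebraicClosure ℚ) q = x := by
  have := isGalois_rat_closure
  have hx : x ∈ IntermediateField.fixedField (⊤ : Subgroup (AlgebraicClosure ℚ ≃ₐ[ℚ] AlgebraicClosure ℚ)) := by
    rw [IntermediateField.mem_fixedField_iff]
    exact fun σ _ => h σ
  rw [InfiniteGalois.fixedField_bot, IntermediateField.mem_bot] at hx
  exact hx

/-- `E[3](ℚ̄)` is nontrivial for an elliptic curve over `ℚ`. -/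
theorem nontrivial_three_torsion (W : WeierstrassCurve ℚ) (hΔ : W.Δ ≠ 0) :
    Nontrivial (Submodule.torsionBy ℤ (W⁄(AlgebraicClosure ℚ)).Point ((3 : ℕ) : ℤ)) := by
  classical
  set E : Affine (AlgebraicClosure ℚ) := W⁄(AlgebraicClosure ℚ) with hE
  have h3 : (3 : AlgebraicClosure ℚ) ≠ 0 := by norm_num
  have hEΔ : E.Δ ≠ 0 := by
    have : E.Δ = algebraMap ℚ (AlgebraicClosure ℚ) W.Δ := WeierstrassCurve.map_Δ W _
    rw [this]
    exact (map_ne_zero_iff _ (algebraMap ℚ (AlgebraicClosure ℚ)).injective).mpr hΔ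
  obtain ⟨x, hx⟩ := IsAlgClosed.exists_root (psi3Poly E) (psi3Poly_degree_ne_zero E h3)
  rw [Polynomial.IsRoot, psi3Poly_eval] at hx
  -- find y on the curve
  let q : Polynomial (AlgebraicClosure ℚ) :=
    Polynomial.X ^ 2 + Polynomial.C (E.a₁ * x + E.a₃) * Polynomial.X
      - Polynomial.C (x ^ 3 + E.a₂ * x ^ 2 + E.a₄ * x + E.a₆)
  have hq : q.degree ≠ 0 := by
    have : q.degree = 2 := by
      simp only [q]
      compute_degree!
    rw [this]; norm_num
  obtain ⟨y, hy⟩ := IsAlgClosed.exists_root q hq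
  have heq : E.Equation x y := by
    rw [equation_iff]
    simp only [q, Polynomial.IsRoot, Polynomial.eval_add, Polynomial.eval_sub, Polynomial.eval_mul,
      Polynomial.eval_pow, Polynomial.eval_X, Polynomial.eval_C] at hy
    linear_combination hy
  have hns : E.Nonsingular x y := (equation_iff_nonsingular_of_Δ_ne_zero hEΔ).mp heq
  have hP := add_self_of_psi3 hns hx
  refine ⟨⟨⟨Point.some x y hns, mem_torsion_of_add_self E hP⟩, 0, ?_⟩⟩
  intro h
  exact Point.some_ne_zero hns (congrArg Subtype.val h)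

/-- **3-part of S51.** If the mod-3 representation of an elliptic curve over `ℚ` is not
irreducible (in the sense of the Prelude), then `ψ₃` has a rational root. -/
theorem three_reducible_imp_root (W : WeierstrassCurve ℚ) (hΔ : W.Δ ≠ 0)
    (h : ¬ Affine.Point.GaloisRepIsIrreducible (K := AlgebraicClosure ℚ) ℚ W 3) :
    ∃ x₀ : ℚ, 3 * x₀ ^ 4 + W.b₂ * x₀ ^ 3 + 3 * W.b₄ * x₀ ^ 2 + 3 * W.b₆ * x₀ + W.b₈ = 0 := by
  unfold Affine.Point.GaloisRepIsIrreducible at h
  have hnt := nontrivial_three_torsion W hΔ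
  rw [not_and_or] at h
  rcases h with h | h
  · exact absurd hnt h
  push Not at h
  obtain ⟨N, hN, hbot, htop⟩ := h
  obtain ⟨P, hPN, hP0⟩ := (Submodule.ne_bot_iff N).mp hbot
  obtain ⟨Q, hQ⟩ : ∃ Q, Q ∉ N := by
    by_contra hcon
    push Not at hcon
    exact htop (Submodule.eq_top_iff'.mpr hcon)
  have h3 : (3 : AlgebraicClosure ℚ) ≠ 0 := by norm_num
  have hline := fun R (hR : R ∈ N) =>
    three_torsion_line (W⁄(AlgebraicClosure ℚ)) h3 N.toAddSubgroup hPN hP0 hQ hR
  -- coordinates of P
  obtain ⟨P', hP'⟩ := P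
  rcases P' with _ | ⟨x, y, hxy⟩
  · exact absurd (Subtype.ext rfl) hP0
  have hfix : ∀ σ : AlgebraicClosure ℚ ≃ₐ[ℚ] AlgebraicClosure ℚ, σ x = x := by
    intro σ
    have hσ := hline _ (hN σ _ hPN)
    rcases hσ with hσ | hσ | hσ
    · exfalso
      have := congrArg Subtype.val hσ
      exact Point.some_ne_zero _ this
    · have := congrArg Subtype.val hσ
      exact (Point.some.inj this).1
    · have := congrArg Subtype.val hσ
      exact (Point.some.inj this).1
  obtain ⟨x₀, hx₀⟩ := exists_rat_of_fixed x hfix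
  refine ⟨x₀, ?_⟩
  have hpsi : psi3 (W⁄(AlgebraicClosure ℚ)) x = 0 := by
    have := psi3_xc_of_add_self (W := W⁄(AlgebraicClosure ℚ)) (P := Point.some x y hxy)
      (Point.some_ne_zero _) (add_self_of_mem_torsion _ hP')
    exact this
  apply (algebraMap ℚ (AlgebraicClosure ℚ)).injective
  rw [← hx₀] at hpsi
  simp only [psi3, WeierstrassCurve.baseChange, WeierstrassCurve.map_b₂, WeierstrassCurve.map_b₄,
    WeierstrassCurve.map_b₆, WeierstrassCurve.map_b₈] at hpsi
  simp only [map_add, map_mul, map_pow, map_ofNat, map_zero]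
  exact hpsi

end Rat

end Fermat.Agent.S51.helper2572
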