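import Mathlib

set_option autoImplicit false

namespace Fermat.Agent.S51.helper291

/-! Rank-zero descent for `Y^2 = X (X - 9) (X - 25)` (the modular curve of level fifteen). -/

theorem zmod3_sq_add_sq : ∀ x y : ZMod 3, x ^ 2 + y ^ 2 = 0 → y = 0 := by decide

theorem three_dvd_of_sq_add_sq {a b e : ℤ} (h : a ^ 2 = b ^ 2 + e ^ 2) (h3 : (3 : ℤ) ∣ a) :
    (3 : ℤ) ∣ e := by
  have ha : ((a : ℤ) : ZMod 3) = 0 := (ZMod.intCast_zmod_eq_zero_iff_dvd a 3).mpr h3
  have h' : ((b : ℤ) : ZMod 3) ^ 2 + ((e : ℤ) : ZMod 3) ^ 2 = 0 := by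
    have : ((a ^ 2 : ℤ) : ZMod 3) = ((b ^ 2 + e ^ 2 : ℤ) : ZMod 3) := by rw [h]
    push_cast at this
    rw [← this, ha]
    ring
  exact (ZMod.intCast_zmod_eq_zero_iff_dvd e 3).mp (zmod3_sq_add_sq _ _ h')

theorem sq_mod_eight (q : ℤ) : q ^ 2 % 8 = 0 ∨ q ^ 2 % 8 = 1 ∨ q ^ 2 % 8 = 4 := by
  have h : q % 8 = 0 ∨ q % 8 = 1 ∨ q % 8 = 2 ∨ q % 8 = 3 ∨ q % 8 = 4 ∨ q % 8 = 5 ∨ q % 8 = 6 ∨
      q % 8 = 7 := by omega
  rcases h with h | h | h | h | h | h | h | h <;> simp [pow_two, Int.mul_emod, h]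

theorem sq_mod_eight_of_odd {q : ℤ} (hq : q % 2 = 1) : q ^ 2 % 8 = 1 := by
  have h : q % 8 = 1 ∨ q % 8 = 3 ∨ q % 8 = 5 ∨ q % 8 = 7 := by omega
  rcases h with h | h | h | h <;> simp [pow_two, Int.mul_emod, h]

theorem sq_mod_four_of_even {q : ℤ} (hq : q % 2 = 0) : q ^ 2 % 4 = 0 := by
  have h : q % 4 = 0 ∨ q % 4 = 2 := by omega
  rcases h with h | h <;> simp [pow_two, Int.mul_emod, h]

theorem sq_mod_two_of_odd {q : ℤ} (hq : q % 2 = 1) : q ^ 2 % 2 = 1 := by
  simp [pow_two, Int.mul_emod, hq]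

theorem sq_mod_two_of_even {q : ℤ} (hq : q % 2 = 0) : q ^ 2 % 2 = 0 := by
  simp [pow_two, Int.mul_emod, hq]

theorem odd_sq_sub_sq {p q : ℤ} (h : p % 2 = 0 ∧ q % 2 = 1 ∨ p % 2 = 1 ∧ q % 2 = 0) :
    (p ^ 2 - q ^ 2) % 2 = 1 := by
  rcases h with ⟨hp, hq⟩ | ⟨hp, hq⟩
  · have h1 := sq_mod_two_of_even hp
    have h2 := sq_mod_two_of_odd hq
    omega
  · have h1 := sq_mod_two_of_odd hp
    have h2 := sq_mod_two_of_even hq
    omega

/-- The case where both Pythagorean parametrisations put the common leg in the odd slot is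
impossible modulo `8`. -/
theorem no_odd_odd {m n p q : ℤ} (hpar : m % 2 = 0 ∧ n % 2 = 1 ∨ m % 2 = 1 ∧ n % 2 = 0)
    (hsum : m ^ 2 + n ^ 2 = p ^ 2 + q ^ 2) (hdiff : 9 * (m ^ 2 - n ^ 2) = p ^ 2 - q ^ 2) : False := by
  rcases hpar with ⟨hm, hn⟩ | ⟨hm, hn⟩
  · have h1 := sq_mod_four_of_even hm
    have h2 := sq_mod_eight_of_odd hn
    have h3 := sq_mod_eight q
    omega
  · have h1 := sq_mod_eight_of_odd hm
    have h2 := sq_mod_four_of_even hn
    have h3 := sq_mod_eight p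
    omega


/-- Descent step: a primitive solution of `a² = b² + e² = c² + 81 e²` with `e ≠ 0` yields
another solution with `e' ≠ 0` and strictly smaller `|a'|`. -/
theorem step {a b c e : ℤ} (ha : 0 < a) (hb : 0 ≤ b) (he : e ≠ 0) (hae : IsCoprime a e)
    (h1 : a ^ 2 = b ^ 2 + e ^ 2) (h2 : a ^ 2 = c ^ 2 + 81 * e ^ 2) :
    ∃ a' b' c' e' : ℤ, e' ≠ 0 ∧ a'.natAbs < a.natAbs ∧ a' ^ 2 = b' ^ 2 + e' ^ 2 ∧
      a' ^ 2 = c' ^ 2 + 81 * e' ^ 2 := by
  -- coprimality of the two Pythagorean triples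
  have hbe : IsCoprime b e := by
    have h : IsCoprime (b ^ 2 + e * e) e := by
      have := hae.pow_left (m := 2)
      rw [h1] at this
      rwa [show b ^ 2 + e * e = b ^ 2 + e ^ 2 by ring]
    exact (IsCoprime.pow_left_iff (by norm_num : 0 < 2)).mp h.of_add_mul_left_left
  have h3a : ¬ (3 : ℤ) ∣ a := by
    intro h3
    have h3e := three_dvd_of_sq_add_sq h1 h3
    have := hae.isUnit_of_dvd' h3 h3e
    exact absurd this (by decide)
  have ha9e : IsCoprime a (9 * e) := by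
    have h3 : IsCoprime (3 : ℤ) a := (Int.prime_three.irreducible.coprime_iff_not_dvd).mpr h3a
    have h9 : IsCoprime a 9 := by
      have := (h3.pow_left (m := 2)).symm
      norm_num at this
      exact this
    exact h9.mul_right hae
  have hc9e : IsCoprime c (9 * e) := by
    have h : IsCoprime (c ^ 2 + (9 * e) * (9 * e)) (9 * e) := by
      have := ha9e.pow_left (m := 2)
      rw [h2] at this
      rwa [show c ^ 2 + (9 * e) * (9 * e) = c ^ 2 + 81 * e ^ 2 by ring]
    exact (IsCoprime.pow_left_iff (by norm_num : 0 < 2)).mp h.of_add_mul_left_left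
  have hp1 : PythagoreanTriple b e a := by
    unfold PythagoreanTriple; linear_combination -h1
  have hp2 : PythagoreanTriple c (9 * e) a := by
    unfold PythagoreanTriple; linear_combination -h2
  obtain ⟨m, n, hcase1, hz1, -, hpar1⟩ :=
    PythagoreanTriple.coprime_classification.mp ⟨hp1, Int.isCoprime_iff_gcd_eq_one.mp hbe⟩
  obtain ⟨p, q, hcase2, hz2, -, hpar2⟩ :=
    PythagoreanTriple.coprime_classification.mp ⟨hp2, Int.isCoprime_iff_gcd_eq_one.mp hc9e⟩
  have hz1' : a = m ^ 2 + n ^ 2 := by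
    rcases hz1 with h | h
    · exact h
    · exfalso; nlinarith [sq_nonneg m, sq_nonneg n]
  have hz2' : a = p ^ 2 + q ^ 2 := by
    rcases hz2 with h | h
    · exact h
    · exfalso; nlinarith [sq_nonneg p, sq_nonneg q]
  have hsum : m ^ 2 + n ^ 2 = p ^ 2 + q ^ 2 := by rw [← hz1', ← hz2']
  have hodd1 := odd_sq_sub_sq hpar1
  have hodd2 := odd_sq_sub_sq hpar2
  rcases hcase1 with ⟨hb', he'⟩ | ⟨hb', he'⟩
  swap
  · -- `e` odd: impossible
    exfalso
    rcases hcase2 with ⟨hc', h9e⟩ | ⟨hc', h9e⟩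
    · rw [he'] at h9e
      have : 9 * (m ^ 2 - n ^ 2) = 2 * (p * q) := by linear_combination h9e
      omega
    · rw [he'] at h9e
      exact no_odd_odd hpar1 hsum h9e
  rcases hcase2 with ⟨hc', h9e⟩ | ⟨hc', h9e⟩
  swap
  · exfalso
    rw [he'] at h9e
    have : 2 * (9 * (m * n)) = p ^ 2 - q ^ 2 := by linear_combination h9e
    omega
  -- main case
  have hpq : p * q = 9 * m * n := by
    rw [he'] at h9e
    have : 2 * (p * q) = 2 * (9 * m * n) := by linear_combination -h9e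
    exact mul_left_cancel₀ (by norm_num) this
  have hm0 : m ≠ 0 := by
    rintro rfl; apply he; rw [he']; ring
  have hn0 : n ≠ 0 := by
    rintro rfl; apply he; rw [he']; ring
  have hp0 : p ≠ 0 := by
    rintro rfl
    have : 9 * m * n = 0 := by rw [← hpq]; ring
    have := mul_ne_zero (mul_ne_zero (by norm_num : (9 : ℤ) ≠ 0) hm0) hn0
    contradiction
  have hq0 : q ≠ 0 := by
    rintro rfl
    have : 9 * m * n = 0 := by rw [← hpq]; ring
    have := mul_ne_zero (mul_ne_zero (by norm_num : (9 : ℤ) ≠ 0) hm0) hn0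
    contradiction
  set A := m ^ 2 - q ^ 2 with hA
  set B := m ^ 2 - p ^ 2 with hB
  have hAB : A * B = 5 * (4 * m * n) ^ 2 := by
    rw [hA, hB]; linear_combination (m ^ 2) * hsum + (p * q + 9 * m * n) * hpq
  have hAplusB : A + B = b := by
    rw [hA, hB, hb']; linear_combination hsum
  have hABpos : 0 < A * B := by rw [hAB]; positivity
  have hApos : 0 < A := by
    by_contra hA'
    rw [not_lt] at hA'
    have hB' : 0 ≤ B := by linarith
    nlinarith
  have hBpos : 0 < B := by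
    by_contra hB'
    rw [not_lt] at hB'
    nlinarith
  -- coprimality of `A` and `B`
  have hcop : IsCoprime A B := by
    rw [Int.isCoprime_iff_gcd_eq_one]
    set G := Int.gcd A B with hG
    have hGA : (G : ℤ) ∣ A := Int.gcd_dvd_left A B
    have hGB : (G : ℤ) ∣ B := Int.gcd_dvd_right A B
    have hGb : (G : ℤ) ∣ b := by rw [← hAplusB]; exact dvd_add hGA hGB
    have hGe : IsCoprime (G : ℤ) e := hbe.of_isCoprime_of_dvd_left hGb
    have hG2 : (G : ℤ) ^ 2 ∣ 20 * e ^ 2 := by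
      have : (G : ℤ) ^ 2 ∣ A * B := by rw [sq]; exact mul_dvd_mul hGA hGB
      rw [hAB] at this
      rw [he']
      convert this using 1
      ring
    have hG20 : (G : ℤ) ^ 2 ∣ 20 := (hGe.pow (m := 2) (n := 2)).dvd_of_dvd_mul_right hG2
    have hG20' : G ^ 2 ∣ 20 := by exact_mod_cast hG20
    have hGle : G ≤ 4 := by
      by_contra hlt
      rw [not_le] at hlt
      have : G ^ 2 ≤ 20 := Nat.le_of_dvd (by norm_num) hG20'
      nlinarith
    have hbodd : b % 2 = 1 := by rw [hb']; exact hodd1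
    interval_cases G
    · norm_num at hG20'
    · rfl
    · exfalso
      have : (2 : ℤ) ∣ b := by exact_mod_cast hGb
      omega
    · norm_num at hG20'
    · norm_num at hG20'
  have h5 : (5 : ℤ) ∣ A * B := by rw [hAB]; exact dvd_mul_right _ _
  -- a generic construction of the new solution
  have key : ∀ t k : ℤ, t ≠ 0 → t ^ 2 = k ^ 2 + n ^ 2 → m ^ 2 * (t ^ 2 - 81 * n ^ 2) = (t * k) ^ 2 →
      t.natAbs < a.natAbs →
      ∃ a' b' c' e' : ℤ, e' ≠ 0 ∧ a'.natAbs < a.natAbs ∧ a' ^ 2 = b' ^ 2 + e' ^ 2 ∧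
        a' ^ 2 = c' ^ 2 + 81 * e' ^ 2 := by
    intro t k _ htk hmt hlt
    have hdvd : m ^ 2 ∣ (t * k) ^ 2 := ⟨_, hmt.symm⟩
    obtain ⟨c', hc'⟩ := (Int.pow_dvd_pow_iff (by norm_num : (2 : ℕ) ≠ 0)).mp hdvd
    refine ⟨t, k, c', n, hn0, hlt, htk, ?_⟩
    have hm2 : m ^ 2 ≠ 0 := pow_ne_zero 2 hm0
    have : m ^ 2 * (t ^ 2 - 81 * n ^ 2) = m ^ 2 * c' ^ 2 := by rw [hmt, hc']; ring
    have := mul_left_cancel₀ hm2 this
    linear_combination this
  have hnat : ∀ t s : ℤ, s ≠ 0 → a = s ^ 2 + t ^ 2 → t.natAbs < a.natAbs := by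
    intro t s hs hats
    have h1 : (t.natAbs : ℤ) ≤ t ^ 2 := Int.natAbs_le_self_sq t
    have h2 : 0 < s ^ 2 := by positivity
    have h3 : (a.natAbs : ℤ) = a := Int.natAbs_of_nonneg ha.le
    omega
  have hprime5 : Prime (5 : ℤ) := Int.prime_iff_natAbs_prime.mpr (by norm_num)
  rcases hprime5.dvd_or_dvd h5 with ⟨A', hA'⟩ | ⟨B', hB'⟩
  · -- `B` is a square
    have hcop' : IsCoprime B A' := by
      rw [hA'] at hcop
      exact hcop.of_mul_left_right.symm
    have hprod : B * A' = (4 * m * n) ^ 2 := by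
      have : 5 * (B * A') = 5 * (4 * m * n) ^ 2 := by rw [← hAB, hA']; ring
      exact mul_left_cancel₀ (by norm_num) this
    obtain ⟨k, hk | hk⟩ := Int.sq_of_isCoprime hcop' hprod
    swap
    · exfalso; nlinarith [sq_nonneg k]
    refine key q k hq0 ?_ ?_ (hnat q p hp0 hz2')
    · rw [← hk, hB]; linear_combination -hsum
    · rw [mul_pow, ← hk, hB]; linear_combination (p * q + 9 * m * n) * hpq
  · -- `A` is a square
    have hcop' : IsCoprime A B' := by
      rw [hB'] at hcop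
      exact hcop.of_mul_right_right
    have hprod : A * B' = (4 * m * n) ^ 2 := by
      have : 5 * (A * B') = 5 * (4 * m * n) ^ 2 := by rw [← hAB, hB']; ring
      exact mul_left_cancel₀ (by norm_num) this
    obtain ⟨k, hk | hk⟩ := Int.sq_of_isCoprime hcop' hprod
    swap
    · exfalso; nlinarith [sq_nonneg k]
    refine key p k hp0 ?_ ?_ (hnat p q hq0 (by rw [hz2']; ring))
    · rw [← hk, hA]; linear_combination -hsum
    · rw [mul_pow, ← hk, hA]; linear_combination (p * q + 9 * m * n) * hpq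


/-- No integer solutions of `a² = b² + e² = c² + 81 e²` with `e ≠ 0`. -/
theorem int_system : ∀ (N : ℕ) (a b c e : ℤ), a.natAbs = N → a ^ 2 = b ^ 2 + e ^ 2 →
    a ^ 2 = c ^ 2 + 81 * e ^ 2 → e = 0 := by
  intro N
  induction N using Nat.strong_induction_on with
  | _ N ih =>
    intro a b c e hN h1 h2
    by_contra he
    -- divide by the gcd of `a` and `e`
    have hgpos : 0 < Int.gcd a e := Int.gcd_pos_of_ne_zero_right a he
    obtain ⟨a1, ha1⟩ : (Int.gcd a e : ℤ) ∣ a := Int.gcd_dvd_left a e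
    obtain ⟨e1, he1⟩ : (Int.gcd a e : ℤ) ∣ e := Int.gcd_dvd_right a e
    set g : ℤ := (Int.gcd a e : ℤ) with hg
    have hg0 : g ≠ 0 := by
      rw [hg]; exact_mod_cast hgpos.ne'
    have hg2 : g ^ 2 ≠ 0 := pow_ne_zero 2 hg0
    have hcop : IsCoprime a1 e1 := by
      rw [Int.isCoprime_iff_gcd_eq_one]
      have h := Int.gcd_mul_left g a1 e1
      rw [← ha1, ← he1] at h
      have hgn : g.natAbs = Int.gcd a e := by rw [hg]; exact Int.natAbs_natCast _
      rw [hgn] at h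
      have : Int.gcd a e * 1 = Int.gcd a e * Int.gcd a1 e1 := by rw [mul_one]; exact h
      exact (Nat.eq_of_mul_eq_mul_left hgpos this).symm
    have hb : g ^ 2 ∣ b ^ 2 := ⟨a1 ^ 2 - e1 ^ 2, by
      have : b ^ 2 = a ^ 2 - e ^ 2 := by linear_combination -h1
      rw [this, ha1, he1]; ring⟩
    obtain ⟨b1, hb1⟩ := (Int.pow_dvd_pow_iff (by norm_num : (2 : ℕ) ≠ 0)).mp hb
    have hc : g ^ 2 ∣ c ^ 2 := ⟨a1 ^ 2 - 81 * e1 ^ 2, by
      have : c ^ 2 = a ^ 2 - 81 * e ^ 2 := by linear_combination -h2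
      rw [this, ha1, he1]; ring⟩
    obtain ⟨c1, hc1⟩ := (Int.pow_dvd_pow_iff (by norm_num : (2 : ℕ) ≠ 0)).mp hc
    have h1' : a1 ^ 2 = b1 ^ 2 + e1 ^ 2 := by
      apply mul_left_cancel₀ hg2
      rw [ha1, hb1, he1] at h1
      linear_combination h1
    have h2' : a1 ^ 2 = c1 ^ 2 + 81 * e1 ^ 2 := by
      apply mul_left_cancel₀ hg2
      rw [ha1, hc1, he1] at h2
      linear_combination h2
    have he10 : e1 ≠ 0 := by
      rintro rfl; apply he; rw [he1]; ring
    have ha10 : a1 ≠ 0 := by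
      rintro rfl
      have : b1 ^ 2 + e1 ^ 2 = 0 := by rw [← h1']; ring
      have : e1 ^ 2 = 0 := by nlinarith [sq_nonneg b1, sq_nonneg e1]
      exact he10 (pow_eq_zero_iff (by norm_num) |>.mp this)
    have hcop' : IsCoprime |a1| e1 := by
      rcases abs_choice a1 with h | h
      · rw [h]; exact hcop
      · rw [h]; exact hcop.neg_left
    obtain ⟨a', b', c', e', he', hlt, h1'', h2''⟩ :=
      step (a := |a1|) (b := |b1|) (c := c1) (e := e1) (abs_pos.mpr ha10) (abs_nonneg _) he10 hcop'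
        (by rw [sq_abs, sq_abs]; exact h1') (by rw [sq_abs]; exact h2')
    have hle : a1.natAbs ≤ a.natAbs := by
      rw [ha1, Int.natAbs_mul]
      exact Nat.le_mul_of_pos_left _ (Int.natAbs_pos.mpr hg0)
    have hlt' : a'.natAbs < N := by
      rw [Int.natAbs_abs] at hlt
      omega
    exact he' (ih _ hlt' a' b' c' e' rfl h1'' h2'')

/-- No rational solutions of `α² = β² + δ² = γ² + 81 δ²` with `δ ≠ 0`. -/
theorem rat_system (α β γ δ : ℚ) (h1 : α ^ 2 = β ^ 2 + δ ^ 2) (h2 : α ^ 2 = γ ^ 2 + 81 * δ ^ 2) :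
    δ = 0 := by
  have hα := Rat.mul_den_eq_num α
  have hβ := Rat.mul_den_eq_num β
  have hγ := Rat.mul_den_eq_num γ
  have hδ := Rat.mul_den_eq_num δ
  have dα : (α.den : ℚ) ≠ 0 := Nat.cast_ne_zero.mpr α.den_nz
  have dβ : (β.den : ℚ) ≠ 0 := Nat.cast_ne_zero.mpr β.den_nz
  have dγ : (γ.den : ℚ) ≠ 0 := Nat.cast_ne_zero.mpr γ.den_nz
  have dδ : (δ.den : ℚ) ≠ 0 := Nat.cast_ne_zero.mpr δ.den_nz
  have key := int_system _ (α.num * (β.den * γ.den * δ.den)) (β.num * (α.den * γ.den * δ.den))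
    (γ.num * (α.den * β.den * δ.den)) (δ.num * (α.den * β.den * γ.den)) rfl
    (by
      have : ((α.num * (β.den * γ.den * δ.den) : ℤ) : ℚ) ^ 2 =
          ((β.num * (α.den * γ.den * δ.den) : ℤ) : ℚ) ^ 2 +
            ((δ.num * (α.den * β.den * γ.den) : ℤ) : ℚ) ^ 2 := by
        push_cast
        rw [← hα, ← hβ, ← hδ]
        linear_combination ((α.den : ℚ) * β.den * γ.den * δ.den) ^ 2 * h1
      exact_mod_cast this)
    (by
      have : ((α.num * (β.den * γ.den * δ.den) : ℤ) : ℚ) ^ 2 =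
          ((γ.num * (α.den * β.den * δ.den) : ℤ) : ℚ) ^ 2 +
            81 * ((δ.num * (α.den * β.den * γ.den) : ℤ) : ℚ) ^ 2 := by
        push_cast
        rw [← hα, ← hγ, ← hδ]
        linear_combination ((α.den : ℚ) * β.den * γ.den * δ.den) ^ 2 * h2
      exact_mod_cast this)
  have hnum : δ.num = 0 := by
    rcases mul_eq_zero.mp key with h | h
    · exact h
    · exfalso
      have h' : ((α.den * β.den * γ.den : ℤ) : ℚ) = 0 := by rw [h]; simp
      push_cast at h'
      exact mul_ne_zero (mul_ne_zero dα dβ) dγ h'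
  exact Rat.zero_of_num_zero hnum

/-- The isogenous curve `y² = x (x - 1) (x - 81)` has no rational points with `y ≠ 0`. -/
theorem isog_points (x y : ℚ) (h : y ^ 2 = x * (x - 1) * (x - 81)) : y = 0 := by
  have := rat_system (x ^ 2 - 81) (x ^ 2 - 2 * x + 81) (x ^ 2 - 162 * x + 81) (2 * y)
    (by linear_combination (-4 : ℚ) * h) (by linear_combination (-324 : ℚ) * h)
  linarith

/-- Rational points of `Y² = X (X - 9) (X - 25)`. -/
theorem x0_15_points (X Y : ℚ) (h : Y ^ 2 = X * (X - 9) * (X - 25)) :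
    X = 0 ∨ X = 9 ∨ X = 25 ∨ X = 5 ∨ X = 45 := by
  by_cases h25 : X = 25
  · right; right; left; exact h25
  have hne : X - 25 ≠ 0 := sub_ne_zero.mpr h25
  have hy := isog_points (X * (X - 9) / (X - 25)) (Y * (X - 5) * (X - 45) / (X - 25) ^ 2) (by
    field_simp
    linear_combination ((X - 5) ^ 2 * (X - 45) ^ 2) * h)
  have hy' : Y * (X - 5) * (X - 45) = 0 := by
    rcases div_eq_zero_iff.mp hy with h' | h'
    · exact h'
    · exact absurd h' (pow_ne_zero 2 hne)
  rcases mul_eq_zero.mp hy' with h' | h'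
  · rcases mul_eq_zero.mp h' with hY | h5
    · rw [hY] at h
      have h0 : X * (X - 9) * (X - 25) = 0 := by rw [← h]; ring
      rcases mul_eq_zero.mp h0 with h'' | h''
      · rcases mul_eq_zero.mp h'' with h3 | h3
        · left; exact h3
        · right; left; linarith
      · exact absurd h'' hne
    · right; right; right; left; linarith
  · right; right; right; right; linarith

end Fermat.Agent.S51.helper291
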