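import Mathlib

/-!
# S51 helper (helper51): cardinality bound for torsion subgroups via root counting

If the `x`-coordinate of every affine point of a set `T` of points of a Weierstrass curve is a
root of a fixed nonzero polynomial `f`, then `T` is finite with at most `2 * natDegree f + 1`
elements.
-/

set_option autoImplicit false

namespace Fermat.Agent.S51.helper51

open WeierstrassCurve WeierstrassCurve.Affine Polynomial

variable {F : Type*} [Field F]

/-- The quadratic polynomial in `y` cutting out the points with given `x`. -/
noncomputable def yPoly (W : Affine F) (x : F) : F[X] :=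
  X ^ 2 + C (W.a₁ * x + W.a₃) * X - C (x ^ 3 + W.a₂ * x ^ 2 + W.a₄ * x + W.a₆)

lemma yPoly_natDegree (W : Affine F) (x : F) : (yPoly W x).natDegree = 2 := by
  unfold yPoly; compute_degree!

lemma yPoly_ne_zero (W : Affine F) (x : F) : yPoly W x ≠ 0 := by
  intro h
  have := yPoly_natDegree W x
  rw [h, natDegree_zero] at this
  exact absurd this (by norm_num)

lemma yPoly_isRoot {W : Affine F} {x y : F} (h : W.Equation x y) : (yPoly W x).IsRoot y := by
  rw [Affine.equation_iff] at h
  simp only [yPoly, IsRoot.def, eval_sub, eval_add, eval_pow, eval_X, eval_mul, eval_C]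
  linear_combination h

/-- The coordinates of a point, as an element of `Option (F × F)`. -/
def coords {W : Affine F} : W.Point → Option (F × F)
  | .zero => none
  | .some x y _ => some (x, y)

lemma coords_injective {W : Affine F} : Function.Injective (coords (W := W)) := by
  rintro (_ | ⟨x₁, y₁, h₁⟩) (_ | ⟨x₂, y₂, h₂⟩) h <;>
    simp only [coords, Option.some.injEq, Prod.mk.injEq, reduceCtorEq] at h
  · rfl
  · obtain ⟨rfl, rfl⟩ := h; rfl

open Classical in
/-- Root-counting bound. -/
theorem card_le_of_roots (W : Affine F) (f : F[X]) (hf : f ≠ 0) (T : Set W.Point)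
    (hT : ∀ (x y : F) (h : W.Nonsingular x y), Point.some x y h ∈ T → f.eval x = 0) :
    T.Finite ∧ T.ncard ≤ 2 * f.natDegree + 1 := by
  -- the finite set of candidate coordinates
  let S : Finset (F × F) :=
    f.roots.toFinset.biUnion fun x => (yPoly W x).roots.toFinset.image fun y => (x, y)
  have hS : S.card ≤ f.natDegree * 2 := by
    refine (Finset.card_biUnion_le_card_mul _ _ 2 ?_).trans ?_
    · intro x _
      refine Finset.card_image_le.trans ?_
      refine (Multiset.toFinset_card_le _).trans ?_
      exact (card_roots' _).trans (yPoly_natDegree W x).le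
    · exact Nat.mul_le_mul_right 2 ((Multiset.toFinset_card_le _).trans (card_roots' _))
  let S' : Finset (Option (F × F)) := insert none (S.image some)
  have hS' : S'.card ≤ 2 * f.natDegree + 1 := by
    refine (Finset.card_insert_le _ _).trans ?_
    have := (Finset.card_image_le (s := S) (f := some)).trans hS
    omega
  have hsub : coords '' T ⊆ (S' : Set (Option (F × F))) := by
    rintro _ ⟨P, hP, rfl⟩
    cases P with
    | zero => simp [S', coords]
    | some x y h =>
      have hx : f.eval x = 0 := hT x y h hP
      simp only [coords, S', Finset.coe_insert, Finset.coe_image, Set.mem_insert_iff,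
        reduceCtorEq, Set.mem_image, Finset.mem_coe, Option.some.injEq, exists_eq_right, false_or]
      simp only [S, Finset.mem_biUnion, Multiset.mem_toFinset, Finset.mem_image]
      exact ⟨x, (mem_roots hf).mpr hx, y, (mem_roots (yPoly_ne_zero W x)).mpr (yPoly_isRoot h.1),
        rfl⟩
  have hfin : (coords '' T).Finite := S'.finite_toSet.subset hsub
  have hTfin : T.Finite := hfin.of_finite_image coords_injective.injOn
  refine ⟨hTfin, ?_⟩
  rw [← Set.ncard_image_of_injective T coords_injective]
  calc (coords '' T).ncard ≤ (S' : Set (Option (F × F))).ncard :=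
        Set.ncard_le_ncard hsub S'.finite_toSet
    _ = S'.card := Set.ncard_coe_finset S'
    _ ≤ 2 * f.natDegree + 1 := hS'

end Fermat.Agent.S51.helper51
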