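import Mathlib
import Fermat.Agent.S51.helper1971_Torsion

/-!
# S51 helper (helper679): cardinality bounds for `E[3]` and `E[5]`

If the `x`-coordinates of all nonzero points killed by `n` are roots of a nonzero polynomial `p`,
then the `n`-torsion is finite with at most `2 * natDegree p + 1` elements.  With the division
polynomials of `helper1971_Torsion` this gives `|E[3]| ≤ 9` and `|E[5]| ≤ 25`.
-/

set_option autoImplicit false

namespace Fermat.Agent.S51.helper679

open WeierstrassCurve WeierstrassCurve.Affine Polynomial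

section Card

variable {F : Type*} [Field F] [DecidableEq F] {W : Affine F}

omit [DecidableEq F] in
/-- Two affine points with the same `x`-coordinate are equal or opposite. -/
theorem some_eq_or_eq_neg {x y y' : F} (h : W.Nonsingular x y) (h' : W.Nonsingular x y') :
    Point.some x y h = Point.some x y' h' ∨ Point.some x y h = -Point.some x y' h' :=
  (Point.X_eq_iff (h₁ := h) (h₂ := h')).mp rfl

/-- If the `x`-coordinates of the nonzero points killed by `n` are roots of a nonzero
polynomial `p`, there are at most `2 * natDegree p + 1` points killed by `n`. -/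
theorem torsion_set_finite_ncard_le (n : ℤ) (p : F[X]) (hp : p ≠ 0)
    (hroot : ∀ (x y : F) (h : W.Nonsingular x y), n • Point.some x y h = 0 → p.eval x = 0) :
    {P : W.Point | n • P = 0}.Finite ∧ {P : W.Point | n • P = 0}.ncard ≤ 2 * p.natDegree + 1 := by
  classical
  let fib : F → Finset W.Point := fun x =>
    if hx : ∃ y, W.Nonsingular x y then
      {Point.some x hx.choose hx.choose_spec, -Point.some x hx.choose hx.choose_spec}
    else ∅
  let T : Finset W.Point := insert 0 (p.roots.toFinset.biUnion fib)
  have hsub : {P : W.Point | n • P = 0} ⊆ (T : Set W.Point) := by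
    rintro (_ | ⟨x, y, h⟩) hP
    · exact Finset.mem_coe.mpr (Finset.mem_insert_self _ _)
    · refine Finset.mem_coe.mpr (Finset.mem_insert_of_mem (Finset.mem_biUnion.mpr ⟨x, ?_, ?_⟩))
      · rw [Multiset.mem_toFinset, mem_roots hp]
        exact hroot x y h hP
      · have hx : ∃ y, W.Nonsingular x y := ⟨y, h⟩
        simp only [fib, dif_pos hx, Finset.mem_insert, Finset.mem_singleton]
        exact some_eq_or_eq_neg h hx.choose_spec
  have hfib : ∀ x ∈ p.roots.toFinset, (fib x).card ≤ 2 := by
    intro x _
    by_cases hx : ∃ y, W.Nonsingular x y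
    · simp only [fib, dif_pos hx]
      exact Finset.card_le_two
    · simp only [fib, dif_neg hx, Finset.card_empty]
      exact Nat.zero_le _
  have hT : T.card ≤ 2 * p.natDegree + 1 := by
    have h0 : T.card ≤ (p.roots.toFinset.biUnion fib).card + 1 := Finset.card_insert_le _ _
    have h1 : (p.roots.toFinset.biUnion fib).card ≤ p.roots.toFinset.card * 2 :=
      Finset.card_biUnion_le_card_mul _ _ _ hfib
    have h2 : p.roots.toFinset.card ≤ Multiset.card p.roots := Multiset.toFinset_card_le _
    have h3 : Multiset.card p.roots ≤ p.natDegree := card_roots' p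
    omega
  refine ⟨T.finite_toSet.subset hsub, ?_⟩
  calc {P : W.Point | n • P = 0}.ncard ≤ (T : Set W.Point).ncard :=
        Set.ncard_le_ncard hsub T.finite_toSet
    _ = T.card := Set.ncard_coe_finset T
    _ ≤ 2 * p.natDegree + 1 := hT

/-- Version for the torsion submodule used in the frozen definitions. -/
theorem torsionBy_finite_card_le (n : ℕ) (p : F[X]) (hp : p ≠ 0)
    (hroot : ∀ (x y : F) (h : W.Nonsingular x y),
      (n : ℤ) • Point.some x y h = 0 → p.eval x = 0) :
    Finite (Submodule.torsionBy ℤ W.Point (n : ℤ)) ∧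
      Nat.card (Submodule.torsionBy ℤ W.Point (n : ℤ)) ≤ 2 * p.natDegree + 1 := by
  obtain ⟨hfin, hcard⟩ := torsion_set_finite_ncard_le (W := W) (n : ℤ) p hp hroot
  have hset : ((Submodule.torsionBy ℤ W.Point (n : ℤ) : Submodule ℤ W.Point) : Set W.Point) =
      {P : W.Point | (n : ℤ) • P = 0} := by
    ext P
    simp only [SetLike.mem_coe, Submodule.mem_torsionBy_iff, Set.mem_ofPred_eq]
  have hfin' : ((Submodule.torsionBy ℤ W.Point (n : ℤ) : Submodule ℤ W.Point) :
      Set W.Point).Finite := by
    rw [hset]; exact hfin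
  refine ⟨hfin'.to_subtype, ?_⟩
  have hc : Nat.card (Submodule.torsionBy ℤ W.Point (n : ℤ)) =
      ((Submodule.torsionBy ℤ W.Point (n : ℤ) : Submodule ℤ W.Point) : Set W.Point).ncard :=
    Nat.card_coe_set_eq _
  rw [hc, hset]
  exact hcard

/-- `E[3]` is finite with at most `9` elements (if `3 ≠ 0` in `F`). -/
theorem three_torsion_finite_card_le (W : Affine F) (h3 : (3 : F) ≠ 0) :
    Finite (Submodule.torsionBy ℤ W.Point ((3 : ℕ) : ℤ)) ∧
      Nat.card (Submodule.torsionBy ℤ W.Point ((3 : ℕ) : ℤ)) ≤ 9 := by
  obtain ⟨hfin, hcard⟩ := torsionBy_finite_card_le (W := W) 3 (helper1971.psi3Poly W)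
    (helper1971.psi3Poly_ne_zero W h3) (fun x y h hP => by
      rw [helper1971.eval_psi3Poly]
      exact helper1971.psi3_eq_zero_of_three_torsion h (by simpa using hP))
  refine ⟨hfin, hcard.trans ?_⟩
  have := helper1971.natDegree_psi3Poly_le W
  omega

/-- `E[5]` is finite with at most `25` elements (if `5 ≠ 0` in `F`). -/
theorem five_torsion_finite_card_le (W : Affine F) (h5 : (5 : F) ≠ 0) :
    Finite (Submodule.torsionBy ℤ W.Point ((5 : ℕ) : ℤ)) ∧
      Nat.card (Submodule.torsionBy ℤ W.Point ((5 : ℕ) : ℤ)) ≤ 25 := by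
  obtain ⟨hfin, hcard⟩ := torsionBy_finite_card_le (W := W) 5 (helper1971.psi5Poly W)
    (helper1971.psi5Poly_ne_zero W h5) (fun x y h hP => by
      rw [helper1971.eval_psi5Poly]
      exact helper1971.psi5_eq_zero_of_five_torsion h (by simpa using hP))
  refine ⟨hfin, hcard.trans ?_⟩
  have := helper1971.natDegree_psi5Poly_le W
  omega

end Card

end Fermat.Agent.S51.helper679
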