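import Mathlib
import Fermat.Prelude.Def_FLTPrelim_GaloisRep
import Fermat.Prelude.Def_FLTPrelim_Modularity
import Fermat.Prelude.Def_FLTPrelim_ModularRep
import Fermat.Agent.S51.helper1971_Torsion
import Fermat.Agent.S51.helper2811_GaloisDescent
import Fermat.Agent.S51.helper531_Core
import Fermat.Agent.S51.helper531_Values
import Fermat.Agent.S51.helper679_Card

/-!
# S51 helper (helper679): assembly

`s51_of_descent`: the statement of S51 follows from the descent statement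
`helper531.DescentX015` (rational points of `Y² = X (X - 9) (X - 25)`).
-/

set_option autoImplicit false

namespace Fermat.Agent.S51.helper679

open WeierstrassCurve WeierstrassCurve.Affine WeierstrassCurve.Affine.Point

section Assembly

variable (E : WeierstrassCurve ℚ)

/-- The discriminant of the base change to the algebraic closure. -/
theorem baseChange_Δ (E : WeierstrassCurve ℚ) :
    (E⁄(AlgebraicClosure ℚ)).Δ = algebraMap ℚ (AlgebraicClosure ℚ) E.Δ :=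
  WeierstrassCurve.map_Δ E (algebraMap ℚ (AlgebraicClosure ℚ))

theorem baseChange_Δ_ne_zero (E : WeierstrassCurve ℚ) (hΔ : E.Δ ≠ 0) :
    (E⁄(AlgebraicClosure ℚ)).Δ ≠ 0 := by
  rw [baseChange_Δ]
  exact (map_ne_zero _).mpr hΔ

theorem baseChange_b₂ (E : WeierstrassCurve ℚ) :
    (E⁄(AlgebraicClosure ℚ)).b₂ = algebraMap ℚ (AlgebraicClosure ℚ) E.b₂ :=
  WeierstrassCurve.map_b₂ E (algebraMap ℚ (AlgebraicClosure ℚ))

theorem baseChange_b₄ (E : WeierstrassCurve ℚ) :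
    (E⁄(AlgebraicClosure ℚ)).b₄ = algebraMap ℚ (AlgebraicClosure ℚ) E.b₄ :=
  WeierstrassCurve.map_b₄ E (algebraMap ℚ (AlgebraicClosure ℚ))

theorem baseChange_b₆ (E : WeierstrassCurve ℚ) :
    (E⁄(AlgebraicClosure ℚ)).b₆ = algebraMap ℚ (AlgebraicClosure ℚ) E.b₆ :=
  WeierstrassCurve.map_b₆ E (algebraMap ℚ (AlgebraicClosure ℚ))

theorem baseChange_b₈ (E : WeierstrassCurve ℚ) :
    (E⁄(AlgebraicClosure ℚ)).b₈ = algebraMap ℚ (AlgebraicClosure ℚ) E.b₈ :=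
  WeierstrassCurve.map_b₈ E (algebraMap ℚ (AlgebraicClosure ℚ))

/-- `E[3]` over the algebraic closure is nontrivial. -/
theorem nontrivial_three (E : WeierstrassCurve ℚ) (hΔ : E.Δ ≠ 0) :
    Nontrivial (Submodule.torsionBy ℤ (E⁄(AlgebraicClosure ℚ)).Point (3 : ℕ)) := by
  obtain ⟨P, hP0, hP3⟩ := helper1971.exists_three_torsion
    (W := E⁄(AlgebraicClosure ℚ)) (by norm_num) (baseChange_Δ_ne_zero E hΔ)
  refine ⟨⟨⟨P, ?_⟩, 0, ?_⟩⟩
  · rw [Submodule.mem_torsionBy_iff]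
    simpa using hP3
  · intro h
    exact hP0 (congrArg Subtype.val h)

/-- `E[5]` over the algebraic closure is nontrivial. -/
theorem nontrivial_five (E : WeierstrassCurve ℚ) (hΔ : E.Δ ≠ 0) :
    Nontrivial (Submodule.torsionBy ℤ (E⁄(AlgebraicClosure ℚ)).Point (5 : ℕ)) := by
  obtain ⟨P, hP0, hP5⟩ := helper1971.exists_five_torsion
    (W := E⁄(AlgebraicClosure ℚ)) (by norm_num) (baseChange_Δ_ne_zero E hΔ)
  refine ⟨⟨⟨P, ?_⟩, 0, ?_⟩⟩
  · rw [Submodule.mem_torsionBy_iff]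
    simpa using hP5
  · intro h
    exact hP0 (congrArg Subtype.val h)

/-- Negation of irreducibility (given nontriviality): a proper nonzero stable submodule. -/
theorem exists_stable_of_not_irreducible (E : WeierstrassCurve ℚ) (n : ℕ)
    (hnt : Nontrivial (Submodule.torsionBy ℤ (E⁄(AlgebraicClosure ℚ)).Point n))
    (h : ¬ GaloisRepIsIrreducible (K := AlgebraicClosure ℚ) ℚ E n) :
    ∃ N : Submodule (ZMod n) (Submodule.torsionBy ℤ (E⁄(AlgebraicClosure ℚ)).Point n),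
      IsGaloisStable ℚ N ∧ N ≠ ⊥ ∧ N ≠ ⊤ := by
  by_contra hcon
  apply h
  refine ⟨hnt, fun N hN => ?_⟩
  by_contra hN'
  rw [not_or] at hN'
  exact hcon ⟨N, hN, hN'.1, hN'.2⟩

/-- **3-part**: if the mod `3` representation is reducible, the `3`-division polynomial has a
rational root. -/
theorem three_part (E : WeierstrassCurve ℚ) (hΔ : E.Δ ≠ 0)
    (h : ¬ GaloisRepIsIrreducible (K := AlgebraicClosure ℚ) ℚ E 3) :
    ∃ x₀ : ℚ, 3 * x₀ ^ 4 + E.b₂ * x₀ ^ 3 + 3 * E.b₄ * x₀ ^ 2 + 3 * E.b₆ * x₀ + E.b₈ = 0 := by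
  obtain ⟨N, hN, h0, h1⟩ := exists_stable_of_not_irreducible E 3 (nontrivial_three E hΔ) h
  obtain ⟨hfin, hcard⟩ := three_torsion_finite_card_le (E⁄(AlgebraicClosure ℚ)) (by norm_num)
  have := hfin
  obtain ⟨P, x, y, hxy, q, hPN, hP, hq⟩ :=
    helper2811.three_stable_imp (E := E) (by omega) N hN h0 h1
  have hP3 : (3 : ℤ) • Point.some x y hxy = 0 := by
    rw [← hP]
    exact_mod_cast Submodule.smul_coe_torsionBy _ P
  have hpsi := helper1971.psi3_eq_zero_of_three_torsion hxy hP3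
  refine ⟨q, ?_⟩
  apply (algebraMap ℚ (AlgebraicClosure ℚ)).injective
  rw [helper1971.psi3, baseChange_b₂, baseChange_b₄, baseChange_b₆, baseChange_b₈, ← hq] at hpsi
  simp only [map_add, map_mul, map_pow, map_ofNat, _root_.map_zero]
  exact hpsi

/-- **5-part**: if the mod `5` representation is reducible, there is a point `P` of order `5`
such that the `x`-coordinates `x₁, x₂` of `P, 2P` have rational sum and product. -/
theorem five_part (E : WeierstrassCurve ℚ) (hΔ : E.Δ ≠ 0)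
    (h : ¬ GaloisRepIsIrreducible (K := AlgebraicClosure ℚ) ℚ E 5) :
    ∃ (x₁ x₂ : AlgebraicClosure ℚ) (e₁ e₂ : ℚ),
      algebraMap ℚ (AlgebraicClosure ℚ) e₁ = x₁ + x₂ ∧
      algebraMap ℚ (AlgebraicClosure ℚ) e₂ = x₁ * x₂ ∧ x₁ ≠ x₂ ∧
      helper1971.Mx (E⁄(AlgebraicClosure ℚ)) x₁ ≠ 0 ∧
      helper1971.Mx (E⁄(AlgebraicClosure ℚ)) x₂ ≠ 0 ∧
      helper1971.Nx (E⁄(AlgebraicClosure ℚ)) x₁ = x₂ * helper1971.Mx (E⁄(AlgebraicClosure ℚ)) x₁ ∧
      helper1971.Nx (E⁄(AlgebraicClosure ℚ)) x₂ = x₁ * helper1971.Mx (E⁄(AlgebraicClosure ℚ)) x₂ := by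
  obtain ⟨N, hN, h0, h1⟩ := exists_stable_of_not_irreducible E 5 (nontrivial_five E hΔ) h
  obtain ⟨hfin, hcard⟩ := five_torsion_finite_card_le (E⁄(AlgebraicClosure ℚ)) (by norm_num)
  have := hfin
  obtain ⟨P, x₁, y₁, x₂, y₂, h₁, h₂, e₁, e₂, hPN, hP, hPP, he₁, he₂⟩ :=
    helper2811.five_stable_imp (E := E) (by omega) N hN h0 h1
  have hP5 : (5 : ℤ) • Point.some x₁ y₁ h₁ = 0 := by
    rw [← hP]
    exact_mod_cast Submodule.smul_coe_torsionBy _ P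
  obtain ⟨x₂', y₂', h₂', hadd, hne, hM₁, hM₂, hN₁, hN₂⟩ := helper1971.five_torsion_rel h₁ hP5
  rw [hP] at hPP
  rw [hPP] at hadd
  have hx : x₂ = x₂' := ((Point.some.injEq ..).mp hadd).1
  subst hx
  exact ⟨x₁, x₂, e₁, e₂, he₁, he₂, hne, hM₁, hM₂, hN₁, hN₂⟩

/-- **Algebraic core over `ℚ`**: from the outputs of the 3-part and the 5-part and the descent
statement, the invariant `s` takes one of four values and satisfies (R3). -/
theorem core_rat (hD : helper531.DescentX015) (E : WeierstrassCurve ℚ) (hΔ : E.Δ ≠ 0)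
    (x₀ : ℚ) (h3 : 3 * x₀ ^ 4 + E.b₂ * x₀ ^ 3 + 3 * E.b₄ * x₀ ^ 2 + 3 * E.b₆ * x₀ + E.b₈ = 0)
    (x₁ x₂ : AlgebraicClosure ℚ) (e₁ e₂ : ℚ)
    (he₁ : algebraMap ℚ (AlgebraicClosure ℚ) e₁ = x₁ + x₂)
    (he₂ : algebraMap ℚ (AlgebraicClosure ℚ) e₂ = x₁ * x₂) (hne : x₁ ≠ x₂)
    (hM₁ : helper1971.Mx (E⁄(AlgebraicClosure ℚ)) x₁ ≠ 0)
    (hN₁ : helper1971.Nx (E⁄(AlgebraicClosure ℚ)) x₁ =
      x₂ * helper1971.Mx (E⁄(AlgebraicClosure ℚ)) x₁)
    (hN₂ : helper1971.Nx (E⁄(AlgebraicClosure ℚ)) x₂ =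
      x₁ * helper1971.Mx (E⁄(AlgebraicClosure ℚ)) x₂) :
    ∃ s : ℚ, (s = 1 ∨ s = -29 ∨ s = -3 / 2 ∨ s = 63 / 8) ∧
      E.c₄ ^ 3 * (s - 11) = ((s - 11) ^ 2 + 10 * (s - 11) + 5) ^ 3 * E.Δ := by
  set ι := algebraMap ℚ (AlgebraicClosure ℚ) with hι
  have hinj : Function.Injective ι := ι.injective
  set D : ℚ := e₁ ^ 2 - 4 * e₂ with hDdef
  have hιD : ι D = (x₁ - x₂) ^ 2 := by
    rw [hDdef, map_sub, map_pow, map_mul, map_ofNat, he₁, he₂]
    ring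
  have hD0 : D ≠ 0 := by
    intro h0
    rw [h0, _root_.map_zero] at hιD
    exact hne (sub_eq_zero.mp ((pow_eq_zero_iff (two_ne_zero)).mp hιD.symm))
  have hιD0 : ι D ≠ 0 := (map_ne_zero ι).mpr hD0
  set θ : ℚ := (2 * x₀ - e₁) ^ 2 / D with hθdef
  set m : ℚ := (E.b₂ + 6 * e₁) * (2 * x₀ - e₁) / D with hmdef
  set s : ℚ := ((E.b₂ + 6 * e₁) ^ 2 + 12 * D - (E.b₂ ^ 2 - 24 * E.b₄)) / (12 * D) with hsdef
  have hb8 : 4 * ι E.b₈ = ι E.b₂ * ι E.b₆ - ι E.b₄ ^ 2 := by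
    have := congrArg ι E.b_relation
    simpa only [map_sub, map_mul, map_pow, map_ofNat] using this
  have h3' : 3 * ι x₀ ^ 4 + ι E.b₂ * ι x₀ ^ 3 + 3 * ι E.b₄ * ι x₀ ^ 2 + 3 * ι E.b₆ * ι x₀
      + ι E.b₈ = 0 := by
    have := congrArg ι h3
    simpa only [map_add, map_mul, map_pow, map_ofNat, _root_.map_zero] using this
  rw [helper1971.Mx, baseChange_b₂, baseChange_b₄, baseChange_b₆] at hM₁
  rw [helper1971.Nx, helper1971.Mx, baseChange_b₂, baseChange_b₄, baseChange_b₆, baseChange_b₈]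
    at hN₁ hN₂
  have hθ : ι θ = (2 * ι x₀ - (x₁ + x₂)) ^ 2 / (x₁ - x₂) ^ 2 := by
    rw [hθdef, map_div₀, hιD, map_pow, map_sub, map_mul, map_ofNat, he₁]
  have hm : ι m = (ι E.b₂ + 6 * (x₁ + x₂)) * (2 * ι x₀ - (x₁ + x₂)) / (x₁ - x₂) ^ 2 := by
    rw [hmdef, map_div₀, hιD, map_mul, map_add, map_sub, map_mul, map_mul, map_ofNat, map_ofNat,
      he₁]
  have hs : ι s = ((ι E.b₂ + 6 * (x₁ + x₂)) ^ 2 + 12 * (x₁ - x₂) ^ 2
      - (ι E.b₂ ^ 2 - 24 * ι E.b₄)) / (12 * (x₁ - x₂) ^ 2) := by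
    rw [hsdef, map_div₀, map_mul, hιD, map_sub, map_add, map_pow, map_add, map_mul, map_mul,
      hιD, map_sub, map_pow, map_mul, map_ofNat, map_ofNat, map_ofNat, he₁]
  obtain ⟨R1, R2, R3⟩ := helper531.core_identities (ι E.b₂) (ι E.b₄) (ι E.b₆) (ι E.b₈) (ι x₀)
    x₁ x₂ hb8 hne hM₁ hN₁ hN₂ h3' (ι θ) (ι m) (ι s) hθ hm hs
  have R1' : m ^ 2 = (s ^ 2 + 4) * θ := by
    apply hinj
    simpa only [map_add, map_mul, map_pow, map_ofNat] using R1
  have R2' : 2 * s * (1 + 3 * θ) + 2 * m * (3 + θ) + 3 * (1 - θ) ^ 2 = 0 := by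
    apply hinj
    simpa only [map_add, map_sub, map_mul, map_pow, map_ofNat, map_one, _root_.map_zero] using R2
  have R3' : E.c₄ ^ 3 * (s - 11) = ((s - 11) ^ 2 + 10 * (s - 11) + 5) ^ 3 * E.Δ := by
    apply hinj
    simp only [WeierstrassCurve.c₄, WeierstrassCurve.Δ]
    simpa only [map_add, map_sub, map_mul, map_pow, map_ofNat, map_neg] using R3
  have hs11 : s ≠ 11 := by
    intro h11
    rw [h11] at R3'
    apply hΔ
    have : (125 : ℚ) * E.Δ = 0 := by linear_combination -R3'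
    simpa using this
  exact ⟨s, helper531.s_values hD s θ m R1' R2' hs11, R3'⟩

/-- **Assembly**: the statement of S51 follows from the descent statement. -/
theorem s51_of_descent (hD : helper531.DescentX015) (W : WeierstrassCurve ℤ) (hΔ : W.Δ ≠ 0)
    (hW : W.IsSemistableModel) : W.ModRepIsIrreducible 3 ∨ W.ModRepIsIrreducible 5 := by
  by_contra hcon
  rw [not_or] at hcon
  obtain ⟨h3, h5⟩ := hcon
  have hc4 : (W.map (Int.castRingHom ℚ)).c₄ = (W.c₄ : ℚ) := by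
    rw [WeierstrassCurve.map_c₄]; rfl
  have hΔ' : (W.map (Int.castRingHom ℚ)).Δ = (W.Δ : ℚ) := by
    rw [WeierstrassCurve.map_Δ]; rfl
  have hΔE : (W.map (Int.castRingHom ℚ)).Δ ≠ 0 := by
    rw [hΔ']; exact_mod_cast hΔ
  obtain ⟨x₀, hx₀⟩ := three_part _ hΔE h3
  obtain ⟨x₁, x₂, e₁, e₂, he₁, he₂, hne, hM₁, -, hN₁, hN₂⟩ := five_part _ hΔE h5
  obtain ⟨s, hs, hR3⟩ := core_rat hD _ hΔE x₀ hx₀ x₁ x₂ e₁ e₂ he₁ he₂ hne hM₁ hN₁ hN₂
  rw [hc4, hΔ'] at hR3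
  obtain ⟨d1, d2⟩ := helper531.five_dvd_of_s_values W.c₄ W.Δ s hs hR3
  exact hW 5 (by norm_num) (by exact_mod_cast d2) (by exact_mod_cast d1)

end Assembly

end Fermat.Agent.S51.helper679
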